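/-
DS / chapter G-RED, Igusa route (IGU), brick IGU-ABS part (I) (helper51):
**uniqueness of the Gauss valuation ring from (DEG)+(IRR)**.

`F` a field, `W` a valuation subring of `F` all of whose elements are integral over a subring `R`,
and whose non-units are multiples of one element `ϖ`.  Then every valuation subring `W'` of `F`
containing `R` in which `ϖ` is not invertible equals `W`  (`eq_of_isIntegral_of_unif`).

In the Gauss vocabulary of `RED/PUR/G1Package8` (`O` a DVR of `K`, `E ≤ fracField O` inside `K((q))`,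
`tG` a Gauss-integral parameter with transcendental reduction): from `DegLe O E tG n` and
`Irr O E tG n` the Gauss valuation ring `OvE` of `E` is the ONLY valuation subring of `E` whose trace
on `K(t)` is the Gauss ring (`OvE_unique`, `OvE_unique_of_trace`), and for a bigger field `L ≥ E`
every valuation subring of `L` with Gauss trace on `K(t)` has Gauss trace on `E`
(`mem_iff_of_le`: this is the hypothesis `huniq` of `DS/Igu77/DecompTop.stab_eq_top`).
-/
import Mathlib
import Fermat.Agent.RED.PUR.G1Package8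

set_option autoImplicit false
set_option linter.unusedSectionVars false

noncomputable section

open HahnSeries ModularCurve Polynomial

namespace Fermat.Agent.DS.G.RED.Igusa.Abs51Uniq

open Fermat.Agent.RED.PUR.GaussGen8 Fermat.Agent.RED.PUR.KtGauss8
open Fermat.Agent.RED.PUR.G1Package8

section Abstract

variable {F : Type*} [Field F]

/-- a valuation subring contains every element integral over one of its subrings. -/
theorem mem_of_isIntegral (W' : ValuationSubring F) (R : Subring F) (hR : ∀ x ∈ R, x ∈ W')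
    {x : F} (hx : IsIntegral ↥R x) : x ∈ W' := by
  let φ : ↥R →+* ↥W' :=
    { toFun := fun y => ⟨(y : F), hR y y.2⟩
      map_one' := rfl
      map_mul' := fun _ _ => rfl
      map_zero' := rfl
      map_add' := fun _ _ => rfl }
  have h2 : IsIntegral ↥W' x := by
    have := hx.map_of_comp_eq φ (RingHom.id F) (by ext; rfl)
    simpa using this
  obtain ⟨y, hy⟩ := (IsIntegrallyClosed.isIntegral_iff (R := ↥W') (K := F)).mp h2
  rw [← hy]
  exact y.2

/-- **Uniqueness, abstract form**: `W` integral over `R`, non-units of `W` are multiples of `ϖ`;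
then `W` is the only valuation subring containing `R` in which `ϖ` is a non-unit. -/
theorem eq_of_isIntegral_of_unif (W W' : ValuationSubring F) (R : Subring F)
    (hR : ∀ x ∈ R, x ∈ W') (hint : ∀ x ∈ W, IsIntegral ↥R x) (ϖ : F) (hϖ : ϖ⁻¹ ∉ W')
    (hunif : ∀ x ∈ W, x⁻¹ ∉ W → ∃ c ∈ W, x = ϖ * c) : W' = W := by
  have hle : ∀ x ∈ W, x ∈ W' := fun x hx => mem_of_isIntegral W' R hR (hint x hx)
  ext x
  refine ⟨fun hx' => ?_, hle x⟩
  by_contra hxW
  have hx0 : x ≠ 0 := fun h => hxW (h ▸ W.zero_mem)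
  have hinv : x⁻¹ ∈ W := (W.mem_or_inv_mem x).resolve_left hxW
  obtain ⟨c, hc, hxc⟩ := hunif x⁻¹ hinv (by rwa [inv_inv])
  apply hϖ
  have hϖ0 : ϖ ≠ 0 := by
    rintro rfl
    rw [zero_mul] at hxc
    exact hx0 (inv_eq_zero.mp hxc)
  have : ϖ⁻¹ = c * x := by
    have h1 : ϖ * c * x = 1 := by rw [← hxc, inv_mul_cancel₀ hx0]
    rw [eq_comm, ← mul_right_inj' hϖ0, mul_inv_cancel₀ hϖ0, ← mul_assoc]
    exact h1
  rw [this]
  exact W'.mul_mem _ _ (hle c hc) hx'

end Abstract

section Gauss

variable {K : Type*} [Field K] (O : ValuationSubring K) [IsDiscreteValuationRing ↥O]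
  {π : ↥O} (hπ : Irreducible π)
  (E : IntermediateField K (LaurentSeries K)) (hE : E ≤ fracField O)
  (tG : ↥(gaussRing O))

variable {O E tG}

include hπ in
/-- **Uniqueness of the Gauss valuation ring** from (DEG)+(IRR): a valuation subring of `E`
containing `Ov0 = K(t) ∩ gaussRing` in which `π` is not invertible is the Gauss ring of `E`. -/
theorem OvE_unique (htr : Transcendental (Res O) (gaussRed O tG))
    (htE : (tG : LaurentSeries K) ∈ E) {n : ℕ} (hdeg : DegLe O E tG n) (hirr : Irr O E tG n)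
    (W' : ValuationSubring ↥E) (h0 : ∀ x ∈ Ov0 O E tG, x ∈ W')
    (hπ' : (algebraMap ↥O ↥E π)⁻¹ ∉ W') : W' = OvE O hπ E hE :=
  eq_of_isIntegral_of_unif (OvE O hπ E hE) W' (Ov0 O E tG) h0
    (fun x hx => span hπ hE htr htE hdeg hirr x hx) (algebraMap ↥O ↥E π) hπ'
    (fun _ hx hxi => exists_eq_pi_mul hπ hE hx hxi)

include hπ in
/-- `π ∈ K(t)`. -/
theorem coe_pi_mem_Kt : ((algebraMap ↥O ↥E π : ↥E) : LaurentSeries K) ∈ Kt O tG := by
  show algebraMap K (LaurentSeries K) ((π : ↥O) : K) ∈ Kt O tG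
  exact (Kt O tG).algebraMap_mem _

include hπ in
/-- **Uniqueness, trace form**: a valuation subring of `E` with the Gauss trace on `K(t)` is the
Gauss ring of `E`. -/
theorem OvE_unique_of_trace (htr : Transcendental (Res O) (gaussRed O tG))
    (htE : (tG : LaurentSeries K) ∈ E) {n : ℕ} (hdeg : DegLe O E tG n) (hirr : Irr O E tG n)
    (W' : ValuationSubring ↥E)
    (htrace : ∀ x : ↥E, (x : LaurentSeries K) ∈ Kt O tG →
      (x ∈ W' ↔ (x : LaurentSeries K) ∈ gaussRing O)) : W' = OvE O hπ E hE := by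
  refine OvE_unique hπ hE htr htE hdeg hirr W' (fun x hx => (htrace x hx.1).mpr hx.2) ?_
  intro h
  have hmem : (((algebraMap ↥O ↥E π)⁻¹ : ↥E) : LaurentSeries K) ∈ Kt O tG :=
    (Kt O tG).inv_mem (coe_pi_mem_Kt hπ)
  exact pi_inv_not_mem hπ hE ((mem_OvE_iff O hπ E hE _).mpr ((htrace _ hmem).mp h))

include hπ hE in
/-- **Uniqueness, membership form** (the shape consumed by `DS/Igu77/DecompTop`). -/
theorem mem_iff_of_trace (htr : Transcendental (Res O) (gaussRed O tG))
    (htE : (tG : LaurentSeries K) ∈ E) {n : ℕ} (hdeg : DegLe O E tG n) (hirr : Irr O E tG n)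
    (W' : ValuationSubring ↥E)
    (htrace : ∀ x : ↥E, (x : LaurentSeries K) ∈ Kt O tG →
      (x ∈ W' ↔ (x : LaurentSeries K) ∈ gaussRing O)) (x : ↥E) :
    x ∈ W' ↔ (x : LaurentSeries K) ∈ gaussRing O := by
  rw [OvE_unique_of_trace hπ hE htr htE hdeg hirr W' htrace, mem_OvE_iff]

include hπ hE in
/-- **`huniq`**: `E ≤ L ≤ fracField O`, (DEG)+(IRR) for `E`.  Every valuation subring of `L` with the
Gauss trace on `K(t)` has the Gauss trace on `E`. -/
theorem mem_iff_of_le (htr : Transcendental (Res O) (gaussRed O tG))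
    (htE : (tG : LaurentSeries K) ∈ E) {n : ℕ} (hdeg : DegLe O E tG n) (hirr : Irr O E tG n)
    (L : IntermediateField K (LaurentSeries K)) (hEL : E ≤ L)
    (W' : ValuationSubring ↥L)
    (htrace : ∀ x : ↥L, (x : LaurentSeries K) ∈ Kt O tG →
      (x ∈ W' ↔ (x : LaurentSeries K) ∈ gaussRing O))
    (x : ↥L) (hx : (x : LaurentSeries K) ∈ E) :
    x ∈ W' ↔ (x : LaurentSeries K) ∈ gaussRing O := by
  let ι : ↥E →+* ↥L := (IntermediateField.inclusion hEL).toRingHom
  have hι : ∀ y : ↥E, ((ι y : ↥L) : LaurentSeries K) = (y : LaurentSeries K) := fun _ => rfl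
  have hW : W'.comap ι = OvE O hπ E hE := by
    refine OvE_unique_of_trace hπ hE htr htE hdeg hirr (W'.comap ι) ?_
    intro y hy
    rw [ValuationSubring.mem_comap]
    exact htrace (ι y) hy
  have hxe : x = ι ⟨(x : LaurentSeries K), hx⟩ := Subtype.ext rfl
  have h1 : (⟨(x : LaurentSeries K), hx⟩ : ↥E) ∈ W'.comap ι ↔ x ∈ W' := by
    rw [ValuationSubring.mem_comap, ← hxe]
  rw [← h1, hW, mem_OvE_iff]

end Gauss

end Fermat.Agent.DS.G.RED.Igusa.Abs51Uniq
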