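/-
Programme DS (S48), chapter G-RED, sub-programme IGUSA, brick IGU-B (concrete half), helper29.

In helper8's generic Gauss setting `(O, π, E ≤ fracField O, t ∈ E ∩ gaussRing O, t̃ transcendental)`,
`K` of characteristic zero, `E` finite over `K(t)`:

  if every Gauss-integral element of `E` is a root of a monic polynomial with coefficients in
  `K(t) ∩ gaussRing O`  (hypothesis `hint`: the Gauss valuation is the ONLY extension of the Gauss
  valuation of `K(t)` to `E`; supplied by `DecompTop.coeff_minpoly_mem`),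

then `(IRR)` holds: `G1Package8.Irr O E t [E : K(t)]`, together with `(DEG)`.  These are literally the
inputs `hn hdeg hirr` of `RED/ModelAsm4.hasModel_of_g1`.

The work is done in `irr_core` for ABSTRACT fields `F₀ → F → K((q))` (fast elaboration); the
instantiation `F₀ := K(t) ⊂ E`, `F := E` is `irr_of_integral`.
-/
import Mathlib
import Fermat.Agent.RED.PUR.G1Package8
import Fermat.Agent.RED.ModelAsm4
import Fermat.Agent.IG.PR.FamilyForm20
import Fermat.Agent.DS.G.RED.Igusa.IrrAbstract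

set_option autoImplicit false
set_option linter.style.haveILetI false
set_option linter.unusedSectionVars false

noncomputable section

open HahnSeries ModularCurve Polynomial IntermediateField Module

namespace Fermat.Agent.DS.G.RED.Igusa.IrrOfSpan

open Fermat.Agent.RED.PUR.GaussGen8 Fermat.Agent.RED.PUR.KtGauss8
  Fermat.Agent.RED.PUR.G1Package8 Fermat.Agent.RED.NumInst4
  Fermat.Agent.DS.G.RED.Igusa.IrrAbstract

section Core

variable {K : Type*} [Field K] (O : ValuationSubring K) [IsDiscreteValuationRing ↥O]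
  {π : ↥O} (hπ : Irreducible π) (tG : ↥(gaussRing O))
  {F₀ F : Type*} [Field F₀] [Field F] [Algebra F₀ F]
  (ι : F →+* LaurentSeries K) (hfrac : ∀ x : F, ι x ∈ fracField O)

/-- The Gauss valuation subring of an abstract field `F` embedded in `Frac O((q))`. -/
def gaussSub : ValuationSubring F where
  carrier := {x | ι x ∈ gaussRing O}
  mul_mem' := fun {a b} ha hb => by
    show ι (a * b) ∈ gaussRing O
    rw [map_mul]; exact mul_mem ha hb
  one_mem' := by
    show ι 1 ∈ gaussRing O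
    rw [map_one]; exact one_mem _
  add_mem' := fun {a b} ha hb => by
    show ι (a + b) ∈ gaussRing O
    rw [map_add]; exact add_mem ha hb
  zero_mem' := by
    show ι 0 ∈ gaussRing O
    rw [map_zero]; exact zero_mem _
  neg_mem' := fun {a} ha => by
    show ι (-a) ∈ gaussRing O
    rw [map_neg]; exact neg_mem ha
  mem_or_inv_mem' := fun x => by
    rcases mem_or_inv_mem (isUnif_of_irreducible O hπ) (hfrac x) with h | h
    · exact Or.inl h
    · right
      show ι x⁻¹ ∈ gaussRing O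
      rw [map_inv₀]; exact h

theorem mem_gaussSub_iff (x : F) : x ∈ gaussSub O hπ ι hfrac ↔ ι x ∈ gaussRing O := Iff.rfl

include hπ hfrac in
/-- the archimedean property. -/
theorem exists_pow_inv_mul_notMem (p : F) (hp : ι p = piK π) {x : F} (hx0 : x ≠ 0) :
    ∃ m : ℕ, (p ^ m)⁻¹ * x ∉ gaussSub O hπ ι hfrac := by
  have hu := isUnif_of_irreducible O hπ
  have hx0' : ι x ≠ 0 := by rwa [Ne, map_eq_zero]
  obtain ⟨i, j, u, hu0, hrel⟩ := exists_unit_rep hu (hfrac x) hx0'
  have hpK := piK_ne_zero hu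
  refine ⟨i + 1, fun hmem => ?_⟩
  have hmem' : ι ((p ^ (i + 1))⁻¹ * x) ∈ gaussRing O := hmem
  rw [map_mul, map_inv₀, map_pow, hp] at hmem'
  have hkey : (u : LaurentSeries K) =
      piK π * (piK π ^ j * ((piK π ^ (i + 1))⁻¹ * ι x)) := by
    have h1 : ι x * piK π ^ j = piK π ^ i * (u : LaurentSeries K) := hrel
    have hpi : piK π ^ i ≠ 0 := pow_ne_zero _ hpK
    have : piK π * (piK π ^ j * ((piK π ^ (i + 1))⁻¹ * ι x))
        = (piK π ^ (i + 1))⁻¹ * piK π * (ι x * piK π ^ j) := by ring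
    rw [this, h1, pow_succ, mul_inv]
    field_simp
  let g : ↥(gaussRing O) :=
    ⟨piK π ^ j * ((piK π ^ (i + 1))⁻¹ * ι x), mul_mem (pow_mem (piK_mem π) j) hmem'⟩
  have hu' : u = constG O π * g := Subtype.ext hkey
  apply hu0
  rw [hu', map_mul, gaussRed_unif hu, zero_mul]

variable [FiniteDimensional F₀ F] [Algebra.IsSeparable F₀ F]

include hπ hfrac in
/-- **(IRR), abstract fields.** -/
theorem irr_core (htr : Transcendental (Res O) (gaussRed O tG))
    (hF₀ : ∀ c : LaurentSeries K, c ∈ Kt O tG → ∃ c' : F₀, ι (algebraMap F₀ F c') = c)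
    (ϖ : F₀) (hϖ : ι (algebraMap F₀ F ϖ) = piK π)
    (hint : ∀ x : F, ι x ∈ gaussRing O → ∃ p : F₀[X], p.Monic ∧
      (∀ m, ι (algebraMap F₀ F (p.coeff m)) ∈ gaussRing O) ∧ Polynomial.aeval x p = 0) :
    ∃ e : Fin (finrank F₀ F) → ↥(gaussRing O), (∀ i, ∃ x : F, ι x = (e i : LaurentSeries K)) ∧
      LinearIndependent ↥(kt O tG) (fun i => gaussRed O (e i)) := by
  classical
  have hu := isUnif_of_irreducible O hπ
  set S := gaussSub O hπ ι hfrac with hS
  have hpK := piK_ne_zero hu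
  have hϖ0 : ϖ ≠ 0 := by
    rintro rfl
    rw [map_zero, map_zero] at hϖ
    exact hpK hϖ.symm
  have hϖF0 : algebraMap F₀ F ϖ ≠ 0 := by rwa [Ne, map_eq_zero]
  have hϖS : algebraMap F₀ F ϖ ∈ S := by
    show ι (algebraMap F₀ F ϖ) ∈ gaussRing O
    rw [hϖ]; exact piK_mem π
  have hred0 : ∀ (x : F) (hx : ι x ∈ gaussRing O),
      gaussRed O ⟨ι x, hx⟩ = 0 → ∃ c ∈ S, x = algebraMap F₀ F ϖ * c := by
    intro x hx h0
    obtain ⟨w, hw⟩ := (gaussRed_eq_zero_iff hu ⟨ι x, hx⟩).mp h0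
    have hw' : ι x = piK π * (w : LaurentSeries K) :=
      congrArg (fun z : ↥(gaussRing O) => (z : LaurentSeries K)) hw
    refine ⟨(algebraMap F₀ F ϖ)⁻¹ * x, ?_, ?_⟩
    · show ι ((algebraMap F₀ F ϖ)⁻¹ * x) ∈ gaussRing O
      rw [map_mul, map_inv₀, hϖ, hw', ← mul_assoc, inv_mul_cancel₀ hpK, one_mul]
      exact w.2
    · rw [← mul_assoc, mul_inv_cancel₀ hϖF0, one_mul]
  have hϖn : (algebraMap F₀ F ϖ)⁻¹ ∉ S := by
    intro h
    have h' : (piK π)⁻¹ ∈ gaussRing O := by
      have : ι (algebraMap F₀ F ϖ)⁻¹ ∈ gaussRing O := h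
      rwa [map_inv₀, hϖ] at this
    have h1 : constG O π * (⟨(piK π)⁻¹, h'⟩ : ↥(gaussRing O)) = 1 :=
      Subtype.ext (mul_inv_cancel₀ hpK)
    have := congrArg (gaussRed O) h1
    rw [map_mul, gaussRed_unif hu, zero_mul, map_one] at this
    exact zero_ne_one this
  have hunif : ∀ x ∈ S, x⁻¹ ∉ S → ∃ c ∈ S, x = algebraMap F₀ F ϖ * c := by
    intro x hx hxi
    have hxG : ι x ∈ gaussRing O := hx
    refine hred0 x hxG ?_
    by_contra hne
    apply hxi
    show ι x⁻¹ ∈ gaussRing O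
    rw [map_inv₀]
    exact inv_mem_of_gaussRed_ne_zero O ⟨_, hxG⟩ hne
  have harch : ∀ x ∈ S, x ≠ 0 → ∃ m : ℕ, ((algebraMap F₀ F ϖ) ^ m)⁻¹ * x ∉ S := by
    intro x _ hx0
    exact exists_pow_inv_mul_notMem O hπ ι hfrac (algebraMap F₀ F ϖ) hϖ hx0
  have hint' : ∀ x ∈ S, ∃ p : F₀[X], p.Monic ∧ (∀ m, p.coeff m ∈ cut (F₀ := F₀) S) ∧
      Polynomial.aeval x p = 0 := by
    intro x hx
    obtain ⟨p, hpm, hpc, hpx⟩ := hint x hx
    exact ⟨p, hpm, fun m => (mem_cut_iff S _).mpr (hpc m), hpx⟩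
  obtain ⟨e, heS, hind⟩ := exists_independent_mod (F₀ := F₀) (F := F) S ϖ hϖ0 hϖS hϖn hunif harch
    hint'
  have heG : ∀ i, ι (e i) ∈ gaussRing O := fun i => heS i
  refine ⟨fun i => ⟨ι (e i), heG i⟩, fun i => ⟨e i, rfl⟩, ?_⟩
  rw [Fintype.linearIndependent_iff]
  intro g hg i
  -- lift the coefficients
  have hlift : ∀ i, ∃ c : F₀, ∃ hc : ι (algebraMap F₀ F c) ∈ gaussRing O,
      gaussRed O ⟨_, hc⟩ = ((g i : ↥(kt O tG)) : LaurentSeries (Res O)) := by
    intro i
    obtain ⟨c, hcK, hcG, hcr⟩ := exists_gaussRed_eq (tG := tG) htr (g i).2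
    obtain ⟨c', hc'⟩ := hF₀ c hcK
    refine ⟨c', hc' ▸ hcG, ?_⟩
    rw [← hcr]
    congr 1
    exact Subtype.ext hc'
  choose c hcG hcr using hlift
  have hcS : ∀ i, c i ∈ cut (F₀ := F₀) S := fun i => (mem_cut_iff S _).mpr (hcG i)
  -- the combination `y = ∑ cᵢ eᵢ` has residue `0`
  have hyG : ι (∑ i, algebraMap F₀ F (c i) * e i) ∈ gaussRing O := by
    show (∑ i, algebraMap F₀ F (c i) * e i) ∈ S
    exact S.toSubring.sum_mem fun i _ => S.mul_mem _ _ ((mem_cut_iff S _).mp (hcS i)) (heS i)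
  have hyred : gaussRed O ⟨ι (∑ i, algebraMap F₀ F (c i) * e i), hyG⟩ = 0 := by
    have h1 : (⟨ι (∑ i, algebraMap F₀ F (c i) * e i), hyG⟩ : ↥(gaussRing O)) =
        ∑ i, (⟨_, hcG i⟩ : ↥(gaussRing O)) * ⟨ι (e i), heG i⟩ := by
      apply Subtype.ext
      rw [AddSubmonoidClass.coe_finsetSum]
      show ι (∑ i, algebraMap F₀ F (c i) * e i) = _
      rw [map_sum]
      refine Finset.sum_congr rfl fun i _ => ?_
      rw [map_mul]
      rfl
    rw [h1, map_sum, ← hg]
    refine Finset.sum_congr rfl fun i _ => ?_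
    rw [map_mul, hcr, Algebra.smul_def]
    rfl
  obtain ⟨z, hzS, hz⟩ := hred0 _ hyG hyred
  obtain ⟨d, hdS, hd⟩ := hind c hcS ⟨z, hzS, hz⟩ i
  -- hence the residue of `cᵢ` vanishes
  apply Subtype.ext
  rw [← hcr i]
  have hdG : ι (algebraMap F₀ F d) ∈ gaussRing O := (mem_cut_iff S _).mp hdS
  have : (⟨_, hcG i⟩ : ↥(gaussRing O)) = constG O π * ⟨_, hdG⟩ := by
    apply Subtype.ext
    show ι (algebraMap F₀ F (c i)) = piK π * ι (algebraMap F₀ F d)
    rw [hd, map_mul, map_mul, hϖ]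
  rw [this, map_mul, gaussRed_unif hu, zero_mul]
  rfl

end Core

section Concrete

set_option synthInstance.maxHeartbeats 400000

variable {K : Type*} [Field K] (O : ValuationSubring K) [IsDiscreteValuationRing ↥O]
  {π : ↥O} (hπ : Irreducible π)
  (E : IntermediateField K (LaurentSeries K)) (hE : E ≤ fracField O)
  (t : ↥E) (ht : (t : LaurentSeries K) ∈ gaussRing O)

/-- `K(t)` inside `E` maps onto `K(t)` inside `K((q))`. -/
theorem map_adjoin_eq :
    (IntermediateField.adjoin K {t}).map E.val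
      = IntermediateField.adjoin K {(t : LaurentSeries K)} := by
  rw [IntermediateField.adjoin_map, Set.image_singleton]
  rfl

theorem exists_of_mem_Kt {c : LaurentSeries K} (hc : c ∈ Kt O ⟨(t : LaurentSeries K), ht⟩) :
    ∃ c' : ↥(IntermediateField.adjoin K {t}), (((c' : ↥E)) : LaurentSeries K) = c := by
  have hc' : c ∈ IntermediateField.adjoin K {(t : LaurentSeries K)} := hc
  rw [← map_adjoin_eq] at hc'
  obtain ⟨x, hx, rfl⟩ := hc'
  exact ⟨⟨x, hx⟩, rfl⟩

theorem coe_mem_Kt (c : ↥(IntermediateField.adjoin K {t})) :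
    (((c : ↥E)) : LaurentSeries K) ∈ Kt O ⟨(t : LaurentSeries K), ht⟩ := by
  show (((c : ↥E)) : LaurentSeries K) ∈ IntermediateField.adjoin K {(t : LaurentSeries K)}
  rw [← map_adjoin_eq]
  exact ⟨(c : ↥E), c.2, rfl⟩


/-- integrality in the form of `irr_core`. -/
theorem hint_lift
    (hint : ∀ x : LaurentSeries K, x ∈ E → x ∈ gaussRing O →
      ∃ p : (LaurentSeries K)[X], p.Monic ∧
        (∀ m, p.coeff m ∈ Kt O ⟨(t : LaurentSeries K), ht⟩ ∧ p.coeff m ∈ gaussRing O) ∧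
        p.eval x = 0)
    (x : ↥E) (hx : (x : LaurentSeries K) ∈ gaussRing O) :
    ∃ p : (↥(IntermediateField.adjoin K {t}))[X], p.Monic ∧
      (∀ m, (((algebraMap ↥(IntermediateField.adjoin K {t}) ↥E (p.coeff m) : ↥E)) :
        LaurentSeries K) ∈ gaussRing O) ∧
      Polynomial.aeval x p = 0 := by
  obtain ⟨p, hpm, hpc, hpx⟩ := hint (x : LaurentSeries K) x.2 hx
  -- the composite embedding `K(t) → K((q))`
  let ψ : ↥(IntermediateField.adjoin K {t}) →+* LaurentSeries K :=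
    (E.val : ↥E →+* LaurentSeries K).comp (algebraMap ↥(IntermediateField.adjoin K {t}) ↥E)
  have hlift : p ∈ Polynomial.lifts ψ := by
    rw [Polynomial.lifts_iff_coeff_lifts]
    intro m
    obtain ⟨c', hc'⟩ := exists_of_mem_Kt O E t ht (hpc m).1
    exact ⟨c', hc'⟩
  obtain ⟨q, hq, -, hqm⟩ := Polynomial.lifts_and_degree_eq_and_monic hlift hpm
  refine ⟨q, hqm, fun m => ?_, ?_⟩
  · have : ψ (q.coeff m) = p.coeff m := by rw [← hq, Polynomial.coeff_map]
    have h2 : (((algebraMap ↥(IntermediateField.adjoin K {t}) ↥E (q.coeff m) : ↥E)) :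
        LaurentSeries K) = p.coeff m := this
    rw [h2]
    exact (hpc m).2
  · apply Subtype.ext
    have h3 : ((Polynomial.aeval x q : ↥E) : LaurentSeries K) =
        Polynomial.eval₂ ψ (x : LaurentSeries K) q := by
      rw [Polynomial.aeval_def]
      exact Polynomial.hom_eval₂ q (algebraMap ↥(IntermediateField.adjoin K {t}) ↥E)
        (E.val : ↥E →+* LaurentSeries K) x
    rw [h3, ← Polynomial.eval_map, hq, hpx]
    rfl


variable [hchar : CharZero K] [hfd : FiniteDimensional ↥(IntermediateField.adjoin K {t}) ↥E]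

include hπ hE hchar hfd in
/-- **(IRR) from integrality** (`n = [E : K(t)]` computed inside `E`): if every Gauss-integral
element of `E` is a root of a monic polynomial with coefficients in `K(t) ∩ gaussRing O`, then
`G1Package8.Irr` holds with `n = [E : K(t)]`. -/
theorem irr_of_integral
    (htr : Transcendental (Res O) (gaussRed O ⟨(t : LaurentSeries K), ht⟩))
    (hint : ∀ x : LaurentSeries K, x ∈ E → x ∈ gaussRing O →
      ∃ p : (LaurentSeries K)[X], p.Monic ∧
        (∀ m, p.coeff m ∈ Kt O ⟨(t : LaurentSeries K), ht⟩ ∧ p.coeff m ∈ gaussRing O) ∧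
        p.eval x = 0) :
    Irr O E ⟨(t : LaurentSeries K), ht⟩
      (finrank ↥(IntermediateField.adjoin K {t}) ↥E) := by
  haveI : IsScalarTower ↥O K ↥E := isScalarTower_OE O E
  haveI hc0 : CharZero ↥(IntermediateField.adjoin K {t}) :=
    charZero_of_injective_algebraMap (algebraMap K ↥(IntermediateField.adjoin K {t})).injective
  haveI hpf : PerfectField ↥(IntermediateField.adjoin K {t}) := PerfectField.ofCharZero
  haveI halg : Algebra.IsAlgebraic ↥(IntermediateField.adjoin K {t}) ↥E :=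
    Algebra.IsAlgebraic.of_finite _ _
  haveI hsep : Algebra.IsSeparable ↥(IntermediateField.adjoin K {t}) ↥E :=
    Algebra.IsAlgebraic.isSeparable_of_perfectField
  let ι : ↥E →+* LaurentSeries K := (E.val : ↥E →+* LaurentSeries K)
  have hfrac : ∀ x : ↥E, ι x ∈ fracField O := fun x => hE x.2
  let ϖ : ↥(IntermediateField.adjoin K {t}) :=
    ⟨algebraMap ↥O ↥E π, (IntermediateField.adjoin K {t}).algebraMap_mem (π : K)⟩
  have hϖ : ι (algebraMap ↥(IntermediateField.adjoin K {t}) ↥E ϖ) = piK π :=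
    coe_algebraMap_pi (E := E) π
  obtain ⟨e, heE, hli⟩ := irr_core O hπ ⟨(t : LaurentSeries K), ht⟩ ι hfrac htr
    (fun c hc => exists_of_mem_Kt O E t ht hc) ϖ hϖ (fun x hx => hint_lift O E t ht hint x hx)
  refine ⟨e, fun i => ?_, hli⟩
  obtain ⟨x, hx⟩ := heE i
  rw [← hx]
  exact x.2

include hπ hE hchar hfd in
/-- **The `(G1)` inputs of `ModelAsm4.hasModel_of_g1`** (`hn`, `hdeg`, `hirr`) from integrality. -/
theorem g1_of_integral
    (htr : Transcendental (Res O) (gaussRed O ⟨(t : LaurentSeries K), ht⟩))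
    (hint : ∀ x : LaurentSeries K, x ∈ E → x ∈ gaussRing O →
      ∃ p : (LaurentSeries K)[X], p.Monic ∧
        (∀ m, p.coeff m ∈ Kt O ⟨(t : LaurentSeries K), ht⟩ ∧ p.coeff m ∈ gaussRing O) ∧
        p.eval x = 0) :
    relfinrank (Kt O ⟨(t : LaurentSeries K), ht⟩) E ≠ 0 ∧
    DegLe O E ⟨(t : LaurentSeries K), ht⟩ (relfinrank (Kt O ⟨(t : LaurentSeries K), ht⟩) E) ∧
    Irr O E ⟨(t : LaurentSeries K), ht⟩ (relfinrank (Kt O ⟨(t : LaurentSeries K), ht⟩) E) := by
  have hfr : finrank ↥(IntermediateField.adjoin K {t}) ↥E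
      = relfinrank (Kt O ⟨(t : LaurentSeries K), ht⟩) E :=
    Fermat.Agent.RED.ModelAsm4.finrank_adjoin_eq_relfinrank t
  have hn : relfinrank (Kt O ⟨(t : LaurentSeries K), ht⟩) E ≠ 0 := by
    rw [← hfr]
    exact (Module.finrank_pos).ne'
  have hle : Kt O ⟨(t : LaurentSeries K), ht⟩ ≤ E := Kt_le (tG := ⟨(t : LaurentSeries K), ht⟩) t.2
  refine ⟨hn, fun m c hc hli =>
    Fermat.Agent.IG.PR.FamilyForm20.le_relfinrank_of_family hle m hn c hc hli, ?_⟩
  rw [← hfr]
  exact irr_of_integral O hπ E hE t ht htr hint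

end Concrete

end Fermat.Agent.DS.G.RED.Igusa.IrrOfSpan

/-! ### Adapter: from the `(SPAN)` form of `DS/Igu77/Span.isIntegral_of_input` -/

namespace Fermat.Agent.DS.G.RED.Igusa.IrrOfSpan

open Fermat.Agent.RED.PUR.GaussGen8 Fermat.Agent.RED.PUR.KtGauss8
  Fermat.Agent.RED.PUR.G1Package8

section Span

set_option synthInstance.maxHeartbeats 400000

variable {K : Type*} [Field K] (O : ValuationSubring K) [IsDiscreteValuationRing ↥O]
  {π : ↥O} (hπ : Irreducible π)
  (E : IntermediateField K (LaurentSeries K)) (hE : E ≤ fracField O)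
  (t : ↥E) (ht : (t : LaurentSeries K) ∈ gaussRing O)

/-- `(SPAN)` (every Gauss-integral element of `E` is integral over `Ov0 = K(t) ∩ gaussRing`)
gives the integrality hypothesis of `irr_of_integral`. -/
theorem hint_of_span
    (hspan : ∀ x : ↥E, (x : LaurentSeries K) ∈ gaussRing O →
      IsIntegral ↥(Ov0 O E ⟨(t : LaurentSeries K), ht⟩) x)
    (x : LaurentSeries K) (hxE : x ∈ E) (hx : x ∈ gaussRing O) :
    ∃ p : (LaurentSeries K)[X], p.Monic ∧
      (∀ m, p.coeff m ∈ Kt O ⟨(t : LaurentSeries K), ht⟩ ∧ p.coeff m ∈ gaussRing O) ∧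
      p.eval x = 0 := by
  obtain ⟨p, hpm, hpx⟩ := hspan ⟨x, hxE⟩ hx
  let ψ : ↥(Ov0 O E ⟨(t : LaurentSeries K), ht⟩) →+* LaurentSeries K :=
    (E.val : ↥E →+* LaurentSeries K).comp (Ov0 O E ⟨(t : LaurentSeries K), ht⟩).subtype
  refine ⟨p.map ψ, hpm.map ψ, fun m => ?_, ?_⟩
  · rw [Polynomial.coeff_map]
    exact (p.coeff m).2
  · rw [Polynomial.eval_map]
    have h1 := Polynomial.hom_eval₂ p (Ov0 O E ⟨(t : LaurentSeries K), ht⟩).subtype
      (E.val : ↥E →+* LaurentSeries K) (⟨x, hxE⟩ : ↥E)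
    have h2 : Polynomial.eval₂ (Ov0 O E ⟨(t : LaurentSeries K), ht⟩).subtype (⟨x, hxE⟩ : ↥E) p
        = 0 := hpx
    rw [h2, map_zero] at h1
    exact h1.symm

variable [hchar : CharZero K] [hfd : FiniteDimensional ↥(IntermediateField.adjoin K {t}) ↥E]

include hπ hE hchar hfd in
/-- **(IRR) from (SPAN)**. -/
theorem irr_of_span
    (htr : Transcendental (Res O) (gaussRed O ⟨(t : LaurentSeries K), ht⟩))
    (hspan : ∀ x : ↥E, (x : LaurentSeries K) ∈ gaussRing O →
      IsIntegral ↥(Ov0 O E ⟨(t : LaurentSeries K), ht⟩) x) :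
    Irr O E ⟨(t : LaurentSeries K), ht⟩
      (finrank ↥(IntermediateField.adjoin K {t}) ↥E) :=
  irr_of_integral O hπ E hE t ht htr (hint_of_span O E t ht hspan)

include hπ hE hchar hfd in
/-- **`(G1)` = (`n ≠ 0`, (DEG), (IRR)) from (SPAN)**, in the form of the inputs `hn hdeg hirr` of
`ModelAsm4.hasModel_of_g1` / `Abs51Tower.degLe_irr_tower`. -/
theorem g1_of_span
    (htr : Transcendental (Res O) (gaussRed O ⟨(t : LaurentSeries K), ht⟩))
    (hspan : ∀ x : ↥E, (x : LaurentSeries K) ∈ gaussRing O →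
      IsIntegral ↥(Ov0 O E ⟨(t : LaurentSeries K), ht⟩) x) :
    relfinrank (Kt O ⟨(t : LaurentSeries K), ht⟩) E ≠ 0 ∧
    DegLe O E ⟨(t : LaurentSeries K), ht⟩ (relfinrank (Kt O ⟨(t : LaurentSeries K), ht⟩) E) ∧
    Irr O E ⟨(t : LaurentSeries K), ht⟩ (relfinrank (Kt O ⟨(t : LaurentSeries K), ht⟩) E) :=
  g1_of_integral O hπ E hE t ht htr (hint_of_span O E t ht hspan)

end Span

end Fermat.Agent.DS.G.RED.Igusa.IrrOfSpan
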