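/-
Programme DS (S48), chapter G-RED / Igusa, brick IGU-D (helper30), part A: the analytic ring.

Generic in helper16's `DS/G/Level.lean`: `L : LevelData`, a coefficient field `K` with
`ι : K →+* ℂ`, `D : RealizeDataL L K ι`, `C : CuspDataL L K ι D`.

* `AFun D`         : the subring of `ℍ → ℂ` generated by all `Θ u ∘ γ` (`u ∈ R`, `γ ∈ SL(2, ℤ)`);
* `exA D C`        : the INJECTIVE ring hom "`q_w`-expansion" `AFun D →+* K((Q))`, `Q = q_w`,
                     `w = L.w`, with `exA (Θ u ∘ γ) = C.T γ u`;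
* `actMonoidHom D` : the group hom `SL(2, ℤ) →* RingAut (AFun D)`, `δ ↦ (f ↦ f ∘ δ⁻¹)`;
* `Jw`             : `j(Q^w) = ModularCurve.jqNModC K L.w`, and `C.T γ j = Jw` for all `γ`
                     (`T_jFc`);
* `levelOne`       : the level one principle over `K`: an `SL(2, ℤ)`-invariant holomorphic function
                     with a `q_w`-expansion `q^{-m} P`, `P` over `K`, has `q^{-m} P ∈ K[Jw]`;
* `isQExp_comp_T`, `exA_comp_T` : the expansion of `f(z + 1)` is the twist `Q ↦ ζ Q` of that of `f`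
                     (`ι ζ = exp(2πi/w)`).
-/
import Mathlib
import Fermat.Agent.DS.G.Level
import Fermat.Agent.X0.QExpRing
import Fermat.Agent.X0.HolOrder
import Fermat.Agent.X0.QExpLevelOne
import Fermat.Agent.X0.LevelOneRational
import Fermat.Agent.X0.Integrality
import Fermat.Agent.X0.JdExp
import Fermat.Agent.X0.CuspEquiv

set_option autoImplicit false
set_option linter.unusedSectionVars false

open UpperHalfPlane
open scoped MatrixGroups

noncomputable section

namespace Fermat.Agent.DS.G.RED.Igusa.GaloisClosure30A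

open Fermat.Agent.X0 Fermat.Agent.DS.G.Level

variable {L : LevelData} {K : Type} [Field K] [Algebra ℚ K] {ι : K →+* ℂ}

/-! ### The ring of functions -/

section Ring

variable (D : RealizeDataL L K ι)

/-- The generating family: all `Θ u ∘ γ`. -/
def genFun (p : Rsubc L K × SL(2, ℤ)) : ℍ → ℂ := compSL (D.Θ p.1) p.2

/-- The ring of functions on `ℍ` generated by all `Θ u ∘ γ`, `u ∈ R`, `γ ∈ SL(2, ℤ)`. -/
def AFun : Subring (ℍ → ℂ) := Subring.closure (Set.range (genFun D))

theorem genFun_mem (u : Rsubc L K) (γ : SL(2, ℤ)) : compSL (D.Θ u) γ ∈ AFun D :=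
  Subring.subset_closure ⟨(u, γ), rfl⟩

theorem Θ_mem (u : Rsubc L K) : D.Θ u ∈ AFun D := by
  have := genFun_mem D u 1
  rwa [compSL_one] at this

theorem const_mem (c : K) : (fun _ : ℍ => ι c) ∈ AFun D := by
  have := Θ_mem D (algebraMap K (Rsubc L K) c)
  rwa [D.algebraMap_eq] at this

theorem jFun_mem : jFun ∈ AFun D := by
  have := Θ_mem D (jR L K)
  rwa [D.j_eq] at this

theorem mem_HolH_of_mem {f : ℍ → ℂ} (hf : f ∈ AFun D) : f ∈ HolH := by
  have h : AFun D ≤ HolH.toSubring := by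
    unfold AFun
    rw [Subring.closure_le]
    rintro _ ⟨⟨u, γ⟩, rfl⟩
    exact compSL_mem_HolH (D.mem_HolH u) γ
  exact h hf

/-- Precomposition with `δ` preserves `AFun`. -/
theorem compSL_mem {f : ℍ → ℂ} (hf : f ∈ AFun D) (δ : SL(2, ℤ)) : compSL f δ ∈ AFun D := by
  unfold AFun at hf ⊢
  induction hf using Subring.closure_induction with
  | mem x hx =>
    obtain ⟨⟨u, γ⟩, rfl⟩ := hx
    have : compSL (genFun D (u, γ)) δ = genFun D (u, γ * δ) := (compSL_mul _ γ δ).symm
    rw [this]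
    exact Subring.subset_closure ⟨_, rfl⟩
  | zero => rw [compSL_zero_fun]; exact Subring.zero_mem _
  | one => rw [compSL_one_fun]; exact Subring.one_mem _
  | add x y _ _ hx hy => rw [compSL_add_fun]; exact Subring.add_mem _ hx hy
  | neg x _ hx => rw [compSL_neg_fun]; exact Subring.neg_mem _ hx
  | mul x y _ _ hx hy => rw [compSL_mul_fun]; exact Subring.mul_mem _ hx hy

/-- The ring endomorphism `f ↦ f ∘ δ` of `AFun`. -/
def actHom (δ : SL(2, ℤ)) : AFun D →+* AFun D where
  toFun f := ⟨compSL f.1 δ, compSL_mem D f.2 δ⟩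
  map_one' := rfl
  map_mul' _ _ := rfl
  map_zero' := rfl
  map_add' _ _ := rfl

@[simp] theorem coe_actHom (δ : SL(2, ℤ)) (f : AFun D) :
    ((actHom D δ f : AFun D) : ℍ → ℂ) = compSL f.1 δ := rfl

theorem actHom_mul (δ₁ δ₂ : SL(2, ℤ)) (f : AFun D) :
    actHom D (δ₁ * δ₂) f = actHom D δ₂ (actHom D δ₁ f) := by
  apply Subtype.ext
  simp only [coe_actHom]
  exact compSL_mul _ δ₁ δ₂

theorem actHom_one (f : AFun D) : actHom D 1 f = f := by
  apply Subtype.ext
  simp only [coe_actHom]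
  exact compSL_one _

/-- The ring automorphism `f ↦ f ∘ δ⁻¹` of `AFun`. -/
def actEquiv (δ : SL(2, ℤ)) : AFun D ≃+* AFun D :=
  RingEquiv.ofRingHom (actHom D δ⁻¹) (actHom D δ)
    (by
      ext f : 1
      rw [RingHom.comp_apply, RingHom.id_apply, ← actHom_mul, mul_inv_cancel, actHom_one])
    (by
      ext f : 1
      rw [RingHom.comp_apply, RingHom.id_apply, ← actHom_mul, inv_mul_cancel, actHom_one])

@[simp] theorem actEquiv_apply (δ : SL(2, ℤ)) (f : AFun D) :
    actEquiv D δ f = actHom D δ⁻¹ f := rfl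

/-- **The action of `SL(2, ℤ)` on `AFun`**, as a group hom: `δ ↦ (f ↦ f ∘ δ⁻¹)`. -/
def actMonoidHom : SL(2, ℤ) →* RingAut (AFun D) where
  toFun := actEquiv D
  map_one' := by
    ext f : 1
    show actHom D (1 : SL(2, ℤ))⁻¹ f = f
    rw [inv_one, actHom_one]
  map_mul' δ₁ δ₂ := by
    ext f : 1
    show actHom D (δ₁ * δ₂)⁻¹ f = actHom D δ₁⁻¹ (actHom D δ₂⁻¹ f)
    rw [mul_inv_rev, actHom_mul]

@[simp] theorem actMonoidHom_apply (δ : SL(2, ℤ)) (f : AFun D) :
    actMonoidHom D δ f = actHom D δ⁻¹ f := rfl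

/-- `Γ(w)` acts trivially on `AFun`. -/
theorem actHom_of_mem_Gamma {δ : SL(2, ℤ)} (hδ : δ ∈ CongruenceSubgroup.Gamma L.w) (f : AFun D) :
    actHom D δ f = f := by
  apply Subtype.ext
  simp only [coe_actHom]
  obtain ⟨f, hf⟩ := f
  show compSL f δ = f
  unfold AFun at hf
  induction hf using Subring.closure_induction with
  | mem x hx =>
    obtain ⟨⟨u, γ⟩, rfl⟩ := hx
    show compSL (compSL (D.Θ u) γ) δ = compSL (D.Θ u) γ
    have hconj : γ * δ * γ⁻¹ ∈ L.Gam :=
      L.gamma_le ((CongruenceSubgroup.Gamma_normal L.w).conj_mem δ hδ γ)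
    have h1 : γ * δ = (γ * δ * γ⁻¹) * γ := by group
    rw [← compSL_mul, h1, compSL_mul, D.invariant u _ hconj]
  | zero => rfl
  | one => rfl
  | add x y _ _ hx hy => rw [compSL_add_fun, hx, hy]
  | neg x _ hx => rw [compSL_neg_fun, hx]
  | mul x y _ _ hx hy => rw [compSL_mul_fun, hx, hy]

theorem actMonoidHom_of_mem_Gamma {δ : SL(2, ℤ)} (hδ : δ ∈ CongruenceSubgroup.Gamma L.w) :
    actMonoidHom D δ = 1 := by
  ext f : 1
  show actHom D δ⁻¹ f = f
  exact actHom_of_mem_Gamma D ((CongruenceSubgroup.Gamma L.w).inv_mem hδ) f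

end Ring

/-! ### Expansions -/

section Exp

variable (D : RealizeDataL L K ι) (C : CuspDataL L K ι D)

include C in
/-- Every element of `AFun` has a `q_w`-expansion with coefficients in `K`. -/
theorem exists_exp {f : ℍ → ℂ} (hf : f ∈ AFun D) :
    ∃ (m : ℕ) (P : PowerSeries K), IsQExp L.w f m (P.map ι) := by
  unfold AFun at hf
  induction hf using Subring.closure_induction with
  | mem x hx =>
    obtain ⟨⟨u, γ⟩, rfl⟩ := hx
    obtain ⟨m, P, hP, -⟩ := C.spec γ u
    exact ⟨m, P, hP⟩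
  | zero =>
    refine ⟨0, 0, ?_⟩
    rw [map_zero]
    exact isQExp_zero L.w 0
  | one =>
    refine ⟨0, PowerSeries.C 1, ?_⟩
    rw [PowerSeries.map_C, map_one]
    exact isQExp_const L.w 1
  | add x y _ _ hx hy =>
    obtain ⟨m, P, hP⟩ := hx
    obtain ⟨m', Q, hQ⟩ := hy
    refine ⟨m + m', PowerSeries.X ^ m' * P + PowerSeries.X ^ m * Q, ?_⟩
    have := hP.add hQ
    simpa only [map_add, map_mul, map_pow, PowerSeries.map_X] using this
  | neg x _ hx =>
    obtain ⟨m, P, hP⟩ := hx
    refine ⟨m, -P, ?_⟩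
    rw [map_neg]
    exact hP.neg
  | mul x y _ _ hx hy =>
    obtain ⟨m, P, hP⟩ := hx
    obtain ⟨m', Q, hQ⟩ := hy
    refine ⟨m + m', P * Q, ?_⟩
    have := hP.mul hQ
    simpa only [map_mul] using this

/-- The pole order bound chosen for `f`. -/
def expM (f : AFun D) : ℕ := (exists_exp D C f.2).choose

/-- The power series chosen for `f`. -/
def expP (f : AFun D) : PowerSeries K := (exists_exp D C f.2).choose_spec.choose

theorem isQExp_exp (f : AFun D) :
    IsQExp L.w (f : ℍ → ℂ) (expM D C f) ((expP D C f).map ι) :=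
  (exists_exp D C f.2).choose_spec.choose_spec

/-- The `q_w`-expansion of `f ∈ AFun` as a Laurent series over `K`. -/
def exFun (f : AFun D) : LaurentSeries K := laurentOf (expM D C f) (expP D C f)

omit [Algebra ℚ K] in
theorem coeffMap_injective : Function.Injective
    (ModularCurve.coeffMap ι : LaurentSeries K → LaurentSeries ℂ) := by
  intro x y h
  ext k
  have h1 := congrArg (fun s : LaurentSeries ℂ => s.coeff k) h
  exact ι.injective h1

/-- Characterisation of `exFun`: any expansion datum with `K` coefficients computes it. -/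
theorem exFun_eq (f : AFun D) {m : ℕ} {P : PowerSeries K}
    (h : IsQExp L.w (f : ℍ → ℂ) m (P.map ι)) : exFun D C f = laurentOf m P := by
  apply coeffMap_injective (ι := ι)
  rw [exFun, coeffMap_laurentOf, coeffMap_laurentOf]
  exact (isQExp_exp D C f).unique h

theorem exFun_spec (f : AFun D) :
    ∃ (m : ℕ) (P : PowerSeries K),
      IsQExp L.w (f : ℍ → ℂ) m (P.map ι) ∧ exFun D C f = laurentOf m P :=
  ⟨_, _, isQExp_exp D C f, rfl⟩

theorem exFun_add (f g : AFun D) : exFun D C (f + g) = exFun D C f + exFun D C g := by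
  have hP := isQExp_exp D C f
  have hQ := isQExp_exp D C g
  have h := hP.add hQ
  have h' : IsQExp L.w ((f + g : AFun D) : ℍ → ℂ) (expM D C f + expM D C g)
      ((PowerSeries.X ^ expM D C g * expP D C f
        + PowerSeries.X ^ expM D C f * expP D C g).map ι) := by
    have e : ((f + g : AFun D) : ℍ → ℂ) = (f : ℍ → ℂ) + (g : ℍ → ℂ) := rfl
    rw [e]
    simpa only [map_add, map_mul, map_pow, PowerSeries.map_X] using h
  rw [exFun_eq D C (f + g) h', exFun, exFun]
  rw [laurentOf_add, laurentOf_shift]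
  conv_lhs => rw [add_comm (expM D C f) (expM D C g), laurentOf_shift]

theorem exFun_mul (f g : AFun D) : exFun D C (f * g) = exFun D C f * exFun D C g := by
  have hP := isQExp_exp D C f
  have hQ := isQExp_exp D C g
  have h := hP.mul hQ
  have h' : IsQExp L.w ((f * g : AFun D) : ℍ → ℂ) (expM D C f + expM D C g)
      ((expP D C f * expP D C g).map ι) := by
    have e : ((f * g : AFun D) : ℍ → ℂ) = (f : ℍ → ℂ) * (g : ℍ → ℂ) := rfl
    rw [e]
    simpa only [map_mul] using h
  rw [exFun_eq D C (f * g) h', exFun, exFun, laurentOf_mul]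

theorem exFun_const (c : K) : exFun D C ⟨fun _ => ι c, const_mem D c⟩ = HahnSeries.C c := by
  have h : IsQExp L.w ((⟨fun _ => ι c, const_mem D c⟩ : AFun D) : ℍ → ℂ) 0
      ((PowerSeries.C c).map ι) := by
    rw [PowerSeries.map_C]
    exact isQExp_const L.w (ι c)
  rw [exFun_eq D C _ h, laurentOf_zero_left, HahnSeries.ofPowerSeries_C]

theorem exFun_one : exFun D C 1 = 1 := by
  have h : IsQExp L.w ((1 : AFun D) : ℍ → ℂ) 0 ((PowerSeries.C (1 : K)).map ι) := by
    rw [PowerSeries.map_C, map_one]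
    exact isQExp_const L.w 1
  rw [exFun_eq D C _ h, laurentOf_zero_left, HahnSeries.ofPowerSeries_C, map_one]

theorem exFun_zero : exFun D C 0 = 0 := by
  have h : IsQExp L.w ((0 : AFun D) : ℍ → ℂ) 0 ((0 : PowerSeries K).map ι) := by
    rw [map_zero]
    exact isQExp_zero L.w 0
  rw [exFun_eq D C _ h]
  exact (laurentOf_eq_zero_iff _ _).mpr rfl

/-- **The expansion map** `AFun D →+* K((Q))`. -/
def exA : AFun D →+* LaurentSeries K where
  toFun := exFun D C
  map_one' := exFun_one D C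
  map_mul' := exFun_mul D C
  map_zero' := exFun_zero D C
  map_add' := exFun_add D C

@[simp] theorem exA_apply (f : AFun D) : exA D C f = exFun D C f := rfl

theorem exA_eq (f : AFun D) {m : ℕ} {P : PowerSeries K}
    (h : IsQExp L.w (f : ℍ → ℂ) m (P.map ι)) : exA D C f = laurentOf m P :=
  exFun_eq D C f h

theorem exA_injective : Function.Injective (exA D C) := by
  rw [injective_iff_map_eq_zero]
  intro f hf
  have hP := isQExp_exp D C f
  have h0 : (expP D C f).map ι = 0 := by
    have h1 : laurentOf (expM D C f) (expP D C f) = 0 := hf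
    rw [laurentOf_eq_zero_iff] at h1
    rw [h1, map_zero]
  have h2 : (f : ℍ → ℂ) = 0 := hP.eq_zero_iff.mpr h0
  exact Subtype.ext h2

/-- `exA (Θ u ∘ γ) = C.T γ u`. -/
theorem exA_gen (u : Rsubc L K) (γ : SL(2, ℤ)) :
    exA D C ⟨compSL (D.Θ u) γ, genFun_mem D u γ⟩ = C.T γ (u : FFc L K) := by
  obtain ⟨m, P, hP, hT⟩ := C.spec γ u
  rw [hT]
  exact exA_eq D C _ hP

theorem exA_const (c : K) : exA D C ⟨fun _ => ι c, const_mem D c⟩ = HahnSeries.C c :=
  exFun_const D C c

/-- `C.T γ` is `K`-linear. -/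
theorem T_algebraMap (γ : SL(2, ℤ)) (c : K) :
    C.T γ (algebraMap K (FFc L K) c) = HahnSeries.C c := by
  have h1 : algebraMap K (FFc L K) c = ((algebraMap K (Rsubc L K) c : Rsubc L K) : FFc L K) := rfl
  rw [h1, ← exA_gen D C, ← exA_const D C c]
  congr 1
  apply Subtype.ext
  show compSL (D.Θ (algebraMap K (Rsubc L K) c)) γ = fun _ => ι c
  rw [D.algebraMap_eq, compSL_const]

/-- Two ring homs out of `AFun D` which agree on the generators `Θ u ∘ γ` are equal. -/
theorem ringHom_ext_AFun {S : Type*} [Ring S] {φ ψ : AFun D →+* S}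
    (h : ∀ (u : Rsubc L K) (γ : SL(2, ℤ)),
      φ ⟨compSL (D.Θ u) γ, genFun_mem D u γ⟩ = ψ ⟨compSL (D.Θ u) γ, genFun_mem D u γ⟩) :
    φ = ψ := by
  have hle : AFun D ≤ (RingHom.eqLocus φ ψ).map (AFun D).subtype := by
    show Subring.closure (Set.range (genFun D)) ≤ _
    rw [Subring.closure_le]
    rintro _ ⟨⟨u, γ⟩, rfl⟩
    exact ⟨⟨compSL (D.Θ u) γ, genFun_mem D u γ⟩, h u γ, rfl⟩
  ext f
  obtain ⟨e, he, hef⟩ := hle f.2
  have hfe : e = f := Subtype.ext hef
  rw [← hfe]
  exact he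

end Exp

/-! ### The expansion of `j` -/

section J

variable (K) in
/-- The numerator series of `j` over `K`. -/
def jNumK : PowerSeries K := ModularCurve.jNum.map (Int.castRingHom K)

variable (K) in
theorem constantCoeff_jNumK : PowerSeries.constantCoeff (jNumK K) = 1 := by
  rw [← PowerSeries.coeff_zero_eq_constantCoeff_apply, jNumK, PowerSeries.coeff_map,
    PowerSeries.coeff_zero_eq_constantCoeff_apply, ModularCurve.constantCoeff_jNum]
  simp

omit [Algebra ℚ K] in
theorem jNumK_map : (jNumK K).map ι = jNumC := by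
  ext n
  rw [PowerSeries.coeff_map, jNumK, PowerSeries.coeff_map, coeff_jNumC]
  simp

variable (K) in
/-- `j(Q^w)`, the expansion of `j` in the variable `Q = q_w` (this is the Prelude's
`ModularCurve.jqNModC K w`). -/
def Jw (w : ℕ) [NeZero w] : LaurentSeries K := ModularCurve.jqNModC K w

variable (K) in
theorem jqModC_eq_laurentOf : ModularCurve.jqModC K = laurentOf 1 (jNumK K) := by
  unfold ModularCurve.jqModC laurentOf jNumK
  norm_num

variable (K) in
theorem Jw_eq (w : ℕ) [hw : NeZero w] :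
    Jw K w = laurentOf (1 * w) ((jNumK K).expand w hw.ne) := by
  rw [Jw, ModularCurve.jqNModC, jqModC_eq_laurentOf, qExpand_laurentOf]

omit [Algebra ℚ K] in
theorem coeffMap_Jw (w : ℕ) [NeZero w] :
    ModularCurve.coeffMap ι (Jw K w) = ModularCurve.qExpand ℂ w (ModularCurve.jqModC ℂ) := by
  rw [Jw, ModularCurve.jqNModC, Analytic.coeffMap_qExpand]
  congr 1
  exact ModularCurve.map_jqModC ι

theorem isQExp_jFun_w (w : ℕ) [hw : NeZero w] :
    IsQExp w jFun (1 * w) (((jNumK K).expand w hw.ne).map ι) := by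
  have h := isQExp_jFun_C.level_mul w
  rw [one_mul] at h
  rw [PowerSeries.map_expand, jNumK_map]
  rw [one_mul]
  exact h

variable (D : RealizeDataL L K ι) (C : CuspDataL L K ι D)

/-- (i) **`C.T γ j = j(Q^w)` for every `γ`.** -/
theorem T_jFc (γ : SL(2, ℤ)) : C.T γ (jFc L K) = Jw K L.w := by
  have h1 : jFc L K = ((jR L K : Rsubc L K) : FFc L K) := rfl
  obtain ⟨m, P, hP, hT⟩ := C.spec γ (jR L K)
  rw [h1, hT, Jw_eq]
  have hfun : compSL (D.Θ (jR L K)) γ = jFun := by
    rw [D.j_eq]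
    funext z
    exact lof_jFun_smul γ z
  rw [hfun] at hP
  apply coeffMap_injective (ι := ι)
  rw [coeffMap_laurentOf, coeffMap_laurentOf]
  exact hP.unique (isQExp_jFun_w L.w)

theorem exA_jFun : exA D C ⟨jFun, jFun_mem D⟩ = Jw K L.w := by
  rw [Jw_eq]
  exact exA_eq D C _ (isQExp_jFun_w L.w)

end J

/-! ### The level one principle over `K` -/

section LevelOne

open Polynomial

/-- **Level one principle.** A holomorphic `SL(2, ℤ)`-invariant function with a `q_w`-expansion
`Q^{-m} P`, `P` over `K`, is a polynomial in `j` over `K`; formally `Q^{-m} P ∈ K[j(Q^w)]`. -/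
theorem levelOne (w : ℕ) [NeZero w] {f : ℍ → ℂ} (hf : f ∈ HolH)
    (hinv : ∀ (γ : SL(2, ℤ)) (z : ℍ), f (γ • z) = f z) {m : ℕ} {P : PowerSeries K}
    (hq : IsQExp w f m (P.map ι)) :
    ∃ p : K[X], laurentOf m P = aeval (Jw K w) p ∧ ∀ z, f z = (p.map ι).eval (jFun z) := by
  obtain ⟨p₀, -, hp₀⟩ := QExpLevelOne.exists_polynomial_of_isQExp hf hinv w m _ hq
  have h1 : IntgQN w f (laurentOf m (P.map ι)) := intg_qn_of_isQExp w hq
  have h2 : IntgQN w (fun z => p₀.eval (jFun z))
      (aeval (ModularCurve.qExpand ℂ w (ModularCurve.jqModC ℂ)) p₀) := intg_qn_eval_jFun w p₀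
  have hfun : (fun z => p₀.eval (jFun z)) = f := funext fun z => (hp₀ z).symm
  rw [hfun] at h2
  have heq := intg_qn_unique w h2 h1
  have hw : 0 < 1 * w := by
    rw [one_mul]
    exact Nat.pos_of_ne_zero (NeZero.ne w)
  have hU0 : PowerSeries.constantCoeff ((jNumK K).expand w (NeZero.ne w)) = 1 := by
    rw [PowerSeries.constantCoeff_expand, constantCoeff_jNumK]
  obtain ⟨p, hp, hE⟩ := lor_exists_aeval_eq ι ι.injective (1 * w) hw
    ((jNumK K).expand w (NeZero.ne w)) hU0 p₀ (laurentOf m P) (by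
      rw [← Jw_eq, coeffMap_Jw, heq, coeffMap_laurentOf])
  refine ⟨p, ?_, fun z => ?_⟩
  · rw [Jw_eq]
    exact hE
  · rw [hp]
    exact hp₀ z

end LevelOne

/-! ### The translation `T` and the twist -/

section Twist

open Fermat.Agent.X0.CuspEquiv

omit [Algebra ℚ K] in
theorem qh_T_smul (w : ℕ) {ζ : K} (hζ : ι ζ = Complex.exp (2 * Real.pi * Complex.I / w))
    (z : ℍ) : qh w (ModularGroup.T • z) = ι ζ * qh w z := by
  rw [hζ, qh, qh, Function.Periodic.qParam, Function.Periodic.qParam,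
    UpperHalfPlane.modular_T_smul, ← Complex.exp_add]
  congr 1
  rw [UpperHalfPlane.coe_vadd]
  push_cast
  ring

omit [Algebra ℚ K] in
/-- The `q_w`-expansion of `z ↦ g (z + 1)`. -/
theorem isQExp_comp_T (w : ℕ) {ζ : K} (hζ : ι ζ = Complex.exp (2 * Real.pi * Complex.I / w))
    {g : ℍ → ℂ} {m : ℕ} {P : PowerSeries K} (hP : IsQExp w g m (P.map ι)) :
    IsQExp w (compSL g ModularGroup.T) m
      ((PowerSeries.mk fun n => ζ ^ ((n : ℤ) - m) * PowerSeries.coeff n P).map ι) := by
  intro z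
  have hζ0 : ι ζ ≠ 0 := by
    rw [hζ]
    exact Complex.exp_ne_zero _
  have h := (hP (ModularGroup.T • z)).mul_left ((ι ζ)⁻¹ ^ m)
  rw [qh_T_smul w hζ] at h
  have hval : (ι ζ)⁻¹ ^ m * (g (ModularGroup.T • z) * (ι ζ * qh w z) ^ m)
      = g (ModularGroup.T • z) * qh w z ^ m := by
    rw [mul_pow, inv_pow]
    field_simp
  rw [hval] at h
  refine h.congr_fun fun n => ?_
  rw [PowerSeries.coeff_map, PowerSeries.coeff_map, PowerSeries.coeff_mk, map_mul, map_zpow₀,
    zpow_sub₀ hζ0, zpow_natCast, zpow_natCast, mul_pow, inv_pow]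
  field_simp

variable (D : RealizeDataL L K ι) (C : CuspDataL L K ι D)

/-- **The expansion of `f ∘ T` is the twist `Q ↦ ζ Q` of the expansion of `f`.** -/
theorem exA_comp_T {ζ : K} (hζ : ι ζ = Complex.exp (2 * Real.pi * Complex.I / L.w))
    (hζ0 : ζ ≠ 0) (f : AFun D) :
    exA D C (actHom D ModularGroup.T f) = twist ζ hζ0 (exA D C f) := by
  obtain ⟨m, P, hP, hE⟩ := exFun_spec D C f
  rw [exA_apply D C f, hE, twist_laurentOf]
  exact exA_eq D C _ (isQExp_comp_T L.w hζ hP)

end Twist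

end Fermat.Agent.DS.G.RED.Igusa.GaloisClosure30A
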