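/-
Programme DS (S48), chapter G-RED / Igusa, brick IGU-D (helper30), part B: the fields.

Generic in helper16's `DS/G/Level.lean`: `L : LevelData`, a coefficient field `K` with
`ι : K →+* ℂ`, `D : RealizeDataL L K ι`, `C : CuspDataL L K ι D`.  Inside `Ω = K((Q))`, `Q = q_w`:

* `kJ K w`    : `K(j(Q^w))`, an `IntermediateField K Ω`;
* `Ltop D C`  : the field generated by ALL cusp expansions `C.T γ u`, an
                `IntermediateField (kJ K L.w) Ω`  (`T_mem_Ltop`, `isFracAL`);
* `s D C`     : the GROUP HOM `SL(2, ℤ) →* (Ltop ≃ₐ[kJ] Ltop)` with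
                `s δ (C.T γ u) = C.T (γ * δ⁻¹) u`  (`s_T`);
                [the anti-hom `δ ↦ s δ⁻¹` is the one with `C.T γ u ↦ C.T (γ * δ) u`];
* `Gamma_le_ker` : `Γ(w) ≤ ker s`;
* `fixedField_range` : the fixed field of the image of `s` is `kJ` (level one principle);
* `finiteDimensional`, `isGalois`, `s_surjective` : `Ltop / kJ` is finite Galois with group the
                image of `SL(2, ℤ)`  (Artin).
-/
import Mathlib
import Fermat.Agent.DS.G.RED.Igusa.GaloisClosure30A

set_option autoImplicit false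
set_option linter.unusedSectionVars false

open UpperHalfPlane
open scoped MatrixGroups

noncomputable section

namespace Fermat.Agent.DS.G.RED.Igusa.GaloisClosure30B

open Fermat.Agent.X0 Fermat.Agent.DS.G.Level Fermat.Agent.DS.G.RED.Igusa.GaloisClosure30A

/-- `kJ = K(j(Q^w)) ⊆ K((Q))`. -/
def kJ (K : Type) [Field K] (w : ℕ) [NeZero w] : IntermediateField K (LaurentSeries K) :=
  IntermediateField.adjoin K {Jw K w}

theorem Jw_mem_kJ (K : Type) [Field K] (w : ℕ) [NeZero w] : Jw K w ∈ kJ K w :=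
  IntermediateField.subset_adjoin K _ (Set.mem_singleton _)

variable {L : LevelData} {K : Type} [Field K] [Algebra ℚ K] {ι : K →+* ℂ}
variable (D : RealizeDataL L K ι) (C : CuspDataL L K ι D)

/-! ### The field `Ltop` -/

/-- The subfield of `K((Q))` generated by all expansions. -/
def LtopSub : Subfield (LaurentSeries K) :=
  Subfield.closure ((exA D C).range : Set (LaurentSeries K))

theorem exA_mem_LtopSub (f : AFun D) : exA D C f ∈ LtopSub D C :=
  Subfield.subset_closure ⟨f, rfl⟩

theorem algebraMap_mem_LtopSub (c : K) : algebraMap K (LaurentSeries K) c ∈ LtopSub D C := by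
  have h := exA_mem_LtopSub D C ⟨fun _ => ι c, const_mem D c⟩
  rw [exA_const] at h
  rwa [ModularCurve.algebraMap_laurentSeries_eq_single]

theorem Jw_mem_LtopSub : Jw K L.w ∈ LtopSub D C := by
  have h := exA_mem_LtopSub D C ⟨jFun, jFun_mem D⟩
  rwa [exA_jFun] at h

theorem kJ_le_LtopSub {x : LaurentSeries K} (hx : x ∈ kJ K L.w) : x ∈ LtopSub D C := by
  have h : kJ K L.w ≤ (LtopSub D C).toIntermediateField (algebraMap_mem_LtopSub D C) := by
    unfold kJ
    rw [IntermediateField.adjoin_le_iff]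
    rintro _ rfl
    exact Jw_mem_LtopSub D C
  exact h hx

/-- **`Ltop`**: the field generated over `kJ = K(j(Q^w))` by all cusp expansions. -/
def Ltop : IntermediateField (kJ K L.w) (LaurentSeries K) :=
  (LtopSub D C).toIntermediateField (fun x => kJ_le_LtopSub D C x.2)

theorem mem_Ltop {x : LaurentSeries K} : x ∈ Ltop D C ↔ x ∈ LtopSub D C := Iff.rfl

/-- The expansion map into `Ltop`. -/
def exL : AFun D →+* Ltop D C :=
  (exA D C).codRestrict (Ltop D C) (fun f => exA_mem_LtopSub D C f)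

@[simp] theorem coe_exL (f : AFun D) :
    ((exL D C f : Ltop D C) : LaurentSeries K) = exA D C f := rfl

theorem exL_injective : Function.Injective (exL D C) := fun _ _ h =>
  exA_injective D C (congrArg Subtype.val h)

instance algAL : Algebra (AFun D) (Ltop D C) := (exL D C).toAlgebra

theorem algebraMap_AL (f : AFun D) : algebraMap (AFun D) (Ltop D C) f = exL D C f := rfl

instance faithfulAL : FaithfulSMul (AFun D) (Ltop D C) :=
  (faithfulSMul_iff_algebraMap_injective _ _).mpr (exL_injective D C)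

/-- `Ltop` is the fraction field of the ring of expansions. -/
instance isFracAL : IsFractionRing (AFun D) (Ltop D C) :=
  IsFractionRing.of_field _ _ (fun z => by
    obtain ⟨z, hz⟩ := z
    have hz' : z ∈ Subfield.closure ((exA D C).range : Set (LaurentSeries K)) := hz
    rw [Subfield.mem_closure_iff, Subring.closure_eq] at hz'
    obtain ⟨y, ⟨a, rfl⟩, x, ⟨b, rfl⟩, rfl⟩ := hz'
    exact ⟨a, b, Subtype.ext rfl⟩)

/-- Every element of `Ltop` is a quotient of two expansions. -/
theorem exists_div (x : Ltop D C) : ∃ a b : AFun D, x = exL D C a / exL D C b := by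
  obtain ⟨a, b, -, rfl⟩ := IsFractionRing.div_surjective (A := AFun D) x
  exact ⟨a, b, rfl⟩

/-- All values of the cusp expansion maps on `R` lie in `Ltop`. -/
theorem T_mem_Ltop_R (γ : SL(2, ℤ)) (u : Rsubc L K) : C.T γ (u : FFc L K) ∈ Ltop D C := by
  rw [← exA_gen D C u γ]
  exact exA_mem_LtopSub D C _

/-- All values of the cusp expansion maps lie in `Ltop`. -/
theorem T_mem_Ltop [IsFractionRing (Rsubc L K) (FFc L K)] (γ : SL(2, ℤ)) (x : FFc L K) :
    C.T γ x ∈ Ltop D C := by
  obtain ⟨a, b, -, rfl⟩ := IsFractionRing.div_surjective (A := Rsubc L K) x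
  rw [map_div₀]
  exact (Ltop D C).div_mem (T_mem_Ltop_R D C γ a) (T_mem_Ltop_R D C γ b)

/-! ### The action of `SL(2, ℤ)` -/

/-- The action on `Ltop` by ring automorphisms (a group hom). -/
def sRing : SL(2, ℤ) →* (Ltop D C ≃+* Ltop D C) :=
  (IsFractionRing.ringEquivOfRingEquivHom (AFun D) (Ltop D C)).comp (actMonoidHom D)

theorem sRing_exL (δ : SL(2, ℤ)) (f : AFun D) :
    sRing D C δ (exL D C f) = exL D C (actHom D δ⁻¹ f) := by
  show IsFractionRing.ringEquivOfRingEquiv (actMonoidHom D δ)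
    (algebraMap (AFun D) (Ltop D C) f) = _
  rw [IsFractionRing.ringEquivOfRingEquiv_algebraMap]
  rfl

theorem sRing_of_mem_Gamma {δ : SL(2, ℤ)} (hδ : δ ∈ CongruenceSubgroup.Gamma L.w) :
    sRing D C δ = 1 := by
  unfold sRing
  rw [MonoidHom.comp_apply, actMonoidHom_of_mem_Gamma D hδ, map_one]

/-- Constants, as a ring hom `K →+* AFun D`. -/
def constHom : K →+* AFun D where
  toFun c := ⟨fun _ => ι c, const_mem D c⟩
  map_one' := Subtype.ext (funext fun _ => map_one ι)
  map_mul' a b := Subtype.ext (funext fun _ => map_mul ι a b)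
  map_zero' := Subtype.ext (funext fun _ => map_zero ι)
  map_add' a b := Subtype.ext (funext fun _ => map_add ι a b)

/-- Polynomials in `j` with coefficients in `K`, as elements of `AFun D`. -/
def evJ : Polynomial K →+* AFun D :=
  Polynomial.eval₂RingHom (constHom D) ⟨jFun, jFun_mem D⟩

theorem evJ_C (c : K) : evJ D (Polynomial.C c) = constHom D c := by
  unfold evJ
  rw [Polynomial.coe_eval₂RingHom, Polynomial.eval₂_C]

theorem evJ_X : evJ D Polynomial.X = ⟨jFun, jFun_mem D⟩ := by
  unfold evJ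
  rw [Polynomial.coe_eval₂RingHom, Polynomial.eval₂_X]

theorem actHom_evJ (δ : SL(2, ℤ)) (r : Polynomial K) : actHom D δ (evJ D r) = evJ D r := by
  have h : (actHom D δ).comp (evJ D) = evJ D := by
    apply Polynomial.ringHom_ext
    · intro c
      rw [RingHom.comp_apply, evJ_C]
      apply Subtype.ext
      rfl
    · rw [RingHom.comp_apply, evJ_X]
      apply Subtype.ext
      funext z
      exact lof_jFun_smul δ z
  exact RingHom.congr_fun h r

theorem exA_evJ (r : Polynomial K) :
    exA D C (evJ D r) = Polynomial.aeval (Jw K L.w) r := by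
  have h : (exA D C).comp (evJ D) = (Polynomial.aeval (Jw K L.w)).toRingHom := by
    apply Polynomial.ringHom_ext
    · intro c
      rw [RingHom.comp_apply, evJ_C]
      show exA D C ⟨fun _ => ι c, const_mem D c⟩ = Polynomial.aeval (Jw K L.w) (Polynomial.C c)
      rw [exA_const, Polynomial.aeval_C, ModularCurve.algebraMap_laurentSeries_eq_single]
      rfl
    · rw [RingHom.comp_apply, evJ_X]
      show exA D C ⟨jFun, jFun_mem D⟩ = Polynomial.aeval (Jw K L.w) Polynomial.X
      rw [exA_jFun, Polynomial.aeval_X]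
  exact RingHom.congr_fun h r

/-- `sRing δ` fixes `kJ`. -/
theorem sRing_kJ (δ : SL(2, ℤ)) (x : kJ K L.w) :
    sRing D C δ (algebraMap (kJ K L.w) (Ltop D C) x) = algebraMap (kJ K L.w) (Ltop D C) x := by
  obtain ⟨x, hx⟩ := x
  have hx' := hx
  unfold kJ at hx'
  rw [IntermediateField.mem_adjoin_simple_iff] at hx'
  obtain ⟨r, t, hrt⟩ := hx'
  have e : algebraMap (kJ K L.w) (Ltop D C) ⟨x, hx⟩
      = exL D C (evJ D r) / exL D C (evJ D t) := by
    apply Subtype.ext
    rw [IntermediateField.coe_div, coe_exL, coe_exL, exA_evJ, exA_evJ, ← hrt]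
    rfl
  rw [e, map_div₀, sRing_exL, sRing_exL, actHom_evJ, actHom_evJ]

/-- **The action of `SL(2, ℤ)` on `Ltop` over `kJ`**, a group hom with
`s δ (C.T γ u) = C.T (γ * δ⁻¹) u`. -/
def s : SL(2, ℤ) →* (Ltop D C ≃ₐ[kJ K L.w] Ltop D C) where
  toFun δ := AlgEquiv.ofRingEquiv (f := sRing D C δ) (sRing_kJ D C δ)
  map_one' := by
    refine AlgEquiv.ext fun x => ?_
    show sRing D C 1 x = x
    rw [map_one]
    rfl
  map_mul' δ₁ δ₂ := by
    refine AlgEquiv.ext fun x => ?_
    show sRing D C (δ₁ * δ₂) x = sRing D C δ₁ (sRing D C δ₂ x)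
    rw [map_mul]
    rfl

@[simp] theorem s_apply (δ : SL(2, ℤ)) (x : Ltop D C) : s D C δ x = sRing D C δ x := rfl

theorem s_exL (δ : SL(2, ℤ)) (f : AFun D) :
    s D C δ (exL D C f) = exL D C (actHom D δ⁻¹ f) := sRing_exL D C δ f

/-- (iii) `s δ (C.T γ u) = C.T (γ * δ⁻¹) u`. -/
theorem s_T (δ γ : SL(2, ℤ)) (u : Rsubc L K) :
    ((s D C δ ⟨C.T γ (u : FFc L K), T_mem_Ltop_R D C γ u⟩ : Ltop D C) : LaurentSeries K)
      = C.T (γ * δ⁻¹) (u : FFc L K) := by
  have e : (⟨C.T γ (u : FFc L K), T_mem_Ltop_R D C γ u⟩ : Ltop D C)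
      = exL D C ⟨compSL (D.Θ u) γ, genFun_mem D u γ⟩ := by
    apply Subtype.ext
    rw [coe_exL, exA_gen]
  rw [e, s_exL, coe_exL, ← exA_gen D C u (γ * δ⁻¹)]
  congr 1
  apply Subtype.ext
  show compSL (compSL (D.Θ u) γ) δ⁻¹ = compSL (D.Θ u) (γ * δ⁻¹)
  rw [compSL_mul]

/-- (iv) `Γ(w)` acts trivially. -/
theorem Gamma_le_ker : CongruenceSubgroup.Gamma L.w ≤ (s D C).ker := by
  intro δ hδ
  rw [MonoidHom.mem_ker]
  refine AlgEquiv.ext fun x => ?_
  show sRing D C δ x = x
  rw [sRing_of_mem_Gamma D C hδ]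
  rfl

instance finite_range : Finite (s D C).range := by
  have : (s D C).ker.FiniteIndex := Subgroup.finiteIndex_of_le (Gamma_le_ker D C)
  exact Finite.of_equiv _ (QuotientGroup.quotientKerEquivRange (s D C)).toEquiv

/-! ### The fixed field -/

open Polynomial in
/-- An expansion which is invariant under `SL(2, ℤ)` lies in `kJ`. -/
theorem exA_mem_kJ_of_invariant (f : AFun D) (hf : ∀ δ : SL(2, ℤ), actHom D δ f = f) :
    exA D C f ∈ kJ K L.w := by
  obtain ⟨m, P, hP, hE⟩ := exFun_spec D C f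
  have hinv : ∀ (γ : SL(2, ℤ)) (z : ℍ), (f : ℍ → ℂ) (γ • z) = (f : ℍ → ℂ) z := by
    intro γ z
    have := congrArg (fun g : AFun D => (g : ℍ → ℂ) z) (hf γ)
    exact this
  obtain ⟨p, hp, -⟩ := levelOne L.w (mem_HolH_of_mem D f.2) hinv hP
  rw [exA_apply, hE, hp]
  have h1 : aeval (Jw K L.w) p ∈ Algebra.adjoin K {Jw K L.w} :=
    Polynomial.aeval_mem_adjoin_singleton K (Jw K L.w)
  exact IntermediateField.algebra_adjoin_le_adjoin K _ h1

/-- (v) **The fixed field of the image of `SL(2, ℤ)` is `kJ`.** -/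
theorem fixedField_range : IntermediateField.fixedField (s D C).range = ⊥ := by
  classical
  rw [eq_bot_iff]
  intro x hx
  rw [IntermediateField.mem_fixedField_iff] at hx
  rw [IntermediateField.mem_bot]
  have hfix : ∀ δ : SL(2, ℤ), s D C δ x = x := fun δ => hx _ ⟨δ, rfl⟩
  obtain ⟨a, b, rfl⟩ := exists_div D C x
  by_cases hb : exL D C b = 0
  · refine ⟨0, ?_⟩
    rw [hb, div_zero, map_zero]
  have : DecidableEq (s D C).range := Classical.decEq _
  let _ : Fintype (s D C).range := Fintype.ofFinite _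
  -- the norm of the denominator
  set F : (s D C).range → Ltop D C := fun h => (h : Ltop D C ≃ₐ[kJ K L.w] Ltop D C) (exL D C b)
    with hF
  have hFmem : ∀ h, ∃ c : AFun D, F h = exL D C c := by
    rintro ⟨h, δ, rfl⟩
    exact ⟨_, s_exL D C δ b⟩
  have hprod_mem : ∀ S : Finset (s D C).range, ∃ c : AFun D, ∏ h ∈ S, F h = exL D C c := by
    intro S
    have hmem : ∏ h ∈ S, F h ∈ (exL D C).range :=
      Subring.prod_mem _ (fun h _ => by
        obtain ⟨c, hc⟩ := hFmem h
        exact ⟨c, hc.symm⟩)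
    obtain ⟨c, hc⟩ := hmem
    exact ⟨c, hc.symm⟩
  set N : Ltop D C := ∏ h, F h with hN
  have hNfix : ∀ δ : SL(2, ℤ), s D C δ N = N := by
    intro δ
    rw [hN, map_prod]
    let g : (s D C).range := ⟨s D C δ, δ, rfl⟩
    have : ∀ h, s D C δ (F h) = F (g * h) := fun h => rfl
    simp_rw [this]
    exact Fintype.prod_equiv (Equiv.mulLeft g) _ _ (fun _ => rfl)
  have hN0 : N ≠ 0 := by
    rw [hN, Finset.prod_ne_zero_iff]
    intro h _
    exact (map_ne_zero _).mpr hb
  have hone : F 1 = exL D C b := rfl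
  have hNsplit : N = exL D C b * ∏ h ∈ Finset.univ.erase 1, F h := by
    rw [hN, ← hone, Finset.mul_prod_erase _ _ (Finset.mem_univ _)]
  obtain ⟨b', hb'⟩ := hprod_mem (Finset.univ.erase 1)
  obtain ⟨d, hd⟩ := hprod_mem Finset.univ
  -- numerator
  have hxN : exL D C a / exL D C b * N = exL D C (a * b') := by
    rw [hNsplit, hb', map_mul]
    field_simp
  have hxNfix : ∀ δ : SL(2, ℤ), s D C δ (exL D C (a * b')) = exL D C (a * b') := by
    intro δ
    rw [← hxN, map_mul, hfix δ, hNfix δ]
  have hinvA : ∀ (c : AFun D), (∀ δ : SL(2, ℤ), s D C δ (exL D C c) = exL D C c) →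
      ∀ δ : SL(2, ℤ), actHom D δ c = c := by
    intro c hc δ
    have h1 := hc δ⁻¹
    rw [s_exL, inv_inv] at h1
    exact exL_injective D C h1
  have hnum : exA D C (a * b') ∈ kJ K L.w :=
    exA_mem_kJ_of_invariant D C _ (hinvA _ hxNfix)
  have hden : exA D C d ∈ kJ K L.w := by
    apply exA_mem_kJ_of_invariant D C _ (hinvA _ _)
    intro δ
    rw [← hd]
    exact hNfix δ
  refine ⟨(⟨_, hnum⟩ : kJ K L.w) / ⟨_, hden⟩, ?_⟩
  rw [map_div₀]
  have e1 : algebraMap (kJ K L.w) (Ltop D C) ⟨_, hnum⟩ = exL D C (a * b') := Subtype.ext rfl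
  have e2 : algebraMap (kJ K L.w) (Ltop D C) ⟨_, hden⟩ = exL D C d := Subtype.ext rfl
  rw [e1, e2, ← hxN, ← hd, ← hN, mul_div_assoc, div_self hN0, mul_one]

/-! ### Artin -/

instance finiteDimensional : FiniteDimensional (kJ K L.w) (Ltop D C) := by
  have h1 : FiniteDimensional (FixedPoints.subfield (s D C).range (Ltop D C)) (Ltop D C) :=
    inferInstance
  have h2 : FiniteDimensional (IntermediateField.fixedField (s D C).range) (Ltop D C) := h1
  rw [fixedField_range] at h2
  have h3 : 0 < Module.finrank (⊥ : IntermediateField (kJ K L.w) (Ltop D C)) (Ltop D C) :=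
    Module.finrank_pos
  rw [IntermediateField.finrank_bot'] at h3
  exact FiniteDimensional.of_finrank_pos h3

/-- (ii) **`Ltop / kJ` is Galois.** -/
instance isGalois : IsGalois (kJ K L.w) (Ltop D C) := by
  apply IsGalois.of_fixedField_eq_bot
  rw [eq_bot_iff, ← fixedField_range D C]
  exact IntermediateField.fixedField_le le_top

theorem range_s : (s D C).range = ⊤ := by
  have h := IntermediateField.fixingSubgroup_fixedField (s D C).range
  rw [fixedField_range, IntermediateField.fixingSubgroup_bot] at h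
  exact h.symm

/-- (v) **`s` is surjective**: the Galois group of `Ltop / kJ` is the image of `SL(2, ℤ)`. -/
theorem s_surjective : Function.Surjective (s D C) :=
  MonoidHom.range_eq_top.mp (range_s D C)

end Fermat.Agent.DS.G.RED.Igusa.GaloisClosure30B
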