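/-
Programme DS (S48), chapter G-RED / Igusa, brick IGU-D (helper30), part C: complements for the
adapter to `Igu77.Input.IgusaInput`.

* `T_one_R`, `T_one`        : `C.T 1 = qExpand K w` (the map `V : q ↦ Q^w`);
* `s_T_inv_coe`, `s_T_coe`  : (vi) `s T⁻¹` is the twist `Q ↦ ζ Q`, `s T` the twist `Q ↦ ζ⁻¹ Q`;
* `exists_s_eq`             : every `β ∈ Gal(Ltop / kJ)` is `s δ`, and if `β` fixes `C.T 1 u` then
                              `Θ u ∘ δ = Θ u`  (input of `hfix`);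
* `algHom_ext_T`            : two ring homs out of `Ltop` which agree on all `C.T γ u` are equal.
-/
import Mathlib
import Fermat.Agent.DS.G.RED.Igusa.GaloisClosure30B

set_option autoImplicit false
set_option linter.unusedSectionVars false

open UpperHalfPlane
open scoped MatrixGroups

noncomputable section

namespace Fermat.Agent.DS.G.RED.Igusa.GaloisClosure30C

open Fermat.Agent.X0 Fermat.Agent.DS.G.Level Fermat.Agent.DS.G.RED.Igusa.GaloisClosure30A
  Fermat.Agent.DS.G.RED.Igusa.GaloisClosure30B Fermat.Agent.X0.CuspEquiv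

variable {L : LevelData} {K : Type} [Field K] [Algebra ℚ K] {ι : K →+* ℂ}
variable (D : RealizeDataL L K ι) (C : CuspDataL L K ι D)

/-! ### `C.T 1` is `q ↦ Q^w` -/

/-- On `R`, the expansion at `∞` in the variable `Q = q_w` is `q ↦ Q^w` applied to the formal
element. -/
theorem T_one_R (u : Rsubc L K) :
    C.T 1 (u : FFc L K) = ModularCurve.qExpand K L.w ((u : FFc L K) : LaurentSeries K) := by
  obtain ⟨m, P, hP, hu⟩ := D.isQExp u
  rw [hu, qExpand_laurentOf, ← exA_gen D C u 1]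
  apply exA_eq D C
  have h := hP.level_mul L.w
  rw [one_mul, ← PowerSeries.map_expand] at h
  show IsQExp L.w (compSL (D.Θ u) 1) _ _
  rw [compSL_one]
  exact h

/-- `C.T 1 = qExpand K w` on the whole function field. -/
theorem T_one [IsFractionRing (Rsubc L K) (FFc L K)] (x : FFc L K) :
    C.T 1 x = ModularCurve.qExpand K L.w (x : LaurentSeries K) := by
  obtain ⟨a, b, -, rfl⟩ := IsFractionRing.div_surjective (A := Rsubc L K) x
  rw [map_div₀]
  have ha := T_one_R D C a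
  have hb := T_one_R D C b
  have e : ((algebraMap (Rsubc L K) (FFc L K) a / algebraMap (Rsubc L K) (FFc L K) b : FFc L K) :
      LaurentSeries K) = ((a : FFc L K) : LaurentSeries K) / ((b : FFc L K) : LaurentSeries K) :=
    rfl
  rw [e, map_div₀]
  exact congrArg₂ (· / ·) ha hb

/-! ### The twist -/

omit [Algebra ℚ K] in
theorem twist_twist_inv {ζ : K} (hζ0 : ζ ≠ 0) (x : LaurentSeries K) :
    twist ζ⁻¹ (inv_ne_zero hζ0) (twist ζ hζ0 x) = x := by
  ext n
  rw [twist_coeff, twist_coeff, inv_zpow, ← mul_assoc, inv_mul_cancel₀ (zpow_ne_zero n hζ0),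
    one_mul]

/-- (vi) **`s T⁻¹` is the twist `Q ↦ ζ Q`**, `ι ζ = exp(2πi/w)`. -/
theorem s_T_inv_coe {ζ : K} (hζ : ι ζ = Complex.exp (2 * Real.pi * Complex.I / L.w))
    (hζ0 : ζ ≠ 0) (x : Ltop D C) :
    ((s D C ModularGroup.T⁻¹ x : Ltop D C) : LaurentSeries K)
      = twist ζ hζ0 (x : LaurentSeries K) := by
  obtain ⟨a, b, rfl⟩ := exists_div D C x
  rw [map_div₀, IntermediateField.coe_div, IntermediateField.coe_div, map_div₀, s_exL, s_exL,
    inv_inv, coe_exL, coe_exL, coe_exL, coe_exL, exA_comp_T D C hζ hζ0, exA_comp_T D C hζ hζ0]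

/-- (vi) **`s T` is the twist `Q ↦ ζ⁻¹ Q`**, `ι ζ = exp(2πi/w)`. -/
theorem s_T_coe {ζ : K} (hζ : ι ζ = Complex.exp (2 * Real.pi * Complex.I / L.w))
    (hζ0 : ζ ≠ 0) (x : Ltop D C) :
    ((s D C ModularGroup.T x : Ltop D C) : LaurentSeries K)
      = twist ζ⁻¹ (inv_ne_zero hζ0) (x : LaurentSeries K) := by
  have h := s_T_inv_coe D C hζ hζ0 (s D C ModularGroup.T x)
  have h1 : s D C ModularGroup.T⁻¹ (s D C ModularGroup.T x) = x := by
    rw [← AlgEquiv.mul_apply, ← map_mul, inv_mul_cancel, map_one, AlgEquiv.one_apply]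
  rw [h1] at h
  rw [h, twist_twist_inv]

/-! ### Elements of the Galois group -/

/-- Every `β ∈ Gal(Ltop / kJ)` is `s δ`; if moreover `β` fixes `C.T 1 u` (`u ∈ R`), then
`Θ u ∘ δ = Θ u`. -/
theorem exists_s_eq (β : Ltop D C ≃ₐ[kJ K L.w] Ltop D C) :
    ∃ δ : SL(2, ℤ), s D C δ = β ∧ ∀ u : Rsubc L K,
      β ⟨C.T 1 (u : FFc L K), T_mem_Ltop_R D C 1 u⟩
        = ⟨C.T 1 (u : FFc L K), T_mem_Ltop_R D C 1 u⟩ → compSL (D.Θ u) δ = D.Θ u := by
  obtain ⟨δ, rfl⟩ := s_surjective D C β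
  refine ⟨δ, rfl, fun u hu => ?_⟩
  have h := congrArg (fun y : Ltop D C => (y : LaurentSeries K)) hu
  simp only [s_T] at h
  rw [one_mul, ← exA_gen D C u δ⁻¹, ← exA_gen D C u 1] at h
  have h2 := congrArg (fun f : AFun D => (f : ℍ → ℂ)) (exA_injective D C h)
  simp only [compSL_one] at h2
  -- `Θ u ∘ δ⁻¹ = Θ u`, hence `Θ u ∘ δ = Θ u`
  calc compSL (D.Θ u) δ = compSL (compSL (D.Θ u) δ⁻¹) δ := by rw [h2]
    _ = compSL (D.Θ u) (δ⁻¹ * δ) := (compSL_mul _ _ _).symm
    _ = D.Θ u := by rw [inv_mul_cancel, compSL_one]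

/-- Two ring homs out of `Ltop` which agree on all cusp expansions `C.T γ u` are equal. -/
theorem ringHom_ext_T {S : Type*} [Field S] {φ ψ : Ltop D C →+* S}
    (h : ∀ (γ : SL(2, ℤ)) (u : Rsubc L K),
      φ ⟨C.T γ (u : FFc L K), T_mem_Ltop_R D C γ u⟩
        = ψ ⟨C.T γ (u : FFc L K), T_mem_Ltop_R D C γ u⟩) : φ = ψ := by
  have h1 : φ.comp (exL D C) = ψ.comp (exL D C) := by
    apply ringHom_ext_AFun D
    intro u γ
    have e : exL D C ⟨compSL (D.Θ u) γ, genFun_mem D u γ⟩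
        = (⟨C.T γ (u : FFc L K), T_mem_Ltop_R D C γ u⟩ : Ltop D C) := by
      apply Subtype.ext
      rw [coe_exL, exA_gen]
    rw [RingHom.comp_apply, RingHom.comp_apply, e]
    exact h γ u
  ext x
  obtain ⟨a, b, rfl⟩ := exists_div D C x
  rw [map_div₀, map_div₀]
  have ha := RingHom.congr_fun h1 a
  have hb := RingHom.congr_fun h1 b
  simp only [RingHom.comp_apply] at ha hb
  rw [ha, hb]

end Fermat.Agent.DS.G.RED.Igusa.GaloisClosure30C
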