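/-
DS / chapter G-RED, Igusa route (IGU), brick IGU-ABS part (II) (helper51):
**the tower lemma / change of base parameter for (DEG)+(IRR)**  (step (6) of proposal 417).

Gauss vocabulary of `RED/PUR/G1Package8`: `O` a DVR of `K`, fields `E₀ ≤ E₁ ≤ fracField O` inside
`K((q))`, two Gauss-integral parameters `t, s ∈ E₀` with transcendental reductions.

If (DEG)+(IRR) hold for `(E₀, t)` (the `X₀` theorem) and for `(E₁, s)` (Igusa over `s = j_M`), then
(DEG)+(IRR) hold for `(E₁, t)` with `n = [E₁ : K(t)]` (`degLe_irr_tower`).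

Proof: residue degrees are multiplicative in towers and bounded by the degrees; the two inputs say
`f = n` for `E₀ / K(t)` and `E₁ / K(s)`; dividing, `f(E₁/E₀) = [E₁ : E₀]`; multiplying,
`f(E₁ / K(t)) = [E₁ : K(t)]`.  All degrees are `IntermediateField.relfinrank`s, converted from and to
the family forms `DegLe`, `Irr` by `IG/PR/FamilyForm20`.
-/
import Mathlib
import Fermat.Agent.RED.PUR.G1Package8
import Fermat.Agent.RED.PUR.GaussBridge10
import Fermat.Agent.RED.PUR.GaussDeg25
import Fermat.Agent.RED.PUR.UniqueExt20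
import Fermat.Agent.IG.PR.FamilyForm20

set_option autoImplicit false
set_option linter.unusedSectionVars false

noncomputable section

open HahnSeries ModularCurve IntermediateField

namespace Fermat.Agent.DS.G.RED.Igusa.Abs51Tower

open Fermat.Agent.RED.PUR.GaussGen8 Fermat.Agent.RED.PUR.KtGauss8
open Fermat.Agent.RED.PUR.G1Package8 Fermat.Agent.RED.PUR.GaussBridge10
open Fermat.Agent.RED.PUR Fermat.Agent.IG.PR

/-! ### Generic: a family bound forces finite dimension -/

section Generic

variable {F E : Type*} [Field F] [Field E] [Algebra F E] {A B : IntermediateField F E}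

/-- If every `A`-independent family of elements of `B` has at most `m` members, then `B` is finite
over `A` (stated as `relfinrank A B ≠ 0`). -/
theorem relfinrank_ne_zero_of_family_bound (h : A ≤ B) (m : ℕ)
    (hub : ∀ (n : ℕ) (c : Fin n → E), (∀ i, c i ∈ B) → LinearIndependent ↥A c → n ≤ m) :
    relfinrank A B ≠ 0 := by
  classical
  rw [relfinrank_eq_finrank_of_le h]
  have hrank : Module.rank ↥A ↥(extendScalars h) ≤ (m : Cardinal) := by
    refine rank_le fun s hs => ?_
    let e := s.equivFin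
    let c : Fin s.card → E := fun i => (((e.symm i : ↥s) : ↥(extendScalars h)) : E)
    have hc : ∀ i, c i ∈ B := fun i => (mem_extendScalars h).mp ((e.symm i : ↥s) : ↥(extendScalars h)).2
    have hli : LinearIndependent ↥A c := by
      have h1 : LinearIndependent ↥A (fun i : Fin s.card => ((e.symm i : ↥s) : ↥(extendScalars h))) :=
        hs.comp _ e.symm.injective
      exact h1.map' (extendScalars h).val.toLinearMap
        (LinearMap.ker_eq_bot.mpr (extendScalars h).val.injective)
    exact hub _ c hc hli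
  have hfin : Module.Finite ↥A ↥(extendScalars h) :=
    Module.rank_lt_aleph0_iff.mp (lt_of_le_of_lt hrank (Cardinal.natCast_lt_aleph0))
  exact (Module.finrank_pos (R := ↥A) (M := ↥(extendScalars h))).ne'

/-- equality of two factorisations with termwise inequalities. -/
theorem eq_of_mul_eq_of_le {a b A' B' : ℕ} (h : a * b = A' * B') (ha : a ≤ A') (hb : b ≤ B')
    (h0 : A' * B' ≠ 0) : b = B' := by
  refine le_antisymm hb ?_
  by_contra hlt
  push Not at hlt
  have hA : 0 < A' := Nat.pos_of_ne_zero fun h' => h0 (by rw [h', zero_mul])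
  have h1 : a * b ≤ A' * b := Nat.mul_le_mul_right b ha
  have h2 : A' * b < A' * B' := Nat.mul_lt_mul_of_pos_left hlt hA
  omega

end Generic

/-! ### Gauss side -/

variable {K : Type*} [Field K] {O : ValuationSubring K} [IsDiscreteValuationRing ↥O] {π : ↥O}

/-- **(LI) over a general base**: elements of the Gauss ring whose residues are linearly independent
over the residue field of `E'` are linearly independent over `E'`. -/
theorem linearIndependent_of_gaussRed_resField (hπ : Irreducible π)
    (E' : IntermediateField K (LaurentSeries K)) (hE' : E' ≤ fracField O) {n : ℕ}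
    (x : Fin n → ↥(gaussRing O))
    (hli : LinearIndependent ↥(resField O E') (fun i => gaussRed O (x i))) :
    LinearIndependent ↥E' (fun i => ((x i : ↥(gaussRing O)) : LaurentSeries K)) := by
  classical
  have hu := isUnif_of_irreducible O hπ
  rw [Fintype.linearIndependent_iff]
  intro g hg
  by_contra hne
  push Not at hne
  let V : ValuationSubring ↥E' := gaussVS hu E' hE'
  obtain ⟨j, hj0, hj⟩ := UniqueExt20.exists_scale V g hne
  have hmem : ∀ i, ((g i / g j : ↥E') : LaurentSeries K) ∈ gaussRing O := fun i =>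
    (mem_gaussVS_iff hu E' hE' _).mp ((V.valuation_le_one_iff _).mp (hj i))
  let a : Fin n → ↥(gaussRing O) := fun i => ⟨_, hmem i⟩
  have hrel : ∑ i, a i * x i = 0 := by
    apply Subtype.ext
    have h1 : ((∑ i, a i * x i : ↥(gaussRing O)) : LaurentSeries K) =
        ∑ i, ((g i / g j : ↥E') : LaurentSeries K) * ((x i : ↥(gaussRing O)) : LaurentSeries K) := by
      push_cast
      rfl
    rw [h1]
    have h2 : ∑ i, ((g i / g j : ↥E') : LaurentSeries K) *
        ((x i : ↥(gaussRing O)) : LaurentSeries K) =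
        (((g j)⁻¹ : ↥E') : LaurentSeries K) *
          ∑ i, g i • ((x i : ↥(gaussRing O)) : LaurentSeries K) := by
      rw [Finset.mul_sum]
      refine Finset.sum_congr rfl fun i _ => ?_
      rw [Algebra.smul_def, div_eq_mul_inv]
      push_cast
      rw [IntermediateField.algebraMap_apply]
      ring
    rw [h2, hg, mul_zero]
    rfl
  have hred := congrArg (gaussRed O) hrel
  rw [map_sum, map_zero] at hred
  have hκ : ∀ i, gaussRed O (a i) ∈ resField O E' := fun i =>
    ⟨((g i / g j : ↥E') : LaurentSeries K), hmem i, (g i / g j : ↥E').2, rfl⟩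
  have hred' : ∑ i, (⟨gaussRed O (a i), hκ i⟩ : ↥(resField O E')) • gaussRed O (x i) = 0 := by
    rw [← hred]
    refine Finset.sum_congr rfl fun i _ => ?_
    rw [map_mul, Algebra.smul_def]
    rfl
  have hzero := Fintype.linearIndependent_iff.mp hli _ hred' j
  have hone : a j = 1 := by
    apply Subtype.ext
    show ((g j / g j : ↥E') : LaurentSeries K) = 1
    rw [div_self hj0]
    rfl
  have : gaussRed O (a j) = 0 := congrArg Subtype.val hzero
  rw [hone, map_one] at this
  exact one_ne_zero this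

variable {E : IntermediateField K (LaurentSeries K)} {tG : ↥(gaussRing O)}

omit [IsDiscreteValuationRing ↥O] in
/-- `κ(t̃)` lies in the residue field of every `E ∋ t`. -/
theorem kt_le_resField (htE : (tG : LaurentSeries K) ∈ E) : kt O tG ≤ resField O E := by
  rw [adjoin_simple_le_iff]
  exact ⟨(tG : LaurentSeries K), tG.2, htE, rfl⟩

/-- The residue field of `E` has at most `[E : K(t)]` independent elements over `κ(t̃)`. -/
theorem res_family_bound (hπ : Irreducible π) (htr : Transcendental (Res O) (gaussRed O tG))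
    {n : ℕ} (hdeg : DegLe O E tG n)
    (k : ℕ) (y : Fin k → LaurentSeries (Res O)) (hy : ∀ i, y i ∈ resField O E)
    (hli : LinearIndependent ↥(kt O tG) y) : k ≤ n := by
  choose f hf hfE hfy using hy
  have hli' : LinearIndependent ↥(kt O tG)
      (fun i => gaussRed O (⟨f i, hf i⟩ : ↥(gaussRing O))) := by
    have : (fun i => gaussRed O (⟨f i, hf i⟩ : ↥(gaussRing O))) = y := funext hfy
    rw [this]
    exact hli
  exact hdeg k (fun i => f i) hfE
    (GaussDeg25.linearIndependent_of_gaussRed hπ htr (fun i => ⟨f i, hf i⟩) hli')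

/-- **(DEG)+(IRR) in degree form**: `[E : K(t)] = n = [Ẽ : κ(t̃)]`. -/
theorem relfinrank_eq_of_degLe_irr (hπ : Irreducible π)
    (htr : Transcendental (Res O) (gaussRed O tG)) (htE : (tG : LaurentSeries K) ∈ E)
    {n : ℕ} (hdeg : DegLe O E tG n) (hirr : Irr O E tG n) :
    n ≠ 0 ∧ relfinrank (Kt O tG) E = n ∧ relfinrank (kt O tG) (resField O E) = n := by
  have hKE : Kt O tG ≤ E := Kt_le htE
  have hkR : kt O tG ≤ resField O E := kt_le_resField htE
  have h1 : relfinrank (Kt O tG) E ≠ 0 := relfinrank_ne_zero_of_family_bound hKE n hdeg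
  have h2 : relfinrank (Kt O tG) E ≤ n := FamilyForm20.relfinrank_le_of_family_bound hKE n hdeg
  have h3 : relfinrank (kt O tG) (resField O E) ≠ 0 :=
    relfinrank_ne_zero_of_family_bound hkR n (res_family_bound hπ htr hdeg)
  have h4 : relfinrank (kt O tG) (resField O E) ≤ n :=
    FamilyForm20.relfinrank_le_of_family_bound hkR n (res_family_bound hπ htr hdeg)
  obtain ⟨e, heE, hind⟩ := hirr
  have h5 : n ≤ relfinrank (Kt O tG) E :=
    FamilyForm20.le_relfinrank_of_family hKE n h1 _ heE
      (GaussDeg25.linearIndependent_of_gaussRed hπ htr e hind)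
  have h6 : n ≤ relfinrank (kt O tG) (resField O E) :=
    FamilyForm20.le_relfinrank_of_family hkR n h3 _
      (fun i => ⟨(e i : LaurentSeries K), (e i).2, heE i, rfl⟩) hind
  refine ⟨?_, le_antisymm h2 h5, le_antisymm h4 h6⟩
  intro h0
  exact h1 (Nat.le_zero.mp (h0 ▸ h2))

/-- Conversely: equal finite degrees give the family forms. -/
theorem degLe_irr_of_relfinrank_eq (htE : (tG : LaurentSeries K) ∈ E) {n : ℕ} (hn : n ≠ 0)
    (h1 : relfinrank (Kt O tG) E = n) (h2 : relfinrank (kt O tG) (resField O E) = n) :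
    DegLe O E tG n ∧ Irr O E tG n := by
  have hKE : Kt O tG ≤ E := Kt_le htE
  have hkR : kt O tG ≤ resField O E := kt_le_resField htE
  refine ⟨fun m c hc hli => ?_, ?_⟩
  · rw [← h1]
    exact FamilyForm20.le_relfinrank_of_family hKE m (by rw [h1]; exact hn) c hc hli
  · obtain ⟨c, hc, hli⟩ := FamilyForm20.exists_family_of_le_relfinrank hkR n (le_of_eq h2.symm)
    choose f hf hfE hfy using hc
    refine ⟨fun i => ⟨f i, hf i⟩, hfE, ?_⟩
    have : (fun i => gaussRed O (⟨f i, hf i⟩ : ↥(gaussRing O))) = c := funext hfy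
    rw [this]
    exact hli

/-- residue degrees are bounded by degrees, relative form. -/
theorem relfinrank_resField_le (hπ : Irreducible π)
    {E₀ E₁ : IntermediateField K (LaurentSeries K)} (h01 : E₀ ≤ E₁) (hE₀ : E₀ ≤ fracField O)
    (hfin : relfinrank E₀ E₁ ≠ 0) :
    relfinrank (resField O E₀) (resField O E₁) ≤ relfinrank E₀ E₁ := by
  refine FamilyForm20.relfinrank_le_of_family_bound (resField_mono O h01) _ ?_
  intro k y hy hli
  choose f hf hfE hfy using hy
  have hli' : LinearIndependent ↥(resField O E₀)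
      (fun i => gaussRed O (⟨f i, hf i⟩ : ↥(gaussRing O))) := by
    have : (fun i => gaussRed O (⟨f i, hf i⟩ : ↥(gaussRing O))) = y := funext hfy
    rw [this]
    exact hli
  exact FamilyForm20.le_relfinrank_of_family h01 k hfin (fun i => f i) hfE
    (linearIndependent_of_gaussRed_resField hπ E₀ hE₀ (fun i => ⟨f i, hf i⟩) hli')

/-- **TOWER / change of base parameter.**  `E₀ ≤ E₁ ≤ fracField O`, parameters `t, s ∈ E₀`.
(DEG)+(IRR) for `(E₀, t)` and for `(E₁, s)` give (DEG)+(IRR) for `(E₁, t)`, with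
`n = [E₁ : K(t)] = n₀ · [E₁ : E₀]`. -/
theorem degLe_irr_tower (hπ : Irreducible π)
    {E₀ E₁ : IntermediateField K (LaurentSeries K)} (h01 : E₀ ≤ E₁) (hE₁ : E₁ ≤ fracField O)
    {tG sG : ↥(gaussRing O)}
    (htr : Transcendental (Res O) (gaussRed O tG)) (hsr : Transcendental (Res O) (gaussRed O sG))
    (htE : (tG : LaurentSeries K) ∈ E₀) (hsE : (sG : LaurentSeries K) ∈ E₀)
    {n₀ m : ℕ} (hd0 : DegLe O E₀ tG n₀) (hi0 : Irr O E₀ tG n₀)
    (hd1 : DegLe O E₁ sG m) (hi1 : Irr O E₁ sG m) :
    relfinrank (Kt O tG) E₁ ≠ 0 ∧ relfinrank (Kt O tG) E₁ = n₀ * relfinrank E₀ E₁ ∧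
      DegLe O E₁ tG (relfinrank (Kt O tG) E₁) ∧ Irr O E₁ tG (relfinrank (Kt O tG) E₁) := by
  have hE₀ : E₀ ≤ fracField O := h01.trans hE₁
  have hR01 : resField O E₀ ≤ resField O E₁ := resField_mono O h01
  -- the two inputs in degree form
  obtain ⟨hn0, ht1, ht2⟩ := relfinrank_eq_of_degLe_irr hπ htr htE hd0 hi0
  obtain ⟨hm0, hs1, hs2⟩ := relfinrank_eq_of_degLe_irr hπ hsr (h01 hsE) hd1 hi1
  -- towers over `s`
  have hKs0 : Kt O sG ≤ E₀ := Kt_le hsE
  have hks0 : kt O sG ≤ resField O E₀ := kt_le_resField hsE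
  have hAB : relfinrank (Kt O sG) E₀ * relfinrank E₀ E₁ = m := by
    rw [relfinrank_mul_relfinrank hKs0 h01, hs1]
  have hab : relfinrank (kt O sG) (resField O E₀) * relfinrank (resField O E₀) (resField O E₁) = m := by
    rw [relfinrank_mul_relfinrank hks0 hR01, hs2]
  have hA0 : relfinrank (Kt O sG) E₀ ≠ 0 := fun h => hm0 (by rw [← hAB, h, zero_mul])
  have hB0 : relfinrank E₀ E₁ ≠ 0 := fun h => hm0 (by rw [← hAB, h, mul_zero])
  -- termwise inequalities
  have ha : relfinrank (kt O sG) (resField O E₀) ≤ relfinrank (Kt O sG) E₀ := by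
    refine FamilyForm20.relfinrank_le_of_family_bound hks0 _ ?_
    intro k y hy hli
    choose f hf hfE hfy using hy
    have hli' : LinearIndependent ↥(kt O sG)
        (fun i => gaussRed O (⟨f i, hf i⟩ : ↥(gaussRing O))) := by
      have : (fun i => gaussRed O (⟨f i, hf i⟩ : ↥(gaussRing O))) = y := funext hfy
      rw [this]
      exact hli
    exact FamilyForm20.le_relfinrank_of_family hKs0 k hA0 (fun i => f i) hfE
      (GaussDeg25.linearIndependent_of_gaussRed hπ hsr (fun i => ⟨f i, hf i⟩) hli')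
  have hb : relfinrank (resField O E₀) (resField O E₁) ≤ relfinrank E₀ E₁ :=
    relfinrank_resField_le hπ h01 hE₀ hB0
  have hbB : relfinrank (resField O E₀) (resField O E₁) = relfinrank E₀ E₁ :=
    eq_of_mul_eq_of_le (hab.trans hAB.symm) ha hb (by rw [hAB]; exact hm0)
  -- towers over `t`
  have hKt0 : Kt O tG ≤ E₀ := Kt_le htE
  have hkt0 : kt O tG ≤ resField O E₀ := kt_le_resField htE
  have hN : relfinrank (Kt O tG) E₁ = n₀ * relfinrank E₀ E₁ := by
    rw [← relfinrank_mul_relfinrank hKt0 h01, ht1]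
  have hN' : relfinrank (kt O tG) (resField O E₁) = n₀ * relfinrank E₀ E₁ := by
    rw [← relfinrank_mul_relfinrank hkt0 hR01, ht2, hbB]
  have hNne : relfinrank (Kt O tG) E₁ ≠ 0 := by
    rw [hN]
    exact Nat.mul_ne_zero hn0 hB0
  obtain ⟨hD, hI⟩ := degLe_irr_of_relfinrank_eq (h01 htE) hNne rfl (hN'.trans hN.symm)
  exact ⟨hNne, hN, hD, hI⟩

/-- **TOWER**, existential form (the shape consumed by IGU-FIN). -/
theorem exists_degLe_irr_tower (hπ : Irreducible π)
    {E₀ E₁ : IntermediateField K (LaurentSeries K)} (h01 : E₀ ≤ E₁) (hE₁ : E₁ ≤ fracField O)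
    {tG sG : ↥(gaussRing O)}
    (htr : Transcendental (Res O) (gaussRed O tG)) (hsr : Transcendental (Res O) (gaussRed O sG))
    (htE : (tG : LaurentSeries K) ∈ E₀) (hsE : (sG : LaurentSeries K) ∈ E₀)
    {n₀ m : ℕ} (hd0 : DegLe O E₀ tG n₀) (hi0 : Irr O E₀ tG n₀)
    (hd1 : DegLe O E₁ sG m) (hi1 : Irr O E₁ sG m) :
    ∃ n : ℕ, n ≠ 0 ∧ DegLe O E₁ tG n ∧ Irr O E₁ tG n := by
  obtain ⟨h1, -, h3, h4⟩ := degLe_irr_tower hπ h01 hE₁ htr hsr htE hsE hd0 hi0 hd1 hi1
  exact ⟨_, h1, h3, h4⟩

end Fermat.Agent.DS.G.RED.Igusa.Abs51Tower
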