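/-
Programme DS (S48), chapter G-RED / IGUSA, brick IGU-GB2 (helper31): THE ABSTRACT (GB2) CRITERION.

`O ⊂ K` a DVR with uniformiser `π`, residue field `κ`; `t` a Gauss-integral series with transcendental
residue `t̃`; `E₁ ∋ t` a subfield of `K((q))` with `[E₁ : K(t)] ≤ n` (family form `G1Package8.DegLe`);
`F'` a subfield of the residue field `resField O E₁` of the Gauss valuation on `E₁` with `t̃ ∈ F'`
(think: `F' = κ(g̃ : g ∈ gens)`, `E₁ = K(ĝ : g ∈ gens)`).

  `resField_le_of_conjugates` : if there are (at least) `n` ring homs `ρ i : E₁ → K((Q))` which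
  * preserve Gauss-integrality (`hρg`; chapter IGU: the decomposition group is everything),
  * fix `π` (`hρπ`) and agree on `K(t)` (`hρ0`),
  * have pairwise distinct reductions on the elements of `E₁` with residue in `F'` (`hdist`),
  then `resField O E₁ ≤ F'`, i.e. the residue field of `E₁` is `F'`  (= (GB2)).

  `resField_le_of_conjugates'` : the same with `hρπ`, `hρ0` replaced by: the `ρ i` are the identity on
  the constants `K` and agree at `t`.

Proof: the reductions `χ i = gaussRed ∘ ρ i` are `n` pairwise distinct characters of the multiplicative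
monoid of `{x ∈ E₁ ∩ gaussRing : x̃ ∈ F'}`, which agree on the lifts of `κ(t̃)`; by Dedekind's
independence of characters (`card_le_of_characters`) `[F' : κ(t̃)] ≥ n`; on the other hand
`[resField O E₁ : κ(t̃)] ≤ [E₁ : K(t)] ≤ n` by lifting (`GaussDeg25.linearIndependent_of_gaussRed`).
-/
import Mathlib
import Fermat.Agent.RED.PUR.GaussGen8
import Fermat.Agent.RED.PUR.KtGauss8
import Fermat.Agent.RED.PUR.G1Package8
import Fermat.Agent.RED.PUR.GaussBridge10
import Fermat.Agent.RED.PUR.GaussDeg25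
import Fermat.Agent.IG.PR.FamilyForm20
import Fermat.Agent.DS.G.ES.RED.LinDisjoint

set_option autoImplicit false
set_option linter.unusedSectionVars false

noncomputable section

namespace Fermat.Agent.DS.G.RED.Igusa.ResGen31

open HahnSeries ModularCurve IntermediateField
open Fermat.Agent.RED.PUR.GaussGen8 Fermat.Agent.RED.PUR.KtGauss8
  Fermat.Agent.RED.PUR.G1Package8 Fermat.Agent.RED.PUR.GaussBridge10
  Fermat.Agent.RED.PUR Fermat.Agent.IG.PR

/-- **Dedekind bound, spanning form.** -/
theorem card_le_of_characters {G Ω ι : Type*} [Monoid G] [Field Ω] [Fintype ι]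
    (χ : ι → G →* Ω) (hinj : Function.Injective χ) (m : ℕ) (y : Fin m → G)
    (hspan : ∀ x : G, ∃ a : Fin m → Ω, ∀ i, χ i x = ∑ k, a k * χ i (y k)) :
    Fintype.card ι ≤ m := by
  classical
  have hli : LinearIndependent Ω (fun i : ι => (fun k : Fin m => χ i (y k))) := by
    rw [Fintype.linearIndependent_iff]
    intro g hg
    have hk : ∀ k, ∑ i, g i * χ i (y k) = 0 := by
      intro k
      have := congrFun hg k
      simpa [Finset.sum_apply, Pi.smul_apply, smul_eq_mul] using this
    have hchar : LinearIndependent Ω (fun i : ι => (χ i : G → Ω)) :=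
      (linearIndependent_monoidHom G Ω).comp χ hinj
    rw [Fintype.linearIndependent_iff] at hchar
    refine hchar g ?_
    funext x
    obtain ⟨a, ha⟩ := hspan x
    simp only [Finset.sum_apply, Pi.smul_apply, smul_eq_mul, Pi.zero_apply]
    calc ∑ i, g i * χ i x = ∑ i, g i * ∑ k, a k * χ i (y k) := by
          refine Finset.sum_congr rfl fun i _ => ?_
          rw [ha i]
      _ = ∑ k, a k * ∑ i, g i * χ i (y k) := by
          simp_rw [Finset.mul_sum]
          rw [Finset.sum_comm]
          refine Finset.sum_congr rfl fun k _ => Finset.sum_congr rfl fun i _ => ?_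
          ring
      _ = 0 := by
          refine Finset.sum_eq_zero fun k _ => ?_
          rw [hk k, mul_zero]
  have := hli.fintype_card_le_finrank
  simpa using this

variable {K : Type*} [Field K] {O : ValuationSubring K}
  (E1 : IntermediateField K (LaurentSeries K))

/-- the Gauss valuation ring of `E₁`, as a subring of `↥E₁`. -/
def R1 : Subring ↥E1 := (gaussRing O).comap (E1.val : ↥E1 →+* LaurentSeries K)

theorem mem_R1 (x : ↥E1) : x ∈ R1 (O := O) E1 ↔ (x : LaurentSeries K) ∈ gaussRing O := Iff.rfl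

/-- reduction of a Gauss-preserving ring hom `ρ : E₁ → K((Q))`, on the Gauss ring of `E₁`. -/
def chi (ρ : ↥E1 →+* LaurentSeries K)
    (hρg : ∀ x : ↥E1, (x : LaurentSeries K) ∈ gaussRing O → ρ x ∈ gaussRing O) :
    ↥(R1 (O := O) E1) →+* LaurentSeries (Res O) :=
  (gaussRed O).comp ((ρ.comp (R1 (O := O) E1).subtype).codRestrict (gaussRing O)
    (fun x => hρg x x.2))

theorem chi_apply (ρ : ↥E1 →+* LaurentSeries K)
    (hρg : ∀ x : ↥E1, (x : LaurentSeries K) ∈ gaussRing O → ρ x ∈ gaussRing O)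
    (x : ↥(R1 (O := O) E1)) :
    chi E1 ρ hρg x = gaussRed O ⟨ρ x, hρg x x.2⟩ := rfl

/-- the reduction map on the Gauss ring of `E₁`. -/
def red1 : ↥(R1 (O := O) E1) →+* LaurentSeries (Res O) :=
  chi E1 (E1.val : ↥E1 →+* LaurentSeries K) (fun _ hx => hx)

theorem red1_apply (x : ↥(R1 (O := O) E1)) :
    red1 E1 x = gaussRed O ⟨((x : ↥E1) : LaurentSeries K), x.2⟩ := rfl

/-- the elements of the Gauss ring of `E₁` with residue in `F'`. -/
def R1F (F' : IntermediateField (Res O) (LaurentSeries (Res O))) : Subring ↥(R1 (O := O) E1) :=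
  F'.toSubfield.toSubring.comap (red1 E1)

theorem mem_R1F (F' : IntermediateField (Res O) (LaurentSeries (Res O)))
    (x : ↥(R1 (O := O) E1)) : x ∈ R1F E1 F' ↔ red1 E1 x ∈ F' := Iff.rfl

section Kernel

variable {π : ↥O} (hu : IsUnif O π)

include hu in
/-- an element of the Gauss ring of `E₁` with zero residue is `π` times another one, hence is killed
by the reduction of every Gauss-preserving ring hom fixing `π`. -/
theorem chi_eq_zero_of_red1_eq_zero (ρ : ↥E1 →+* LaurentSeries K)
    (hρg : ∀ x : ↥E1, (x : LaurentSeries K) ∈ gaussRing O → ρ x ∈ gaussRing O)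
    (hρπ : ρ (algebraMap K ↥E1 ((π : ↥O) : K)) = algebraMap K (LaurentSeries K) ((π : ↥O) : K))
    (z : ↥(R1 (O := O) E1)) (hz : red1 E1 z = 0) : chi E1 ρ hρg z = 0 := by
  rw [red1_apply] at hz
  obtain ⟨g, hg⟩ := (gaussRed_eq_zero_iff hu _).mp hz
  have hg' : ((z : ↥E1) : LaurentSeries K) = piK π * (g : LaurentSeries K) :=
    congrArg Subtype.val hg
  have hπE : piK π ∈ E1 := by
    rw [piK, ← algebraMap_eq_C]
    exact E1.algebraMap_mem _
  have hgE : (g : LaurentSeries K) ∈ E1 := by
    have : (g : LaurentSeries K) = (piK π)⁻¹ * ((z : ↥E1) : LaurentSeries K) := by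
      rw [hg', ← mul_assoc, inv_mul_cancel₀ (piK_ne_zero hu), one_mul]
    rw [this]
    exact mul_mem (inv_mem hπE) (z : ↥E1).2
  let πR : ↥(R1 (O := O) E1) := ⟨⟨piK π, hπE⟩, piK_mem π⟩
  let gR : ↥(R1 (O := O) E1) := ⟨⟨(g : LaurentSeries K), hgE⟩, g.2⟩
  have hzeq : z = πR * gR := Subtype.ext (Subtype.ext hg')
  have hπ0 : chi E1 ρ hρg πR = 0 := by
    rw [chi_apply]
    have h1 : ((πR : ↥E1)) = algebraMap K ↥E1 ((π : ↥O) : K) := by
      apply Subtype.ext
      show piK π = algebraMap K (LaurentSeries K) ((π : ↥O) : K)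
      rw [algebraMap_eq_C]
    have h2 : (⟨ρ (πR : ↥E1), hρg _ πR.2⟩ : ↥(gaussRing O)) = constG O π := by
      apply Subtype.ext
      show ρ (πR : ↥E1) = HahnSeries.C ((π : ↥O) : K)
      rw [h1, hρπ, algebraMap_eq_C]
    rw [h2]
    exact gaussRed_unif hu
  rw [hzeq, map_mul, hπ0, zero_mul]

end Kernel



/-! ### agreement on `K(t)` -/

/-- two ring homs `E₁ → K((Q))` which agree on the constants and at `t` agree on `K(t)`. -/
theorem eq_on_adjoin_simple {t : LaurentSeries K} (htE : t ∈ E1)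
    (ρ ρ' : ↥E1 →+* LaurentSeries K)
    (hK : ∀ c : K, ρ (algebraMap K ↥E1 c) = ρ' (algebraMap K ↥E1 c))
    (ht : ρ ⟨t, htE⟩ = ρ' ⟨t, htE⟩) (x : ↥E1)
    (hx : (x : LaurentSeries K) ∈ K⟮t⟯) : ρ x = ρ' x := by
  let S : IntermediateField K ↥E1 :=
    { RingHom.eqLocusField ρ ρ' with
      algebraMap_mem' := fun c => hK c }
  have hS : ∀ y : ↥E1, y ∈ S ↔ ρ y = ρ' y := fun _ => Iff.rfl
  have hle : K⟮t⟯ ≤ S.map E1.val := by
    rw [adjoin_simple_le_iff]
    exact ⟨⟨t, htE⟩, (hS _).mpr ht, rfl⟩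
  obtain ⟨x', hx'S, hx'⟩ := hle hx
  have : x' = x := Subtype.ext hx'
  rw [← this]
  exact (hS x').mp hx'S

section Main

variable [IsDiscreteValuationRing ↥O] {π : ↥O}

/-- **(LI), family form**: a `κ(t̃)`-independent family in the residue field of `E₁` has at most
`n` members when `[E₁ : K(t)] ≤ n`. -/
theorem resField_family_bound (hπ : Irreducible π) (tG : ↥(gaussRing O))
    (htr : Transcendental (Res O) (gaussRed O tG)) (n : ℕ) (hdeg : DegLe O E1 tG n)
    (m : ℕ) (c : Fin m → LaurentSeries (Res O)) (hc : ∀ i, c i ∈ resField O E1)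
    (hli : LinearIndependent ↥(kt O tG) c) : m ≤ n := by
  have hres : ∀ i, ∃ x : ↥(gaussRing O), (x : LaurentSeries K) ∈ E1 ∧ gaussRed O x = c i := by
    intro i
    obtain ⟨f, hf, hfE, hfy⟩ := hc i
    exact ⟨⟨f, hf⟩, hfE, hfy⟩
  choose x hxE hx using hres
  have hliK := GaussDeg25.linearIndependent_of_gaussRed hπ htr x
    (by
      have : (fun i => gaussRed O (x i)) = c := funext hx
      rw [this]; exact hli)
  exact hdeg m _ hxE hliK

/-- **The residue field is generated by `F'`** (abstract (GB2)).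

`O ⊂ K` a DVR, `t` Gauss-integral with transcendental residue, `E₁ ∋ t` a subfield of `K((q))` with
`[E₁ : K(t)] ≤ n` (family form `DegLe`), `F'` a subfield of the residue field of `E₁` containing
`t̃`.  Suppose there are (at least) `n` ring homs `ρ i : E₁ → K((Q))` which preserve Gauss-integrality,
fix `π`, agree on `K(t)`, and whose reductions are pairwise distinct on the elements of `E₁` with
residue in `F'`.  Then `F'` is the whole residue field of `E₁`. -/
theorem resField_le_of_conjugates (hπ : Irreducible π) (tG : ↥(gaussRing O))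
    (htr : Transcendental (Res O) (gaussRed O tG))
    (htE : (tG : LaurentSeries K) ∈ E1) (n : ℕ) (hdeg : DegLe O E1 tG n)
    (F' : IntermediateField (Res O) (LaurentSeries (Res O)))
    (htF' : gaussRed O tG ∈ F') (hF'1 : F' ≤ resField O E1)
    {ι : Type*} [Fintype ι] (hcard : n ≤ Fintype.card ι)
    (ρ : ι → ↥E1 →+* LaurentSeries K)
    (hρg : ∀ i (x : ↥E1), (x : LaurentSeries K) ∈ gaussRing O → ρ i x ∈ gaussRing O)
    (hρπ : ∀ i, ρ i (algebraMap K ↥E1 ((π : ↥O) : K)) =
      algebraMap K (LaurentSeries K) ((π : ↥O) : K))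
    (hρ0 : ∀ i j (x : ↥E1), (x : LaurentSeries K) ∈ Kt O tG → ρ i x = ρ j x)
    (hdist : ∀ i j, i ≠ j → ∃ (x : ↥E1) (hx : (x : LaurentSeries K) ∈ gaussRing O),
      gaussRed O ⟨(x : LaurentSeries K), hx⟩ ∈ F' ∧
        gaussRed O ⟨ρ i x, hρg i x hx⟩ ≠ gaussRed O ⟨ρ j x, hρg j x hx⟩) :
    resField O E1 ≤ F' := by
  classical
  have hu := isUnif_of_irreducible O hπ
  have hKtE : Kt O tG ≤ E1 := adjoin_simple_le_iff.mpr htE
  have hle : kt O tG ≤ F' := adjoin_simple_le_iff.mpr htF'
  -- bounds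
  have hub := resField_family_bound E1 hπ tG htr n hdeg
  have hubF : ∀ (m : ℕ) (c : Fin m → LaurentSeries (Res O)), (∀ i, c i ∈ F') →
      LinearIndependent ↥(kt O tG) c → m ≤ n := fun m c hc hli =>
    hub m c (fun i => hF'1 (hc i)) hli
  have hr0 : relfinrank (kt O tG) F' ≠ 0 :=
    Fermat.Agent.DS.G.ES.RED.LinDisjoint.relfinrank_ne_zero_of_family_bound hle n hubF
  have hex := FamilyForm20.exists_basis_family hle
  have hle_r : ∀ (m : ℕ) (c : Fin m → LaurentSeries (Res O)), (∀ i, c i ∈ F') →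
      LinearIndependent ↥(kt O tG) c → m ≤ relfinrank (kt O tG) F' := fun m c hc hli =>
    FamilyForm20.le_relfinrank_of_family hle m hr0 c hc hli
  generalize relfinrank (kt O tG) F' = r at hex hle_r
  obtain ⟨c, hc, hli⟩ := hex
  -- the span of `c` lies in `F'`
  have hspanF : ∀ z ∈ Submodule.span ↥(kt O tG) (Set.range c), z ∈ F' := by
    intro z hz
    induction hz using Submodule.span_induction with
    | mem z hz =>
      obtain ⟨i, rfl⟩ := hz
      exact hc i
    | zero => exact zero_mem _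
    | add z w _ _ hz hw => exact add_mem hz hw
    | smul a z _ hz =>
      rw [Algebra.smul_def]
      exact mul_mem (hle a.2) hz
  -- `c` spans `F'`
  have hspan : ∀ z ∈ F', ∃ a : Fin r → ↥(kt O tG), z = ∑ k, (a k : LaurentSeries (Res O)) * c k := by
    intro z hz
    have hzs : z ∈ Submodule.span ↥(kt O tG) (Set.range c) := by
      by_contra hns
      have hli' : LinearIndependent ↥(kt O tG) (Fin.cons z c : Fin (r + 1) → _) := by
        rw [linearIndependent_finCons]
        exact ⟨hli, hns⟩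
      have hmem : ∀ i, (Fin.cons z c : Fin (r + 1) → LaurentSeries (Res O)) i ∈ F' := by
        intro i
        refine Fin.cases ?_ (fun j => ?_) i
        · simpa using hz
        · simpa using hc j
      have := hle_r (r + 1) _ hmem hli'
      omega
    obtain ⟨a, ha⟩ := (Submodule.mem_span_range_iff_exists_fun _).mp hzs
    refine ⟨a, ?_⟩
    rw [← ha]
    refine Finset.sum_congr rfl fun k _ => ?_
    rw [Algebra.smul_def]
    rfl
  -- the number of conjugates is at most `r`
  have hcard_le : Fintype.card ι ≤ r := by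
    rcases isEmpty_or_nonempty ι with hemp | ⟨⟨i0⟩⟩
    · rw [Fintype.card_eq_zero]
      exact Nat.zero_le _
    -- lifts of the basis
    have hlift : ∀ k, ∃ y : ↥(R1 (O := O) E1), red1 E1 y = c k := by
      intro k
      obtain ⟨f, hf, hfE, hfy⟩ := hF'1 (hc k)
      exact ⟨⟨⟨f, hfE⟩, hf⟩, hfy⟩
    choose y hy using hlift
    have hyF : ∀ k, y k ∈ R1F E1 F' := fun k => by
      rw [mem_R1F, hy k]
      exact hc k
    let yG : Fin r → ↥(R1F E1 F') := fun k => ⟨y k, hyF k⟩
    let χ : ι → ↥(R1F E1 F') →* LaurentSeries (Res O) := fun i =>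
      ((chi E1 (ρ i) (hρg i)).comp (R1F E1 F').subtype : ↥(R1F E1 F') →+* LaurentSeries (Res O))
    have hχ : ∀ i (x : ↥(R1F E1 F')), χ i x = chi E1 (ρ i) (hρg i) (x : ↥(R1 (O := O) E1)) :=
      fun _ _ => rfl
    have hinj : Function.Injective χ := by
      intro i j hij
      by_contra hne
      obtain ⟨x, hx, hxF, hxne⟩ := hdist i j hne
      let xG : ↥(R1F E1 F') := ⟨⟨x, hx⟩, hxF⟩
      have := congrArg (fun f : ↥(R1F E1 F') →* LaurentSeries (Res O) => f xG) hij
      exact hxne this
    refine card_le_of_characters χ hinj r yG ?_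
    intro x
    -- expand the residue of `x` in the basis
    obtain ⟨a, ha⟩ := hspan (red1 E1 (x : ↥(R1 (O := O) E1))) x.2
    have hlifta : ∀ k, ∃ c' : ↥(R1 (O := O) E1), ((c' : ↥E1) : LaurentSeries K) ∈ Kt O tG ∧
        red1 E1 c' = (a k : LaurentSeries (Res O)) := by
      intro k
      obtain ⟨c0, hc0, hg, hred⟩ := exists_gaussRed_eq htr (a k).2
      exact ⟨⟨⟨c0, hKtE hc0⟩, hg⟩, hc0, hred⟩
    choose c' hc'Kt hc' using hlifta
    refine ⟨fun k => chi E1 (ρ i0) (hρg i0) (c' k), fun i => ?_⟩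
    -- the difference has zero residue
    let z : ↥(R1 (O := O) E1) := (x : ↥(R1 (O := O) E1)) - ∑ k, c' k * y k
    have hz : red1 E1 z = 0 := by
      show red1 E1 ((x : ↥(R1 (O := O) E1)) - ∑ k, c' k * y k) = 0
      rw [map_sub, map_sum, ha, sub_eq_zero]
      refine Finset.sum_congr rfl fun k _ => ?_
      rw [map_mul, hc', hy]
    have hz0 := chi_eq_zero_of_red1_eq_zero E1 hu (ρ i) (hρg i) (hρπ i) z hz
    have hz1 : chi E1 (ρ i) (hρg i) (x : ↥(R1 (O := O) E1)) =
        ∑ k, chi E1 (ρ i) (hρg i) (c' k) * chi E1 (ρ i) (hρg i) (y k) := by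
      have : chi E1 (ρ i) (hρg i) ((x : ↥(R1 (O := O) E1)) - ∑ k, c' k * y k) = 0 := hz0
      rw [map_sub, map_sum, sub_eq_zero] at this
      rw [this]
      refine Finset.sum_congr rfl fun k _ => ?_
      rw [map_mul]
    rw [hχ, hz1]
    refine Finset.sum_congr rfl fun k _ => ?_
    have hck : chi E1 (ρ i) (hρg i) (c' k) = chi E1 (ρ i0) (hρg i0) (c' k) := by
      rw [chi_apply, chi_apply]
      congr 1
      exact Subtype.ext (hρ0 i i0 _ (hc'Kt k))
    rw [hck]
    rfl
  -- conclusion
  intro w hw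
  by_contra hwF
  have hli' : LinearIndependent ↥(kt O tG) (Fin.cons w c : Fin (r + 1) → _) := by
    rw [linearIndependent_finCons]
    exact ⟨hli, fun h => hwF (hspanF w h)⟩
  have hmem : ∀ i, (Fin.cons w c : Fin (r + 1) → LaurentSeries (Res O)) i ∈ resField O E1 := by
    intro i
    refine Fin.cases ?_ (fun j => ?_) i
    · simpa using hw
    · simpa using hF'1 (hc j)
  have := hub (r + 1) _ hmem hli'
  omega

/-- `resField_le_of_conjugates` with `ρ i` the identity on the constants and agreeing at `t`. -/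
theorem resField_le_of_conjugates' (hπ : Irreducible π) (tG : ↥(gaussRing O))
    (htr : Transcendental (Res O) (gaussRed O tG))
    (htE : (tG : LaurentSeries K) ∈ E1) (n : ℕ) (hdeg : DegLe O E1 tG n)
    (F' : IntermediateField (Res O) (LaurentSeries (Res O)))
    (htF' : gaussRed O tG ∈ F') (hF'1 : F' ≤ resField O E1)
    {ι : Type*} [Fintype ι] (hcard : n ≤ Fintype.card ι)
    (ρ : ι → ↥E1 →+* LaurentSeries K)
    (hρg : ∀ i (x : ↥E1), (x : LaurentSeries K) ∈ gaussRing O → ρ i x ∈ gaussRing O)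
    (hρK : ∀ i (c : K), ρ i (algebraMap K ↥E1 c) = algebraMap K (LaurentSeries K) c)
    (hρt : ∀ i j, ρ i ⟨(tG : LaurentSeries K), htE⟩ = ρ j ⟨(tG : LaurentSeries K), htE⟩)
    (hdist : ∀ i j, i ≠ j → ∃ (x : ↥E1) (hx : (x : LaurentSeries K) ∈ gaussRing O),
      gaussRed O ⟨(x : LaurentSeries K), hx⟩ ∈ F' ∧
        gaussRed O ⟨ρ i x, hρg i x hx⟩ ≠ gaussRed O ⟨ρ j x, hρg j x hx⟩) :
    resField O E1 = F' :=
  le_antisymm
    (resField_le_of_conjugates E1 hπ tG htr htE n hdeg F' htF' hF'1 hcard ρ hρg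
      (fun i => hρK i _)
      (fun i j x hx => eq_on_adjoin_simple E1 htE (ρ i) (ρ j)
        (fun c => by rw [hρK i c, hρK j c]) (hρt i j) x hx)
      hdist)
    hF'1

end Main

end Fermat.Agent.DS.G.RED.Igusa.ResGen31
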