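/-
Programme DS (S48), chapter G-RED / IGUSA, brick IGU-GB2 (helper31), part 2: (GB2) FROM AN `IgusaInput`.

`I : IgusaInput K O M` (helper77's interface `DS/Igu77/Input.lean`: the level-`M` field `L ⊂ K((Q))`,
`Q = q^{1/M}`, Galois over `k ≅ K(j(Q^M))`), `E₁ ⊂ K((q))` with `V(E₁) ⊆ ι(L)`, `V = (q ↦ Q^M)`.

* `lift I E₁ hE1L : ↥E₁ →+* I.L` : the embedding `ι⁻¹ ∘ V`;
* `conj I E₁ hE1L g : ↥E₁ →+* K((Q))`, `g ∈ Gal(L/k)` : the conjugate embedding `ι ∘ g ∘ ι⁻¹ ∘ V`
  (for the concrete `L` of chapter IGU-D: the cusp expansion at `γ`, `g = s γ`);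
  it preserves Gauss-integrality (`conj_mem_gaussRing`, the Igusa theorem `IgusaInput.conj_mem_iff`),
  is the identity on constants (`conj_algebraMap`) and is `V` on `K(j)` (`conj_of_mem_base`);
* `resField_eq_of_igusaInput` : **(GB2)** `resField O E₁ = F'` as soon as there are
  `n ≥ [E₁ : K(j)]` elements of `Gal(L/k)` whose conjugate embeddings have pairwise distinct
  reductions on the elements of `E₁` with residue in `F'`;
* `resField_FC_eq_of_igusaInput` : the same for a generator datum `D : GenData`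
  (`E₁ = D.FC K`, `F' = D.FC κ`), with distinctness tested on the generators only: this is
  `GaussUnit25.GB2Step` at one number field `K`;
* `exists_lift_of_gens` : `V(E₁) ⊆ ι(L)` may be tested on generators of `E₁`.
-/
import Mathlib
import Fermat.Agent.DS.G.RED.Igusa.ResGen31
import Fermat.Agent.DS.Igu77.Final
import Fermat.Agent.DS.G.ES.RED.GaussUnit25

set_option autoImplicit false
set_option linter.unusedSectionVars false

noncomputable section

namespace Fermat.Agent.DS.G.RED.Igusa.ResGenInput31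

open HahnSeries ModularCurve IntermediateField
open Fermat.Agent.RED.PUR.GaussGen8 Fermat.Agent.RED.PUR.KtGauss8
  Fermat.Agent.RED.PUR.G1Package8 Fermat.Agent.RED.PUR.GaussBridge10
  Fermat.Agent.RED.PUR.GaussInst25 Fermat.Agent.DS.Igu77.Input Fermat.Agent.DS.Igu77.Isometry
  Fermat.Agent.DS.G.RED.Igusa.ResGen31

section Lift

variable {K : Type} [Field K] {O : ValuationSubring K} {M : ℕ} [NeZero M]
  (I : IgusaInput K O M) (E1 : IntermediateField K (LaurentSeries K))
  (hE1L : ∀ y ∈ E1, ∃ b : I.L, I.ι b = qExpand K M y)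

/-- the embedding `ι⁻¹ ∘ V : E₁ → L`. -/
def lift : ↥E1 →+* I.L where
  toFun y := Classical.choose (hE1L y y.2)
  map_one' := I.ι_injective (by
    rw [Classical.choose_spec (hE1L (1 : ↥E1) (1 : ↥E1).2), map_one]
    exact map_one (qExpand K M))
  map_mul' a b := I.ι_injective (by
    have ha := Classical.choose_spec (hE1L a a.2)
    have hb := Classical.choose_spec (hE1L b b.2)
    have hab := Classical.choose_spec (hE1L (a * b) (a * b).2)
    rw [hab, map_mul I.ι, ha, hb]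
    exact map_mul (qExpand K M) _ _)
  map_zero' := I.ι_injective (by
    rw [Classical.choose_spec (hE1L (0 : ↥E1) (0 : ↥E1).2), map_zero]
    exact map_zero (qExpand K M))
  map_add' a b := I.ι_injective (by
    have ha := Classical.choose_spec (hE1L a a.2)
    have hb := Classical.choose_spec (hE1L b b.2)
    have hab := Classical.choose_spec (hE1L (a + b) (a + b).2)
    rw [hab, map_add I.ι, ha, hb]
    exact map_add (qExpand K M) _ _)

theorem ι_lift (y : ↥E1) : I.ι (lift I E1 hE1L y) = qExpand K M (y : LaurentSeries K) :=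
  Classical.choose_spec (hE1L y y.2)

theorem lift_eq {y : ↥E1} {b : I.L} (hb : I.ι b = qExpand K M (y : LaurentSeries K)) :
    lift I E1 hE1L y = b :=
  I.ι_injective ((ι_lift I E1 hE1L y).trans hb.symm)

/-- the conjugate embedding `ι ∘ g ∘ ι⁻¹ ∘ V : E₁ → K((Q))`. -/
def conj (g : I.L ≃ₐ[I.k] I.L) : ↥E1 →+* LaurentSeries K :=
  I.ι.comp (((g : I.L ≃+* I.L) : I.L →+* I.L).comp (lift I E1 hE1L))

theorem conj_apply (g : I.L ≃ₐ[I.k] I.L) (y : ↥E1) :
    conj I E1 hE1L g y = I.ι (g (lift I E1 hE1L y)) := rfl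

theorem conj_eq (g : I.L ≃ₐ[I.k] I.L) {y : ↥E1} {b : I.L}
    (hb : I.ι b = qExpand K M (y : LaurentSeries K)) :
    conj I E1 hE1L g y = I.ι (g b) := by
  rw [conj_apply, lift_eq I E1 hE1L hb]

/-- on elements with `V y ∈ K(j(Q^M))` every conjugate embedding is `V`. -/
theorem conj_of_mem_base (g : I.L ≃ₐ[I.k] I.L) (y : ↥E1)
    (hy : qExpand K M (y : LaurentSeries K) ∈ K⟮qExpand K M (jqModC K)⟯) :
    conj I E1 hE1L g y = qExpand K M (y : LaurentSeries K) := by
  obtain ⟨c, hc⟩ := I.base_surj _ hy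
  rw [conj_eq I E1 hE1L g hc, g.commutes, hc]

theorem qExpand_algebraMap (c : K) :
    qExpand K M (algebraMap K (LaurentSeries K) c) = algebraMap K (LaurentSeries K) c :=
  (qExpandAlgHomC K M).commutes c

/-- the conjugate embeddings are the identity on constants. -/
theorem conj_algebraMap (g : I.L ≃ₐ[I.k] I.L) (c : K) :
    conj I E1 hE1L g (algebraMap K ↥E1 c) = algebraMap K (LaurentSeries K) c := by
  have h1 : ((algebraMap K ↥E1 c : ↥E1) : LaurentSeries K) = algebraMap K (LaurentSeries K) c := rfl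
  rw [conj_of_mem_base I E1 hE1L g _ (by
    rw [h1, qExpand_algebraMap]
    exact IntermediateField.algebraMap_mem _ c), h1, qExpand_algebraMap]

/-- the conjugate embeddings agree at `j`. -/
theorem conj_j (hj1 : jqModC K ∈ E1) (g : I.L ≃ₐ[I.k] I.L) :
    conj I E1 hE1L g ⟨jqModC K, hj1⟩ = qExpand K M (jqModC K) :=
  conj_of_mem_base I E1 hE1L g _ (IntermediateField.subset_adjoin K _ (Set.mem_singleton _))

/-- `V(E₁) ⊆ ι(L)` may be tested on generators. -/
theorem exists_lift_of_gens (T : Set (LaurentSeries K))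
    (hT : ∀ t ∈ T, ∃ b : I.L, I.ι b = qExpand K M t) :
    ∀ y ∈ IntermediateField.adjoin K T, ∃ b : I.L, I.ι b = qExpand K M y := by
  let S : IntermediateField K (LaurentSeries K) :=
    { carrier := {y | ∃ b : I.L, I.ι b = qExpand K M y}
      mul_mem' := by
        rintro a b ⟨x, hx⟩ ⟨x', hx'⟩
        exact ⟨x * x', by rw [map_mul, hx, hx']; exact (map_mul (qExpand K M) _ _).symm⟩
      one_mem' := ⟨1, by rw [map_one]; exact (map_one (qExpand K M)).symm⟩
      add_mem' := by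
        rintro a b ⟨x, hx⟩ ⟨x', hx'⟩
        exact ⟨x + x', by rw [map_add, hx, hx']; exact (map_add (qExpand K M) _ _).symm⟩
      zero_mem' := ⟨0, by rw [map_zero]; exact (map_zero (qExpand K M)).symm⟩
      algebraMap_mem' := fun c => by
        obtain ⟨c', hc'⟩ := I.base_surj (algebraMap K (LaurentSeries K) c)
          (IntermediateField.algebraMap_mem _ c)
        exact ⟨algebraMap I.k I.L c', by rw [hc', qExpand_algebraMap]⟩
      inv_mem' := by
        rintro a ⟨x, hx⟩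
        exact ⟨x⁻¹, by rw [map_inv₀, hx]; exact (map_inv₀ (qExpand K M) _).symm⟩ }
  have hle : IntermediateField.adjoin K T ≤ S := by
    rw [IntermediateField.adjoin_le_iff]
    exact fun t ht => hT t ht
  exact fun y hy => hle hy

end Lift

section GB2

variable {K : Type} [Field K] [CharZero K] (O : ValuationSubring K) [IsDiscreteValuationRing ↥O]
  {π : ↥O} (hπ : Irreducible π) (ℓ : ℕ) [Fact ℓ.Prime] [CharP (Res O) ℓ]
  (M : ℕ) [NeZero M] (hℓM : ¬ ℓ ∣ M)

include hπ hℓM in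
/-- **the conjugate embeddings preserve Gauss-integrality** (Igusa: the decomposition group of the
Gauss valuation is everything). -/
theorem conj_mem_gaussRing (I : IgusaInput K O M) (E1 : IntermediateField K (LaurentSeries K))
    (hE1L : ∀ y ∈ E1, ∃ b : I.L, I.ι b = qExpand K M y) (g : I.L ≃ₐ[I.k] I.L)
    (x : ↥E1) (hx : (x : LaurentSeries K) ∈ gaussRing O) :
    conj I E1 hE1L g x ∈ gaussRing O := by
  have hu := isUnif_of_irreducible O hπ
  rw [conj_apply, I.conj_mem_iff hu (fullC_le_fracField O M)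
    (Fermat.Agent.DS.Igu77.X0Inst.x0Uniq O hπ ℓ M hℓM) g, ι_lift]
  exact qExpand_mem_gaussRing O M hx

omit [CharZero K] [IsDiscreteValuationRing ↥O] in
theorem gaussRed_congr {u v : LaurentSeries K} (hu : u ∈ gaussRing O) (hv : v ∈ gaussRing O)
    (e : u = v) : gaussRed O ⟨u, hu⟩ = gaussRed O ⟨v, hv⟩ := by
  subst e
  rfl

include hπ hℓM in
/-- **(GB2) from an `IgusaInput`.**  `E₁ ∋ j` with `V(E₁) ⊆ ι(L)` and `[E₁ : K(j)] ≤ n`, `F' ∋ j̃` a
subfield of the residue field of `E₁`.  If `n` elements `g i` of `Gal(L/k)` are pairwise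
distinguished modulo `π` by elements of `E₁` with residue in `F'`, then `resField O E₁ = F'`. -/
theorem resField_eq_of_igusaInput (I : IgusaInput K O M)
    (E1 : IntermediateField K (LaurentSeries K)) (hj1 : jqModC K ∈ E1)
    (hE1L : ∀ y ∈ E1, ∃ b : I.L, I.ι b = qExpand K M y)
    (n : ℕ) (hdeg : DegLe O E1 (jG O) n)
    (F' : IntermediateField (Res O) (LaurentSeries (Res O)))
    (hjF' : jqModC (Res O) ∈ F') (hF'1 : F' ≤ resField O E1)
    {ι' : Type*} [Fintype ι'] (hcard : n ≤ Fintype.card ι') (g : ι' → I.L ≃ₐ[I.k] I.L)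
    (hdist : ∀ i j, i ≠ j → ∃ (x : LaurentSeries K) (_ : x ∈ E1) (hx : x ∈ gaussRing O) (b : I.L),
      I.ι b = qExpand K M x ∧ gaussRed O ⟨x, hx⟩ ∈ F' ∧
      ∀ (h1 : I.ι (g i b) ∈ gaussRing O) (h2 : I.ι (g j b) ∈ gaussRing O),
        gaussRed O ⟨I.ι (g i b), h1⟩ ≠ gaussRed O ⟨I.ι (g j b), h2⟩) :
    resField O E1 = F' := by
  have hρg : ∀ (i : ι') (x : ↥E1), (x : LaurentSeries K) ∈ gaussRing O →
      conj I E1 hE1L (g i) x ∈ gaussRing O :=
    fun i x hx => conj_mem_gaussRing O hπ ℓ M hℓM I E1 hE1L (g i) x hx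
  refine resField_le_of_conjugates' E1 hπ (jG O)
    (Fermat.Agent.DS.Igu77.X0Inst.transcendental_gaussRed_jG O) hj1 n hdeg F'
    (by rw [gaussRed_jG]; exact hjF') hF'1 hcard (fun i => conj I E1 hE1L (g i)) hρg
    (fun i c => conj_algebraMap I E1 hE1L (g i) c)
    (fun i j => by
      show conj I E1 hE1L (g i) ⟨jqModC K, hj1⟩ = conj I E1 hE1L (g j) ⟨jqModC K, hj1⟩
      rw [conj_j, conj_j]) ?_
  intro i j hij
  obtain ⟨x, hxE, hx, b, hb, hxF, hne⟩ := hdist i j hij
  refine ⟨⟨x, hxE⟩, hx, hxF, ?_⟩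
  have e1 : conj I E1 hE1L (g i) ⟨x, hxE⟩ = I.ι (g i b) := conj_eq I E1 hE1L (g i) hb
  have e2 : conj I E1 hE1L (g j) ⟨x, hxE⟩ = I.ι (g j b) := conj_eq I E1 hE1L (g j) hb
  have h1 : I.ι (g i b) ∈ gaussRing O := e1 ▸ hρg i ⟨x, hxE⟩ hx
  have h2 : I.ι (g j b) ∈ gaussRing O := e2 ▸ hρg j ⟨x, hxE⟩ hx
  rw [gaussRed_congr O (hρg i ⟨x, hxE⟩ hx) h1 e1, gaussRed_congr O (hρg j ⟨x, hxE⟩ hx) h2 e2]
  exact hne h1 h2

include hπ hℓM in
/-- the same with `n = [E₁ : K(j)]`, the degree bound being supplied by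
`Igu77.Final.g1_of_igusaInput`. -/
theorem resField_eq_of_igusaInput' (I : IgusaInput K O M)
    (E1 : IntermediateField K (LaurentSeries K)) (hE1 : E1 ≤ fracField O) (hj1 : jqModC K ∈ E1)
    (hE1L : ∀ y ∈ E1, ∃ b : I.L, I.ι b = qExpand K M y)
    (F' : IntermediateField (Res O) (LaurentSeries (Res O)))
    (hjF' : jqModC (Res O) ∈ F') (hF'1 : F' ≤ resField O E1)
    {ι' : Type*} [Fintype ι'] (hcard : relfinrank (Kt O (jG O)) E1 ≤ Fintype.card ι')
    (g : ι' → I.L ≃ₐ[I.k] I.L)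
    (hdist : ∀ i j, i ≠ j → ∃ (x : LaurentSeries K) (_ : x ∈ E1) (hx : x ∈ gaussRing O) (b : I.L),
      I.ι b = qExpand K M x ∧ gaussRed O ⟨x, hx⟩ ∈ F' ∧
      ∀ (h1 : I.ι (g i b) ∈ gaussRing O) (h2 : I.ι (g j b) ∈ gaussRing O),
        gaussRed O ⟨I.ι (g i b), h1⟩ ≠ gaussRed O ⟨I.ι (g j b), h2⟩) :
    resField O E1 = F' := by
  obtain ⟨-, hdeg, -⟩ := Fermat.Agent.DS.Igu77.Final.g1_of_igusaInput O hπ ℓ M hℓM I E1 hE1 hE1L
    (jG O) hj1 (Fermat.Agent.DS.Igu77.X0Inst.jq_mem_Kt_jG O)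
    (Fermat.Agent.DS.Igu77.X0Inst.transcendental_gaussRed_jG O)
  exact resField_eq_of_igusaInput O hπ ℓ M hℓM I E1 hj1 hE1L _ hdeg F' hjF' hF'1 hcard g hdist

open Fermat.Agent.DS.G.ES.RED.Iface Fermat.Agent.DS.G.ES.RED.GaussUnit25 in
include hπ hℓM in
/-- **(GB2) for a generator datum**: `resField O (D.FC K) = D.FC κ` as soon as the generators lie in
the level-`M` field and `[D.FC K : K(j)]` elements of `Gal(L/k)` are pairwise distinguished modulo
`π` by the generators. -/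
theorem resField_FC_eq_of_igusaInput (D : GenData) (I : IgusaInput K O M)
    (hD : ∀ gen ∈ D.gens, ∃ b : I.L, I.ι b = qExpand K M (coeffMap (Int.castRingHom K) gen))
    {ι' : Type*} [Fintype ι'] (hcard : relfinrank (Kt O (jG O)) (D.FC K) ≤ Fintype.card ι')
    (g : ι' → I.L ≃ₐ[I.k] I.L)
    (hdist : ∀ i j, i ≠ j → ∃ gen ∈ D.gens, ∃ b : I.L,
      I.ι b = qExpand K M (coeffMap (Int.castRingHom K) gen) ∧
      ∀ (h1 : I.ι (g i b) ∈ gaussRing O) (h2 : I.ι (g j b) ∈ gaussRing O),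
        gaussRed O ⟨I.ι (g i b), h1⟩ ≠ gaussRed O ⟨I.ι (g j b), h2⟩) :
    resField O (D.FC K) = D.FC (Res O) := by
  have hE1L : ∀ y ∈ D.FC K, ∃ b : I.L, I.ι b = qExpand K M y := by
    refine exists_lift_of_gens I (D.gensC K) ?_
    rintro _ ⟨gen, hgen, rfl⟩
    exact hD gen hgen
  refine resField_eq_of_igusaInput' O hπ ℓ M hℓM I (D.FC K) (FC_le_fracField D O)
    D.jqModC_mem_FC hE1L (D.FC (Res O)) D.jqModC_mem_FC (FC_le_resField D O) hcard g ?_
  intro i j hij
  obtain ⟨gen, hgen, b, hb, hne⟩ := hdist i j hij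
  refine ⟨coeffMap (Int.castRingHom K) gen, D.gen_mem_FC hgen, gen_mem_gaussRing O gen, b, hb,
    ?_, hne⟩
  rw [gaussRed_gen]
  exact D.gen_mem_FC hgen

end GB2

end Fermat.Agent.DS.G.RED.Igusa.ResGenInput31
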