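/-
Programme DS (S48), chapter G-RED / IGUSA, brick IGU-GB2 (helper31), part 3: THE (GB2) CRITERION OVER A
GENERAL BASE (tower form).

`E₀ ≤ E₁ ≤ Frac O((q))` with `E₁ / E₀` finite, `F'` a field with
`resField O E₀ ≤ F' ≤ resField O E₁`.  If there are `[E₁ : E₀]` ring homs `ρ i : E₁ → K((Q))`
preserving Gauss-integrality, fixing `π`, agreeing on `E₀`, with pairwise distinct reductions on the
elements of `E₁` with residue in `F'`, then `resField O E₁ = F'` (`resField_eq_of_conjugates_base`).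

Use: `E₀ = K(j(q^d) : d ∣ M)` (where (GB2) is the `X₀(M)` theorem `ES/RED/GaussUnit25.resField_fullC_eq`),
`E₁ = K·F₁(M)`; the `ρ i` are then the DIAMOND conjugates, whose expansions are again expansions at
the cusp `∞` (`resField_FC_eq_of_diamonds`): only the `φ(M)/2` diamond operators have to be
distinguished modulo `π`, by the explicit integral `q`-expansions of the generators.

* `resField_eq_of_igusaInput_base` : the `IgusaInput` form (`ρ i = conj I E₁ hE1L (g i)`, the `g i`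
  fixing the part of `L` over `V(E₀)`);
* `fix_of_gens` : "`g` fixes the part of `L` over `V(E₀)`" may be tested on generators of `E₀`;
* `resField_FC_eq_of_diamonds` : generator-datum form over `E₀ = K(j(q^d) : d ∣ M)`.
-/
import Mathlib
import Fermat.Agent.DS.G.RED.Igusa.ResGen31
import Fermat.Agent.DS.G.RED.Igusa.ResGenInput31
import Fermat.Agent.DS.G.RED.Igusa.Abs51Tower
import Fermat.Agent.ES.RED.GaussUnit25

set_option autoImplicit false
set_option linter.unusedSectionVars false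

noncomputable section

namespace Fermat.Agent.DS.G.RED.Igusa.ResGenTower31

open HahnSeries ModularCurve IntermediateField
open Fermat.Agent.RED.PUR.GaussGen8 Fermat.Agent.RED.PUR.KtGauss8
  Fermat.Agent.RED.PUR.G1Package8 Fermat.Agent.RED.PUR.GaussBridge10
  Fermat.Agent.RED.PUR Fermat.Agent.IG.PR
  Fermat.Agent.DS.G.RED.Igusa.ResGen31

section Base

variable {K : Type*} [Field K] {O : ValuationSubring K} [IsDiscreteValuationRing ↥O] {π : ↥O}

/-- **(GB2) over a general base.** -/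
theorem resField_le_of_conjugates_base (hπ : Irreducible π)
    (E0 E1 : IntermediateField K (LaurentSeries K)) (h01 : E0 ≤ E1) (hE0 : E0 ≤ fracField O)
    (hfin : relfinrank E0 E1 ≠ 0)
    (F' : IntermediateField (Res O) (LaurentSeries (Res O)))
    (h0F' : resField O E0 ≤ F') (hF'1 : F' ≤ resField O E1)
    {ι : Type*} [Fintype ι] (hcard : relfinrank E0 E1 ≤ Fintype.card ι)
    (ρ : ι → ↥E1 →+* LaurentSeries K)
    (hρg : ∀ i (x : ↥E1), (x : LaurentSeries K) ∈ gaussRing O → ρ i x ∈ gaussRing O)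
    (hρπ : ∀ i, ρ i (algebraMap K ↥E1 ((π : ↥O) : K)) =
      algebraMap K (LaurentSeries K) ((π : ↥O) : K))
    (hρ0 : ∀ i j (x : ↥E1), (x : LaurentSeries K) ∈ E0 → ρ i x = ρ j x)
    (hdist : ∀ i j, i ≠ j → ∃ (x : ↥E1) (hx : (x : LaurentSeries K) ∈ gaussRing O),
      gaussRed O ⟨(x : LaurentSeries K), hx⟩ ∈ F' ∧
        gaussRed O ⟨ρ i x, hρg i x hx⟩ ≠ gaussRed O ⟨ρ j x, hρg j x hx⟩) :
    resField O E1 ≤ F' := by
  classical
  have hu := isUnif_of_irreducible O hπ
  -- bounds
  have hub : ∀ (m : ℕ) (c : Fin m → LaurentSeries (Res O)), (∀ i, c i ∈ resField O E1) →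
      LinearIndependent ↥(resField O E0) c → m ≤ relfinrank E0 E1 := by
    intro m c hc hli
    choose f hf hfE hfy using hc
    have hli' : LinearIndependent ↥(resField O E0)
        (fun i => gaussRed O (⟨f i, hf i⟩ : ↥(gaussRing O))) := by
      have : (fun i => gaussRed O (⟨f i, hf i⟩ : ↥(gaussRing O))) = c := funext hfy
      rw [this]
      exact hli
    exact FamilyForm20.le_relfinrank_of_family h01 m hfin (fun i => f i) hfE
      (Abs51Tower.linearIndependent_of_gaussRed_resField hπ E0 hE0 (fun i => ⟨f i, hf i⟩) hli')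
  have hubF : ∀ (m : ℕ) (c : Fin m → LaurentSeries (Res O)), (∀ i, c i ∈ F') →
      LinearIndependent ↥(resField O E0) c → m ≤ relfinrank E0 E1 := fun m c hc hli =>
    hub m c (fun i => hF'1 (hc i)) hli
  have hr0 : relfinrank (resField O E0) F' ≠ 0 :=
    Abs51Tower.relfinrank_ne_zero_of_family_bound h0F' _ hubF
  have hex := FamilyForm20.exists_basis_family h0F'
  have hle_r : ∀ (m : ℕ) (c : Fin m → LaurentSeries (Res O)), (∀ i, c i ∈ F') →
      LinearIndependent ↥(resField O E0) c → m ≤ relfinrank (resField O E0) F' :=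
    fun m c hc hli => FamilyForm20.le_relfinrank_of_family h0F' m hr0 c hc hli
  generalize relfinrank (resField O E0) F' = r at hex hle_r
  obtain ⟨c, hc, hli⟩ := hex
  -- the span of `c` lies in `F'`
  have hspanF : ∀ z ∈ Submodule.span ↥(resField O E0) (Set.range c), z ∈ F' := by
    intro z hz
    induction hz using Submodule.span_induction with
    | mem z hz =>
      obtain ⟨i, rfl⟩ := hz
      exact hc i
    | zero => exact zero_mem _
    | add z w _ _ hz hw => exact add_mem hz hw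
    | smul a z _ hz =>
      rw [Algebra.smul_def]
      exact mul_mem (h0F' a.2) hz
  -- `c` spans `F'`
  have hspan : ∀ z ∈ F', ∃ a : Fin r → ↥(resField O E0),
      z = ∑ k, (a k : LaurentSeries (Res O)) * c k := by
    intro z hz
    have hzs : z ∈ Submodule.span ↥(resField O E0) (Set.range c) := by
      by_contra hns
      have hli' : LinearIndependent ↥(resField O E0) (Fin.cons z c : Fin (r + 1) → _) := by
        rw [linearIndependent_finCons]
        exact ⟨hli, hns⟩
      have hmem : ∀ i, (Fin.cons z c : Fin (r + 1) → LaurentSeries (Res O)) i ∈ F' := by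
        intro i
        refine Fin.cases ?_ (fun j => ?_) i
        · simpa using hz
        · simpa using hc j
      have := hle_r (r + 1) _ hmem hli'
      omega
    obtain ⟨a, ha⟩ := (Submodule.mem_span_range_iff_exists_fun _).mp hzs
    refine ⟨a, ?_⟩
    rw [← ha]
    refine Finset.sum_congr rfl fun k _ => ?_
    rw [Algebra.smul_def]
    rfl
  -- the number of conjugates is at most `r`
  have hcard_le : Fintype.card ι ≤ r := by
    rcases isEmpty_or_nonempty ι with hemp | ⟨⟨i0⟩⟩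
    · rw [Fintype.card_eq_zero]
      exact Nat.zero_le _
    have hlift : ∀ k, ∃ y : ↥(R1 (O := O) E1), red1 E1 y = c k := by
      intro k
      obtain ⟨f, hf, hfE, hfy⟩ := hF'1 (hc k)
      exact ⟨⟨⟨f, hfE⟩, hf⟩, hfy⟩
    choose y hy using hlift
    have hyF : ∀ k, y k ∈ R1F E1 F' := fun k => by
      rw [mem_R1F, hy k]
      exact hc k
    let yG : Fin r → ↥(R1F E1 F') := fun k => ⟨y k, hyF k⟩
    let χ : ι → ↥(R1F E1 F') →* LaurentSeries (Res O) := fun i =>
      ((chi E1 (ρ i) (hρg i)).comp (R1F E1 F').subtype : ↥(R1F E1 F') →+* LaurentSeries (Res O))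
    have hχ : ∀ i (x : ↥(R1F E1 F')), χ i x = chi E1 (ρ i) (hρg i) (x : ↥(R1 (O := O) E1)) :=
      fun _ _ => rfl
    have hinj : Function.Injective χ := by
      intro i j hij
      by_contra hne
      obtain ⟨x, hx, hxF, hxne⟩ := hdist i j hne
      let xG : ↥(R1F E1 F') := ⟨⟨x, hx⟩, hxF⟩
      have := congrArg (fun f : ↥(R1F E1 F') →* LaurentSeries (Res O) => f xG) hij
      exact hxne this
    refine card_le_of_characters χ hinj r yG ?_
    intro x
    obtain ⟨a, ha⟩ := hspan (red1 E1 (x : ↥(R1 (O := O) E1))) x.2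
    have hlifta : ∀ k, ∃ c' : ↥(R1 (O := O) E1), ((c' : ↥E1) : LaurentSeries K) ∈ E0 ∧
        red1 E1 c' = (a k : LaurentSeries (Res O)) := by
      intro k
      obtain ⟨c0, hg, hc0, hred⟩ := (a k).2
      exact ⟨⟨⟨c0, h01 hc0⟩, hg⟩, hc0, hred⟩
    choose c' hc'E0 hc' using hlifta
    refine ⟨fun k => chi E1 (ρ i0) (hρg i0) (c' k), fun i => ?_⟩
    let z : ↥(R1 (O := O) E1) := (x : ↥(R1 (O := O) E1)) - ∑ k, c' k * y k
    have hz : red1 E1 z = 0 := by
      show red1 E1 ((x : ↥(R1 (O := O) E1)) - ∑ k, c' k * y k) = 0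
      rw [map_sub, map_sum, ha, sub_eq_zero]
      refine Finset.sum_congr rfl fun k _ => ?_
      rw [map_mul, hc', hy]
    have hz0 := chi_eq_zero_of_red1_eq_zero E1 hu (ρ i) (hρg i) (hρπ i) z hz
    have hz1 : chi E1 (ρ i) (hρg i) (x : ↥(R1 (O := O) E1)) =
        ∑ k, chi E1 (ρ i) (hρg i) (c' k) * chi E1 (ρ i) (hρg i) (y k) := by
      have : chi E1 (ρ i) (hρg i) ((x : ↥(R1 (O := O) E1)) - ∑ k, c' k * y k) = 0 := hz0
      rw [map_sub, map_sum, sub_eq_zero] at this
      rw [this]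
      refine Finset.sum_congr rfl fun k _ => ?_
      rw [map_mul]
    rw [hχ, hz1]
    refine Finset.sum_congr rfl fun k _ => ?_
    have hck : chi E1 (ρ i) (hρg i) (c' k) = chi E1 (ρ i0) (hρg i0) (c' k) := by
      rw [chi_apply, chi_apply]
      congr 1
      exact Subtype.ext (hρ0 i i0 _ (hc'E0 k))
    rw [hck]
    rfl
  -- conclusion
  intro w hw
  by_contra hwF
  have hli' : LinearIndependent ↥(resField O E0) (Fin.cons w c : Fin (r + 1) → _) := by
    rw [linearIndependent_finCons]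
    exact ⟨hli, fun h => hwF (hspanF w h)⟩
  have hmem : ∀ i, (Fin.cons w c : Fin (r + 1) → LaurentSeries (Res O)) i ∈ resField O E1 := by
    intro i
    refine Fin.cases ?_ (fun j => ?_) i
    · simpa using hw
    · simpa using hF'1 (hc j)
  have := hub (r + 1) _ hmem hli'
  omega

end Base

section Input

open Fermat.Agent.RED.PUR.GaussInst25 Fermat.Agent.DS.Igu77.Input Fermat.Agent.DS.Igu77.Isometry
  Fermat.Agent.DS.G.RED.Igusa.ResGenInput31

variable {K : Type} [Field K] [CharZero K] (O : ValuationSubring K) [IsDiscreteValuationRing ↥O]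
  {π : ↥O} (hπ : Irreducible π) (ℓ : ℕ) [Fact ℓ.Prime] [CharP (Res O) ℓ]
  (M : ℕ) [NeZero M] (hℓM : ¬ ℓ ∣ M)

omit [CharZero K] [IsDiscreteValuationRing ↥O] in
/-- "`g` fixes the part of `L` over `V(E₀)`" may be tested on generators of `E₀`. -/
theorem fix_of_gens {O : ValuationSubring K} {M : ℕ} [NeZero M] (I : IgusaInput K O M)
    (g : I.L ≃ₐ[I.k] I.L) (T : Set (LaurentSeries K))
    (hT : ∀ t ∈ T, ∃ b : I.L, I.ι b = qExpand K M t ∧ g b = b) :
    ∀ y ∈ IntermediateField.adjoin K T, ∀ b : I.L, I.ι b = qExpand K M y → g b = b := by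
  let S : IntermediateField K (LaurentSeries K) :=
    { carrier := {y | ∃ b : I.L, I.ι b = qExpand K M y ∧ g b = b}
      mul_mem' := by
        rintro a b ⟨x, hx, hgx⟩ ⟨x', hx', hgx'⟩
        exact ⟨x * x', by rw [map_mul, hx, hx']; exact (map_mul (qExpand K M) _ _).symm,
          by rw [map_mul, hgx, hgx']⟩
      one_mem' := ⟨1, by rw [map_one]; exact (map_one (qExpand K M)).symm, map_one g⟩
      add_mem' := by
        rintro a b ⟨x, hx, hgx⟩ ⟨x', hx', hgx'⟩
        exact ⟨x + x', by rw [map_add, hx, hx']; exact (map_add (qExpand K M) _ _).symm,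
          by rw [map_add, hgx, hgx']⟩
      zero_mem' := ⟨0, by rw [map_zero]; exact (map_zero (qExpand K M)).symm, map_zero g⟩
      algebraMap_mem' := fun c => by
        obtain ⟨c', hc'⟩ := I.base_surj (algebraMap K (LaurentSeries K) c)
          (IntermediateField.algebraMap_mem _ c)
        exact ⟨algebraMap I.k I.L c', by rw [hc', qExpand_algebraMap], g.commutes c'⟩
      inv_mem' := by
        rintro a ⟨x, hx, hgx⟩
        exact ⟨x⁻¹, by rw [map_inv₀, hx]; exact (map_inv₀ (qExpand K M) _).symm,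
          by rw [map_inv₀, hgx]⟩ }
  have hle : IntermediateField.adjoin K T ≤ S := by
    rw [IntermediateField.adjoin_le_iff]
    exact fun t ht => hT t ht
  intro y hy b hb
  obtain ⟨b', hb', hgb'⟩ := hle hy
  have : b = b' := I.ι_injective (hb.trans hb'.symm)
  rw [this]
  exact hgb'

include hπ hℓM in
/-- **(GB2) from an `IgusaInput`, over a general base `E₀`.** -/
theorem resField_eq_of_igusaInput_base (I : IgusaInput K O M)
    (E0 E1 : IntermediateField K (LaurentSeries K)) (h01 : E0 ≤ E1) (hE0 : E0 ≤ fracField O)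
    (hfin : relfinrank E0 E1 ≠ 0)
    (hE1L : ∀ y ∈ E1, ∃ b : I.L, I.ι b = qExpand K M y)
    (F' : IntermediateField (Res O) (LaurentSeries (Res O)))
    (h0F' : resField O E0 ≤ F') (hF'1 : F' ≤ resField O E1)
    {ι' : Type*} [Fintype ι'] (hcard : relfinrank E0 E1 ≤ Fintype.card ι')
    (g : ι' → I.L ≃ₐ[I.k] I.L)
    (hg0 : ∀ i, ∀ y ∈ E0, ∀ b : I.L, I.ι b = qExpand K M y → g i b = b)
    (hdist : ∀ i j, i ≠ j → ∃ (x : LaurentSeries K) (_ : x ∈ E1) (hx : x ∈ gaussRing O) (b : I.L),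
      I.ι b = qExpand K M x ∧ gaussRed O ⟨x, hx⟩ ∈ F' ∧
      ∀ (h1 : I.ι (g i b) ∈ gaussRing O) (h2 : I.ι (g j b) ∈ gaussRing O),
        gaussRed O ⟨I.ι (g i b), h1⟩ ≠ gaussRed O ⟨I.ι (g j b), h2⟩) :
    resField O E1 = F' := by
  have hρg : ∀ (i : ι') (x : ↥E1), (x : LaurentSeries K) ∈ gaussRing O →
      conj I E1 hE1L (g i) x ∈ gaussRing O :=
    fun i x hx => conj_mem_gaussRing O hπ ℓ M hℓM I E1 hE1L (g i) x hx
  have hV : ∀ (i : ι') (x : ↥E1), (x : LaurentSeries K) ∈ E0 →
      conj I E1 hE1L (g i) x = qExpand K M (x : LaurentSeries K) := by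
    intro i x hx
    rw [conj_apply, hg0 i _ hx _ (ι_lift I E1 hE1L x), ι_lift]
  refine le_antisymm ?_ hF'1
  refine resField_le_of_conjugates_base hπ E0 E1 h01 hE0 hfin F' h0F' hF'1 hcard
    (fun i => conj I E1 hE1L (g i)) hρg
    (fun i => conj_algebraMap I E1 hE1L (g i) _)
    (fun i j x hx => by rw [hV i x hx, hV j x hx]) ?_
  intro i j hij
  obtain ⟨x, hxE, hx, b, hb, hxF, hne⟩ := hdist i j hij
  refine ⟨⟨x, hxE⟩, hx, hxF, ?_⟩
  have e1 : conj I E1 hE1L (g i) ⟨x, hxE⟩ = I.ι (g i b) := conj_eq I E1 hE1L (g i) hb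
  have e2 : conj I E1 hE1L (g j) ⟨x, hxE⟩ = I.ι (g j b) := conj_eq I E1 hE1L (g j) hb
  have h1 : I.ι (g i b) ∈ gaussRing O := e1 ▸ hρg i ⟨x, hxE⟩ hx
  have h2 : I.ι (g j b) ∈ gaussRing O := e2 ▸ hρg j ⟨x, hxE⟩ hx
  rw [gaussRed_congr O (hρg i ⟨x, hxE⟩ hx) h1 e1, gaussRed_congr O (hρg j ⟨x, hxE⟩ hx) h2 e2]
  exact hne h1 h2

open Fermat.Agent.DS.G.ES.RED.Iface Fermat.Agent.DS.G.ES.RED.GaussUnit25 in
include hπ hℓM in
/-- **(GB2) for a generator datum containing the `X₀(M)` generators, from the DIAMOND conjugates.**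
`g i ∈ Gal(L/k)` fixing the `j(Q^{Md})`, `d ∣ M`, at least `[D.FC K : K(j(q^d) : d ∣ M)]` of them,
pairwise distinguished modulo `π` by the generators. -/
theorem resField_FC_eq_of_diamonds (D : GenData) (hX0 : (X0gens M).gens ⊆ D.gens)
    (I : IgusaInput K O M)
    (hD : ∀ gen ∈ D.gens, ∃ b : I.L, I.ι b = qExpand K M (coeffMap (Int.castRingHom K) gen))
    {ι' : Type*} [Fintype ι']
    (hcard : relfinrank (modularFunctionFieldFullC K M) (D.FC K) ≤ Fintype.card ι')
    (g : ι' → I.L ≃ₐ[I.k] I.L)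
    (hg0 : ∀ i, ∀ (d : ℕ) (_ : NeZero d), d ∣ M → ∀ b : I.L,
      I.ι b = qExpand K M (qExpand K d (jqModC K)) → g i b = b)
    (hdist : ∀ i j, i ≠ j → ∃ gen ∈ D.gens, ∃ b : I.L,
      I.ι b = qExpand K M (coeffMap (Int.castRingHom K) gen) ∧
      ∀ (h1 : I.ι (g i b) ∈ gaussRing O) (h2 : I.ι (g j b) ∈ gaussRing O),
        gaussRed O ⟨I.ι (g i b), h1⟩ ≠ gaussRed O ⟨I.ι (g j b), h2⟩) :
    resField O (D.FC K) = D.FC (Res O) := by
  have hE1L : ∀ y ∈ D.FC K, ∃ b : I.L, I.ι b = qExpand K M y := by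
    refine exists_lift_of_gens I (D.gensC K) ?_
    rintro _ ⟨gen, hgen, rfl⟩
    exact hD gen hgen
  have h01 : modularFunctionFieldFullC K M ≤ D.FC K := by
    rw [← X0gens_FC]
    exact GenData.FC_mono hX0 K
  have h01' : modularFunctionFieldFullC (Res O) M ≤ D.FC (Res O) := by
    rw [← X0gens_FC]
    exact GenData.FC_mono hX0 (Res O)
  have hj1 : jqModC K ∈ D.FC K := D.jqModC_mem_FC
  have hjle : K⟮jqModC K⟯ ≤ modularFunctionFieldFullC K M :=
    adjoin_simple_le_iff.mpr (jqModC_mem_full K M)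
  have hfin : relfinrank (modularFunctionFieldFullC K M) (D.FC K) ≠ 0 := by
    have h3 := Fermat.Agent.DS.Igu77.Final.relfinrank_j_ne_zero I (D.FC K) hj1 hE1L
    rw [← relfinrank_mul_relfinrank hjle h01] at h3
    exact right_ne_zero_of_mul h3
  have hg0' : ∀ i, ∀ y ∈ modularFunctionFieldFullC K M, ∀ b : I.L,
      I.ι b = qExpand K M y → g i b = b := by
    intro i
    refine fix_of_gens I (g i) (divisorExpansionsC K M) ?_
    rintro _ ⟨d, hd0, hd, rfl⟩
    obtain ⟨b, hb⟩ := hE1L _ (h01 (jqModCd_mem_full K M hd))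
    exact ⟨b, hb, hg0 i d hd0 hd b hb⟩
  refine resField_eq_of_igusaInput_base O hπ ℓ M hℓM I (modularFunctionFieldFullC K M) (D.FC K)
    h01 (fullC_le_fracField O M) hfin hE1L (D.FC (Res O)) ?_ (FC_le_resField D O) hcard g hg0' ?_
  · rw [Fermat.Agent.ES.RED.GaussUnit25.resField_fullC_eq O hπ ℓ M hℓM]
    exact h01'
  · intro i j hij
    obtain ⟨gen, hgen, b, hb, hne⟩ := hdist i j hij
    refine ⟨coeffMap (Int.castRingHom K) gen, D.gen_mem_FC hgen, gen_mem_gaussRing O gen, b, hb,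
      ?_, hne⟩
    rw [gaussRed_gen]
    exact D.gen_mem_FC hgen

end Input

end Fermat.Agent.DS.G.RED.Igusa.ResGenTower31
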