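/-
DS / chapter G-RED, brick IGU (helper31): the pure group theory behind the hypotheses `hgen` and
`hnorm` of `DS/Igu77/DecompTop.stab_eq_top`.

* `normalClosure_T` : the normal closure of `T = (1 1; 0 1)` in `SL(2,ℤ)` is everything.
* `normalClosure_map_T` : the same for the image of `T` under a surjective homomorphism
  (`normalClosure_singleton_inv` handles the anti-homomorphism convention).
* `conj_T_mul_pow_mem_Gamma` : for `γ = (a b; c d) ∈ Γ₀(M)` one has `γ T γ⁻¹ ≡ T^(a²)` modulo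
  `Γ(M)`; `map_conj_T_eq_pow` is the resulting statement `f γ * f T * (f γ)⁻¹ = (f T) ^ n` for
  every homomorphism `f` killing `Γ(M)`, which is literally the shape of `hnorm`.
-/
import Mathlib

set_option autoImplicit false

namespace Fermat.Agent.DS.G.RED.Igusa.SL2Group

open Matrix Matrix.SpecialLinearGroup ModularGroup CongruenceSubgroup

local notation "SL(" n ", " R ")" => SpecialLinearGroup (Fin n) R

section NormalClosure

/-- `S⁻¹ = T (S T S⁻¹) T`. -/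
theorem S_inv_eq : (S : SL(2,ℤ))⁻¹ = T * (S * T * S⁻¹) * T := by
  apply Subtype.ext
  simp only [coe_mul, coe_inv, coe_S, coe_T, adjugate_fin_two_of]
  ext i j
  fin_cases i <;> fin_cases j <;> simp [Matrix.mul_apply, Fin.sum_univ_two]

/-- **The normal closure of `T` in `SL(2,ℤ)` is everything.** -/
theorem normalClosure_T : Subgroup.normalClosure ({T} : Set SL(2,ℤ)) = ⊤ := by
  have hT : (T : SL(2,ℤ)) ∈ Subgroup.normalClosure ({T} : Set SL(2,ℤ)) :=
    Subgroup.subset_normalClosure (Set.mem_singleton _)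
  have hN : (Subgroup.normalClosure ({T} : Set SL(2,ℤ))).Normal := Subgroup.normalClosure_normal
  have hS : (S : SL(2,ℤ)) ∈ Subgroup.normalClosure ({T} : Set SL(2,ℤ)) := by
    have h1 : (S : SL(2,ℤ))⁻¹ ∈ Subgroup.normalClosure ({T} : Set SL(2,ℤ)) := by
      rw [S_inv_eq]
      exact mul_mem (mul_mem hT (hN.conj_mem T hT S)) hT
    simpa using inv_mem h1
  rw [eq_top_iff, ← SpecialLinearGroup.SL2Z_generators, Subgroup.closure_le]
  intro x hx
  rcases hx with rfl | rfl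
  · exact hS
  · exact hT

variable {G : Type*} [Group G]

/-- The normal closure of the image of `T` under a surjective homomorphism is everything. -/
theorem normalClosure_map_T (f : SL(2,ℤ) →* G) (hf : Function.Surjective f) :
    Subgroup.normalClosure ({f T} : Set G) = ⊤ := by
  have h := Subgroup.map_normalClosure ({T} : Set SL(2,ℤ)) f hf
  rw [normalClosure_T, Set.image_singleton, Subgroup.map_top_of_surjective f hf] at h
  exact h.symm

/-- The normal closure of `g⁻¹` is the normal closure of `g`. -/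
theorem normalClosure_singleton_inv (g : G) :
    Subgroup.normalClosure ({g⁻¹} : Set G) = Subgroup.normalClosure ({g} : Set G) := by
  apply le_antisymm
  · apply Subgroup.normalClosure_le_normal
    intro x hx
    rw [Set.mem_singleton_iff] at hx
    subst hx
    exact inv_mem (Subgroup.subset_normalClosure (Set.mem_singleton g))
  · apply Subgroup.normalClosure_le_normal
    intro x hx
    rw [Set.mem_singleton_iff] at hx
    subst hx
    have := inv_mem (Subgroup.subset_normalClosure (s := ({x⁻¹} : Set G)) (Set.mem_singleton x⁻¹))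
    simpa using this

/-- Anti-homomorphism convention: the normal closure of `f T⁻¹`. -/
theorem normalClosure_map_T_inv (f : SL(2,ℤ) →* G) (hf : Function.Surjective f) :
    Subgroup.normalClosure ({f T⁻¹} : Set G) = ⊤ := by
  rw [map_inv, normalClosure_singleton_inv]
  exact normalClosure_map_T f hf

end NormalClosure

section Conj

/-- `γ T γ⁻¹ = (1 - ac, a²; -c², 1 + ac)` for `γ = (a b; c d)`. -/
theorem coe_conj_T (γ : SL(2,ℤ)) :
    (↑(γ * T * γ⁻¹) : Matrix (Fin 2) (Fin 2) ℤ) =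
      !![1 - γ 0 0 * γ 1 0, γ 0 0 ^ 2; -(γ 1 0 ^ 2), 1 + γ 0 0 * γ 1 0] := by
  have hdet : γ 0 0 * γ 1 1 - γ 0 1 * γ 1 0 = 1 := by
    have := det_coe γ
    rwa [det_fin_two] at this
  simp only [coe_mul, coe_inv, coe_T, adjugate_fin_two]
  ext i j
  fin_cases i <;> fin_cases j <;>
    simp [Matrix.mul_apply, Fin.sum_univ_two] <;>
    first | ring1 | linear_combination hdet

/-- For `γ = (a b; c d) ∈ Γ₀(M)`: `γ T γ⁻¹ T^(-a²) ∈ Γ(M)` (integer exponent). -/
theorem conj_T_mul_zpow_mem_Gamma (M : ℕ) (γ : SL(2,ℤ)) (hγ : γ ∈ Gamma0 M) :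
    γ * T * γ⁻¹ * (T ^ (γ 0 0 ^ 2 : ℤ))⁻¹ ∈ Gamma M := by
  rw [Gamma0_mem] at hγ
  rw [← _root_.zpow_neg, Gamma_mem]
  have h := coe_conj_T γ
  have hc : ((γ 1 0 : ℤ) : ZMod M) = 0 := hγ
  simp only [coe_mul, coe_T_zpow, h]
  refine ⟨?_, ?_, ?_, ?_⟩ <;>
    simp [Matrix.mul_apply, Fin.sum_univ_two, hc]

/-- For `γ = (a b; c d) ∈ Γ₀(M)`: `γ T γ⁻¹ (T^(|a|²))⁻¹ ∈ Γ(M)` (natural exponent). -/
theorem conj_T_mul_pow_mem_Gamma (M : ℕ) (γ : SL(2,ℤ)) (hγ : γ ∈ Gamma0 M) :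
    γ * T * γ⁻¹ * (T ^ ((γ 0 0).natAbs ^ 2))⁻¹ ∈ Gamma M := by
  have h := conj_T_mul_zpow_mem_Gamma M γ hγ
  have he : (γ 0 0 ^ 2 : ℤ) = (((γ 0 0).natAbs ^ 2 : ℕ) : ℤ) := by
    rw [Nat.cast_pow, Int.natCast_natAbs, sq_abs]
  rwa [he, zpow_natCast] at h

/-- `(γ⁻¹) 0 0 = γ 1 1` and `(γ⁻¹) 1 0 = - γ 1 0`. -/
theorem inv_apply_zero_zero (γ : SL(2,ℤ)) : (γ⁻¹) 0 0 = γ 1 1 := by
  simp [coe_inv, adjugate_fin_two]

theorem inv_apply_one_zero (γ : SL(2,ℤ)) : (γ⁻¹) 1 0 = - γ 1 0 := by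
  simp [coe_inv, adjugate_fin_two]

/-- Variant: `γ⁻¹ T γ (T^(|d|²))⁻¹ ∈ Γ(M)` for `γ = (a b; c d) ∈ Γ₀(M)`. -/
theorem conj_T_mul_pow_mem_Gamma' (M : ℕ) (γ : SL(2,ℤ)) (hγ : γ ∈ Gamma0 M) :
    γ⁻¹ * T * γ * (T ^ ((γ 1 1).natAbs ^ 2))⁻¹ ∈ Gamma M := by
  have h := conj_T_mul_pow_mem_Gamma M γ⁻¹ (inv_mem hγ)
  rwa [inv_inv, inv_apply_zero_zero] at h

variable {G : Type*} [Group G]

/-- **The shape of `hnorm`**: a homomorphism killing `Γ(M)` sends the conjugate of `T` by an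
element `γ = (a b; c d)` of `Γ₀(M)` to the `a²`-th power of the image of `T`. -/
theorem map_conj_T_eq_pow (f : SL(2,ℤ) →* G) (M : ℕ) (hker : Gamma M ≤ f.ker) (γ : SL(2,ℤ))
    (hγ : γ ∈ Gamma0 M) :
    f γ * f T * (f γ)⁻¹ = f T ^ ((γ 0 0).natAbs ^ 2) := by
  have h := hker (conj_T_mul_pow_mem_Gamma M γ hγ)
  rw [MonoidHom.mem_ker] at h
  simp only [map_mul, map_inv, map_pow] at h
  exact mul_inv_eq_one.mp h

/-- Variant for the other conjugation (anti-homomorphism convention). -/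
theorem map_conj_T_eq_pow' (f : SL(2,ℤ) →* G) (M : ℕ) (hker : Gamma M ≤ f.ker) (γ : SL(2,ℤ))
    (hγ : γ ∈ Gamma0 M) :
    (f γ)⁻¹ * f T * f γ = f T ^ ((γ 1 1).natAbs ^ 2) := by
  have h := hker (conj_T_mul_pow_mem_Gamma' M γ hγ)
  rw [MonoidHom.mem_ker] at h
  simp only [map_mul, map_inv, map_pow] at h
  exact mul_inv_eq_one.mp h

/-- `hnorm` in existential form. -/
theorem exists_map_conj_T_eq_pow (f : SL(2,ℤ) →* G) (M : ℕ) (hker : Gamma M ≤ f.ker)
    (γ : SL(2,ℤ)) (hγ : γ ∈ Gamma0 M) :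
    ∃ n : ℕ, f γ * f T * (f γ)⁻¹ = f T ^ n :=
  ⟨_, map_conj_T_eq_pow f M hker γ hγ⟩

end Conj

end Fermat.Agent.DS.G.RED.Igusa.SL2Group
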