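/-
DS / chapter G-RED, brick IGU (helper31): assembly of the abstract decomposition-group theorem
(`DS/Igu77/DecompTop`) with the group theory of `SL(2,ℤ)` (`SL2Group`).

`L / k` finite Galois, `W` a valuation subring of `L`, and a surjective homomorphism
`s : SL(2,ℤ) →* Gal(L/k)` killing `Γ(M)`.  If

* `s T` stabilises `W`,
* there is an intermediate field `E` to which `W ∩ k` has only one extension, and
* every `β ∈ Gal(L/E)` is `s γ` for some `γ ∈ Γ₀(M)`,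

then EVERY element of `Gal(L/k)` stabilises `W`, and `W` is the only valuation subring of `L`
with its trace on `k`.  An anti-homomorphism version (`s (γ δ) = s δ * s γ`, the natural
convention for `s δ (x_v) = x_(v δ)`) is included.
-/
import Mathlib
import Fermat.Agent.DS.Igu77.DecompTop
import Fermat.Agent.DS.G.RED.Igusa.SL2Group

set_option autoImplicit false

namespace Fermat.Agent.DS.G.RED.Igusa.Assemble31

open Matrix Matrix.SpecialLinearGroup ModularGroup CongruenceSubgroup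
open Fermat.Agent.DS.Igu77.DecompTop Fermat.Agent.DS.G.RED.Igusa.SL2Group

local notation "SL(" n ", " R ")" => SpecialLinearGroup (Fin n) R

variable {k L : Type*} [Field k] [Field L] [Algebra k L] [FiniteDimensional k L] [IsGalois k L]

/-- **Abstract Igusa, homomorphism form.** -/
theorem stab_eq_top_of_SL2 (W : ValuationSubring L) (M : ℕ) (s : SL(2,ℤ) →* (L ≃ₐ[k] L))
    (hsurj : Function.Surjective s) (hker : Gamma M ≤ s.ker)
    (hT : s T ∈ stab (k := k) W) (E : IntermediateField k L)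
    (huniq : ∀ W' : ValuationSubring L,
      (∀ y : k, algebraMap k L y ∈ W' ↔ algebraMap k L y ∈ W) → ∀ x ∈ E, x ∈ W' ↔ x ∈ W)
    (hE : ∀ β : L ≃ₐ[k] L, (∀ x ∈ E, β x = x) → ∃ γ ∈ Gamma0 M, s γ = β) :
    stab (k := k) W = ⊤ :=
  stab_eq_top W (s T) hT E huniq
    (fun β hβ => by
      obtain ⟨γ, hγ, rfl⟩ := hE β hβ
      exact exists_map_conj_T_eq_pow s M hker γ hγ)
    (normalClosure_map_T s hsurj)

/-- every Galois automorphism preserves `W`. -/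
theorem forall_mem_iff_of_SL2 (W : ValuationSubring L) (M : ℕ) (s : SL(2,ℤ) →* (L ≃ₐ[k] L))
    (hsurj : Function.Surjective s) (hker : Gamma M ≤ s.ker)
    (hT : s T ∈ stab (k := k) W) (E : IntermediateField k L)
    (huniq : ∀ W' : ValuationSubring L,
      (∀ y : k, algebraMap k L y ∈ W' ↔ algebraMap k L y ∈ W) → ∀ x ∈ E, x ∈ W' ↔ x ∈ W)
    (hE : ∀ β : L ≃ₐ[k] L, (∀ x ∈ E, β x = x) → ∃ γ ∈ Gamma0 M, s γ = β)
    (g : L ≃ₐ[k] L) (x : L) : g x ∈ W ↔ x ∈ W := by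
  have hg : g ∈ stab (k := k) W := by
    rw [stab_eq_top_of_SL2 W M s hsurj hker hT E huniq hE]
    exact Subgroup.mem_top g
  exact hg x

/-- **Uniqueness of the extension.** -/
theorem eq_of_trace_eq_of_SL2 (W : ValuationSubring L) (M : ℕ) (s : SL(2,ℤ) →* (L ≃ₐ[k] L))
    (hsurj : Function.Surjective s) (hker : Gamma M ≤ s.ker)
    (hT : s T ∈ stab (k := k) W) (E : IntermediateField k L)
    (huniq : ∀ W' : ValuationSubring L,
      (∀ y : k, algebraMap k L y ∈ W' ↔ algebraMap k L y ∈ W) → ∀ x ∈ E, x ∈ W' ↔ x ∈ W)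
    (hE : ∀ β : L ≃ₐ[k] L, (∀ x ∈ E, β x = x) → ∃ γ ∈ Gamma0 M, s γ = β)
    (W' : ValuationSubring L)
    (htr : ∀ y : k, algebraMap k L y ∈ W' ↔ algebraMap k L y ∈ W) : W' = W :=
  eq_of_trace_eq W (s T) hT E huniq
    (fun β hβ => by
      obtain ⟨γ, hγ, rfl⟩ := hE β hβ
      exact exists_map_conj_T_eq_pow s M hker γ hγ)
    (normalClosure_map_T s hsurj) W' htr

section Anti

/-- from an anti-homomorphism to a homomorphism: `γ ↦ s γ⁻¹`. -/
def homOfAnti (s : SL(2,ℤ) → (L ≃ₐ[k] L)) (h1 : s 1 = 1)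
    (hmul : ∀ γ δ : SL(2,ℤ), s (γ * δ) = s δ * s γ) : SL(2,ℤ) →* (L ≃ₐ[k] L) where
  toFun γ := s γ⁻¹
  map_one' := by rw [inv_one, h1]
  map_mul' γ δ := by rw [_root_.mul_inv_rev, hmul]

omit [FiniteDimensional k L] [IsGalois k L] in
theorem homOfAnti_apply (s : SL(2,ℤ) → (L ≃ₐ[k] L)) (h1 : s 1 = 1)
    (hmul : ∀ γ δ : SL(2,ℤ), s (γ * δ) = s δ * s γ) (γ : SL(2,ℤ)) :
    homOfAnti s h1 hmul γ = s γ⁻¹ := rfl

omit [FiniteDimensional k L] [IsGalois k L] in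
theorem anti_inv (s : SL(2,ℤ) → (L ≃ₐ[k] L)) (h1 : s 1 = 1)
    (hmul : ∀ γ δ : SL(2,ℤ), s (γ * δ) = s δ * s γ) (γ : SL(2,ℤ)) : s γ⁻¹ = (s γ)⁻¹ := by
  rw [eq_inv_iff_mul_eq_one, ← hmul, mul_inv_cancel, h1]

/-- **Abstract Igusa, anti-homomorphism form** (`s (γ δ) = s δ * s γ`). -/
theorem stab_eq_top_of_SL2_anti (W : ValuationSubring L) (M : ℕ) (s : SL(2,ℤ) → (L ≃ₐ[k] L))
    (h1 : s 1 = 1) (hmul : ∀ γ δ : SL(2,ℤ), s (γ * δ) = s δ * s γ)
    (hsurj : Function.Surjective s) (hker : ∀ γ ∈ Gamma M, s γ = 1)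
    (hT : s T ∈ stab (k := k) W) (E : IntermediateField k L)
    (huniq : ∀ W' : ValuationSubring L,
      (∀ y : k, algebraMap k L y ∈ W' ↔ algebraMap k L y ∈ W) → ∀ x ∈ E, x ∈ W' ↔ x ∈ W)
    (hE : ∀ β : L ≃ₐ[k] L, (∀ x ∈ E, β x = x) → ∃ γ ∈ Gamma0 M, s γ = β) :
    stab (k := k) W = ⊤ := by
  refine stab_eq_top_of_SL2 W M (homOfAnti s h1 hmul) ?_ ?_ ?_ E huniq ?_
  · intro β
    obtain ⟨γ, rfl⟩ := hsurj β
    exact ⟨γ⁻¹, by rw [homOfAnti_apply, inv_inv]⟩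
  · intro γ hγ
    rw [MonoidHom.mem_ker, homOfAnti_apply]
    exact hker _ (inv_mem hγ)
  · rw [homOfAnti_apply, anti_inv s h1 hmul]
    exact inv_mem hT
  · intro β hβ
    obtain ⟨γ, hγ, rfl⟩ := hE β hβ
    exact ⟨γ⁻¹, inv_mem hγ, by rw [homOfAnti_apply, inv_inv]⟩

/-- every Galois automorphism preserves `W` (anti-homomorphism form). -/
theorem forall_mem_iff_of_SL2_anti (W : ValuationSubring L) (M : ℕ)
    (s : SL(2,ℤ) → (L ≃ₐ[k] L))
    (h1 : s 1 = 1) (hmul : ∀ γ δ : SL(2,ℤ), s (γ * δ) = s δ * s γ)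
    (hsurj : Function.Surjective s) (hker : ∀ γ ∈ Gamma M, s γ = 1)
    (hT : s T ∈ stab (k := k) W) (E : IntermediateField k L)
    (huniq : ∀ W' : ValuationSubring L,
      (∀ y : k, algebraMap k L y ∈ W' ↔ algebraMap k L y ∈ W) → ∀ x ∈ E, x ∈ W' ↔ x ∈ W)
    (hE : ∀ β : L ≃ₐ[k] L, (∀ x ∈ E, β x = x) → ∃ γ ∈ Gamma0 M, s γ = β)
    (g : L ≃ₐ[k] L) (x : L) : g x ∈ W ↔ x ∈ W := by
  have hg : g ∈ stab (k := k) W := by
    rw [stab_eq_top_of_SL2_anti W M s h1 hmul hsurj hker hT E huniq hE]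
    exact Subgroup.mem_top g
  exact hg x

/-- **Uniqueness of the extension** (anti-homomorphism form). -/
theorem eq_of_trace_eq_of_SL2_anti (W : ValuationSubring L) (M : ℕ)
    (s : SL(2,ℤ) → (L ≃ₐ[k] L))
    (h1 : s 1 = 1) (hmul : ∀ γ δ : SL(2,ℤ), s (γ * δ) = s δ * s γ)
    (hsurj : Function.Surjective s) (hker : ∀ γ ∈ Gamma M, s γ = 1)
    (hT : s T ∈ stab (k := k) W) (E : IntermediateField k L)
    (huniq : ∀ W' : ValuationSubring L,
      (∀ y : k, algebraMap k L y ∈ W' ↔ algebraMap k L y ∈ W) → ∀ x ∈ E, x ∈ W' ↔ x ∈ W)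
    (hE : ∀ β : L ≃ₐ[k] L, (∀ x ∈ E, β x = x) → ∃ γ ∈ Gamma0 M, s γ = β)
    (W' : ValuationSubring L)
    (htr : ∀ y : k, algebraMap k L y ∈ W' ↔ algebraMap k L y ∈ W) : W' = W := by
  obtain ⟨g, hg⟩ := exists_forall_mem_iff (k := k) W W' htr
  ext x
  rw [hg x]
  exact forall_mem_iff_of_SL2_anti W M s h1 hmul hsurj hker hT E huniq hE g x

end Anti

end Fermat.Agent.DS.G.RED.Igusa.Assemble31
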