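/-
Programme DS (S48), chapter G-RED / Igusa, brick IGU-D (helper30), part D: `Ltop` is the smallest
subfield of `K((Q))` containing all cusp expansions `C.T γ u` (`u ∈ R`): any subfield containing
them contains `Ltop` (used for `ι_mem : Ltop ≤ fracField O` of `Igu77.Input.IgusaInput`).
-/
import Mathlib
import Fermat.Agent.DS.G.RED.Igusa.GaloisClosure30C

set_option autoImplicit false
set_option linter.unusedSectionVars false

open UpperHalfPlane
open scoped MatrixGroups

noncomputable section

namespace Fermat.Agent.DS.G.RED.Igusa.GaloisClosure30D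

open Fermat.Agent.X0 Fermat.Agent.DS.G.Level Fermat.Agent.DS.G.RED.Igusa.GaloisClosure30A
  Fermat.Agent.DS.G.RED.Igusa.GaloisClosure30B

variable {L : LevelData} {K : Type} [Field K] [Algebra ℚ K] {ι : K →+* ℂ}
variable (D : RealizeDataL L K ι) (C : CuspDataL L K ι D)

/-- Every expansion `exA f`, `f ∈ AFun D`, lies in any subring containing all `C.T γ u`. -/
theorem exA_mem_of_T_mem (S : Subring (LaurentSeries K))
    (h : ∀ (γ : SL(2, ℤ)) (u : Rsubc L K), C.T γ (u : FFc L K) ∈ S) (f : AFun D) :
    exA D C f ∈ S := by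
  have hle : AFun D ≤ (S.comap (exA D C)).map (AFun D).subtype := by
    show Subring.closure (Set.range (genFun D)) ≤ _
    rw [Subring.closure_le]
    rintro _ ⟨⟨u, γ⟩, rfl⟩
    refine ⟨⟨compSL (D.Θ u) γ, genFun_mem D u γ⟩, ?_, rfl⟩
    show exA D C ⟨compSL (D.Θ u) γ, genFun_mem D u γ⟩ ∈ S
    rw [exA_gen]
    exact h γ u
  obtain ⟨e, he, hef⟩ := hle f.2
  have hfe : e = f := Subtype.ext hef
  rw [← hfe]
  exact he

/-- **`Ltop` is generated by the cusp expansions**: a subfield of `K((Q))` containing all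
`C.T γ u` (`u ∈ R`) contains `Ltop`. -/
theorem Ltop_le_of_T_mem (S : Subfield (LaurentSeries K))
    (h : ∀ (γ : SL(2, ℤ)) (u : Rsubc L K), C.T γ (u : FFc L K) ∈ S)
    {x : LaurentSeries K} (hx : x ∈ Ltop D C) : x ∈ S := by
  have hx' : x ∈ Subfield.closure ((exA D C).range : Set (LaurentSeries K)) := hx
  have hle : Subfield.closure ((exA D C).range : Set (LaurentSeries K)) ≤ S := by
    rw [Subfield.closure_le]
    rintro _ ⟨f, rfl⟩
    exact exA_mem_of_T_mem D C S.toSubring h f
  exact hle hx'

/-- Conversely all `C.T γ u` lie in `Ltop`, so `Ltop` (as a subfield) is the subfield generated by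
the cusp expansions. -/
theorem LtopSub_eq_closure :
    LtopSub D C = Subfield.closure
      (Set.range fun p : SL(2, ℤ) × Rsubc L K => C.T p.1 ((p.2 : Rsubc L K) : FFc L K)) := by
  apply le_antisymm
  · intro x hx
    refine Ltop_le_of_T_mem D C _ (fun γ u => Subfield.subset_closure ?_) hx
    exact ⟨(γ, u), rfl⟩
  · rw [Subfield.closure_le]
    rintro _ ⟨⟨γ, u⟩, rfl⟩
    exact T_mem_Ltop_R D C γ u

end Fermat.Agent.DS.G.RED.Igusa.GaloisClosure30D
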