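/-
Programme DS (S48), GEO / IGUSA plan v2 (helper77's IGU, report 417), brick IGU-G (helper52):
the group-theoretic side.

* `normalClosure_T` : the normal closure of `T` in `SL(2, ℤ)` is everything.
* `conj_T_mul_inv_mem_Gamma` : for `γ ∈ Γ₀(M)` with upper left entry `a`,
  `γ T γ⁻¹ ≡ T ^ (a ^ 2)` modulo `Γ(M)`.
* For a group hom `s : SL(2, ℤ) →* G` with `Γ(M) ≤ ker s`:
  `hgen_of_surjective` (the normal closure of `s T` is `⊤` if `s` is onto) and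
  `hnorm_of_mem_Gamma0` (`s γ` conjugates `s T` into a power of `s T` for `γ ∈ Γ₀(M)`).
  These are the hypotheses `hgen`, `hnorm` of `DS/Igu77/DecompTop.stab_eq_top`.
-/
import Mathlib

set_option autoImplicit false

open Matrix ModularGroup CongruenceSubgroup
open scoped MatrixGroups

namespace Fermat.Agent.DS.G.RED.Igusa.GroupSide

/-- The braid relation in the form `S = T⁻¹ (S T⁻¹ S⁻¹) T⁻¹`. -/
theorem S_eq : T⁻¹ * (S * T⁻¹ * S⁻¹) * T⁻¹ = S := by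
  ext i j
  fin_cases i <;> fin_cases j <;>
    simp [coe_S, Matrix.mul_apply, Fin.sum_univ_two, adjugate_fin_two]

theorem S_mem_normalClosure_T : S ∈ Subgroup.normalClosure ({T} : Set SL(2, ℤ)) := by
  have hT : T ∈ Subgroup.normalClosure ({T} : Set SL(2, ℤ)) :=
    Subgroup.subset_normalClosure (Set.mem_singleton T)
  have hN : (Subgroup.normalClosure ({T} : Set SL(2, ℤ))).Normal := Subgroup.normalClosure_normal
  have h1 : S * T⁻¹ * S⁻¹ ∈ Subgroup.normalClosure ({T} : Set SL(2, ℤ)) :=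
    hN.conj_mem _ (Subgroup.inv_mem _ hT) S
  have h2 := Subgroup.mul_mem _ (Subgroup.mul_mem _ (Subgroup.inv_mem _ hT) h1)
    (Subgroup.inv_mem _ hT)
  rwa [S_eq] at h2

/-- **The normal closure of `T` is `SL(2, ℤ)`.** -/
theorem normalClosure_T : Subgroup.normalClosure ({T} : Set SL(2, ℤ)) = ⊤ := by
  rw [eq_top_iff, ← SpecialLinearGroup.SL2Z_generators, Subgroup.closure_le]
  rintro x (rfl | hx)
  · exact S_mem_normalClosure_T
  · rw [Set.mem_singleton_iff] at hx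
    subst hx
    exact Subgroup.subset_normalClosure (Set.mem_singleton T)

/-- The entries of `γ T γ⁻¹ Tn` for `Tn = (1 n; 0 1)`. -/
theorem entries_conj_T_mul (γ Tn : SL(2, ℤ)) (n : ℤ)
    (hTn : (Tn : Matrix (Fin 2) (Fin 2) ℤ) = !![1, n; 0, 1]) :
    (γ * T * γ⁻¹ * Tn) 0 0 = γ 0 0 * γ 1 1 - γ 0 0 * γ 1 0 - γ 0 1 * γ 1 0 ∧
    (γ * T * γ⁻¹ * Tn) 0 1 =
      (γ 0 0 * γ 1 1 - γ 0 0 * γ 1 0 - γ 0 1 * γ 1 0) * n + (γ 0 0) ^ 2 ∧
    (γ * T * γ⁻¹ * Tn) 1 0 = -(γ 1 0) ^ 2 ∧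
    (γ * T * γ⁻¹ * Tn) 1 1 =
      -(γ 1 0) ^ 2 * n + (γ 0 0 * γ 1 1 - γ 0 1 * γ 1 0 + γ 0 0 * γ 1 0) := by
  have h00 : Tn 0 0 = 1 := by have := congrFun (congrFun hTn 0) 0; simpa using this
  have h01 : Tn 0 1 = n := by have := congrFun (congrFun hTn 0) 1; simpa using this
  have h10 : Tn 1 0 = 0 := by have := congrFun (congrFun hTn 1) 0; simpa using this
  have h11 : Tn 1 1 = 1 := by have := congrFun (congrFun hTn 1) 1; simpa using this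
  refine ⟨?_, ?_, ?_, ?_⟩ <;>
    simp [Matrix.mul_apply, Fin.sum_univ_two, adjugate_fin_two, coe_T, h00, h01, h10, h11] <;>
    ring

/-- For `γ ∈ Γ₀(M)` with upper left entry `a`: `γ T γ⁻¹ T^(-a²) ∈ Γ(M)`. -/
theorem conj_T_mul_inv_mem_Gamma (M : ℕ) (γ : SL(2, ℤ)) (hγ : γ ∈ Gamma0 M) :
    γ * T * γ⁻¹ * (T ^ ((γ 0 0) ^ 2 : ℤ))⁻¹ ∈ Gamma M := by
  rw [Gamma0_mem] at hγ
  rw [Gamma_mem]
  have hdet := γ.det_coe
  rw [Matrix.det_fin_two] at hdet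
  have hc : ((γ 1 0 : ℤ) : ZMod M) = 0 := hγ
  have hdetM : ((γ 0 0 : ℤ) : ZMod M) * ((γ 1 1 : ℤ) : ZMod M) = 1 := by
    have := congrArg (Int.cast : ℤ → ZMod M) hdet
    push_cast at this
    rw [hc, mul_zero, sub_zero] at this
    exact this
  have hinv : ((T ^ ((γ 0 0) ^ 2 : ℤ))⁻¹ : SL(2, ℤ)) = T ^ (-((γ 0 0) ^ 2 : ℤ)) := by
    rw [_root_.zpow_neg]
  obtain ⟨e00, e01, e10, e11⟩ := entries_conj_T_mul γ (T ^ (-((γ 0 0) ^ 2 : ℤ)))
    (-((γ 0 0) ^ 2 : ℤ)) (coe_T_zpow _)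
  rw [hinv, e00, e01, e10, e11]
  refine ⟨?_, ?_, ?_, ?_⟩
  · push_cast
    linear_combination hdetM - (((γ 0 0 : ℤ) : ZMod M) + ((γ 0 1 : ℤ) : ZMod M)) * hc
  · push_cast
    linear_combination (-(((γ 0 0 : ℤ) : ZMod M)) ^ 2) * hdetM +
      ((γ 0 0 : ℤ) : ZMod M) ^ 2 * (((γ 0 0 : ℤ) : ZMod M) + ((γ 0 1 : ℤ) : ZMod M)) * hc
  · push_cast
    linear_combination (-((γ 1 0 : ℤ) : ZMod M)) * hc
  · push_cast
    linear_combination hdetM + (((γ 1 0 : ℤ) : ZMod M) * ((γ 0 0 : ℤ) : ZMod M) ^ 2 -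
      ((γ 0 1 : ℤ) : ZMod M) + ((γ 0 0 : ℤ) : ZMod M)) * hc

section Hom

variable {G : Type*} [Group G] (s : SL(2, ℤ) →* G)

/-- **(hgen)**: if `s` is onto, the normal closure of `s T` is everything. -/
theorem hgen_of_surjective (hs : Function.Surjective s) :
    Subgroup.normalClosure ({s T} : Set G) = ⊤ := by
  rw [eq_top_iff]
  intro g _
  obtain ⟨γ, rfl⟩ := hs g
  have h : γ ∈ Subgroup.normalClosure ({T} : Set SL(2, ℤ)) := by
    rw [normalClosure_T]; exact Subgroup.mem_top γ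
  have h2 : s γ ∈ (Subgroup.normalClosure ({T} : Set SL(2, ℤ))).map s := Subgroup.mem_map_of_mem s h
  have h3 := Subgroup.map_normalClosure_le ({T} : Set SL(2, ℤ)) s h2
  rwa [Set.image_singleton] at h3

/-- **(hnorm)**: if `Γ(M) ≤ ker s` then `s γ` conjugates `s T` into a power of `s T`, for
`γ ∈ Γ₀(M)`. -/
theorem hnorm_of_mem_Gamma0 (M : ℕ) (hker : Gamma M ≤ s.ker) (γ : SL(2, ℤ))
    (hγ : γ ∈ Gamma0 M) : ∃ n : ℕ, s γ * s T * (s γ)⁻¹ = s T ^ n := by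
  have h := hker (conj_T_mul_inv_mem_Gamma M γ hγ)
  rw [MonoidHom.mem_ker, map_mul, map_inv, mul_inv_eq_one] at h
  refine ⟨((γ 0 0) ^ 2).toNat, ?_⟩
  rw [← map_inv, ← map_mul, ← map_mul, h, map_zpow, ← zpow_natCast, Int.toNat_of_nonneg (sq_nonneg _)]

/-- Variant of `hnorm_of_mem_Gamma0` with the conjugation on the other side. -/
theorem hnorm_of_mem_Gamma0' (M : ℕ) (hker : Gamma M ≤ s.ker) (γ : SL(2, ℤ))
    (hγ : γ ∈ Gamma0 M) : ∃ n : ℕ, (s γ)⁻¹ * s T * s γ = s T ^ n := by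
  obtain ⟨n, hn⟩ := hnorm_of_mem_Gamma0 s M hker γ⁻¹ ((Gamma0 M).inv_mem hγ)
  refine ⟨n, ?_⟩
  rw [← hn, map_inv, inv_inv]

end Hom

end Fermat.Agent.DS.G.RED.Igusa.GroupSide
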