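/-
DS / chapter G-RED, brick IGU step (1) (helper31): the twist `Q ↦ u Q` by a unit `u` of `O`
preserves the Gauss ring of `K((Q))` and commutes with the reduction map.  Consequently every
automorphism of an intermediate field `E ≤ Frac O((Q))` which is the restriction of such a twist
lies in the stabiliser (`DS/Igu77/DecompTop.stab`) of the Gauss valuation ring of `E`.

Intended use: `u = ζ_M`, `E = L` the level-`M` field inside `K((Q))`, `σ = s_T`.
-/
import Mathlib
import Fermat.Agent.RED.PUR.GaussGen8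
import Fermat.Agent.ES.KRON.KronCong24
import Fermat.Agent.DS.Igu77.DecompTop

set_option autoImplicit false

noncomputable section

namespace Fermat.Agent.DS.G.RED.Igusa.TwistGauss

open HahnSeries ModularCurve
open Fermat.Agent.RED.PUR.GaussGen8 Fermat.Agent.ES.KRON.KronCong24

section General

variable {R : Type*} [CommRing R]

theorem twistU_inv_twistU (u : Rˣ) (x : LaurentSeries R) : twistU u⁻¹ (twistU u x) = x := by
  rw [← twistU_mul, inv_mul_cancel, twistU_one]

theorem twistU_twistU_inv (u : Rˣ) (x : LaurentSeries R) : twistU u (twistU u⁻¹ x) = x := by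
  rw [← twistU_mul, mul_inv_cancel, twistU_one]

theorem twistU_injective (u : Rˣ) : Function.Injective (twistU u) := by
  intro x y h
  rw [← twistU_inv_twistU u x, h, twistU_inv_twistU]

theorem twistU_ne_zero (u : Rˣ) {x : LaurentSeries R} (hx : x ≠ 0) : twistU u x ≠ 0 := by
  intro h
  exact hx (twistU_injective u (by rw [h, map_zero]))

end General

variable {K : Type*} [Field K] (O : ValuationSubring K)

/-- the unit of `K` underlying a unit of `O`. -/
abbrev unitK (u : (↥O)ˣ) : Kˣ := Units.map (O.subtype : ↥O →* K) u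

/-- the unit of the residue field underlying a unit of `O`. -/
abbrev unitRes (u : (↥O)ˣ) : (Res O)ˣ := Units.map (res0 O : ↥O →* Res O) u

theorem embK_twistU (u : (↥O)ˣ) (a : LaurentSeries ↥O) :
    embK O (twistU u a) = twistU (unitK O u) (embK O a) :=
  coeffMap_twistU O.subtype u a

theorem redL_twistU (u : (↥O)ˣ) (a : LaurentSeries ↥O) :
    redL O (twistU u a) = twistU (unitRes O u) (redL O a) :=
  coeffMap_twistU (res0 O) u a

variable {O}

theorem isRep_twistU (u : (↥O)ˣ) {f : LaurentSeries K} {a s : LaurentSeries ↥O}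
    (h : IsRep O f a s) : IsRep O (twistU (unitK O u) f) (twistU u a) (twistU u s) := by
  refine ⟨?_, ?_⟩
  · rw [redL_twistU]
    exact twistU_ne_zero _ h.1
  · rw [embK_twistU, embK_twistU, ← map_mul, h.2]

variable (O)

/-- **The twist preserves the Gauss ring.** -/
theorem twistU_mem_gaussRing (u : (↥O)ˣ) {f : LaurentSeries K} (hf : f ∈ gaussRing O) :
    twistU (unitK O u) f ∈ gaussRing O := by
  obtain ⟨a, s, h⟩ := hf
  exact ⟨_, _, isRep_twistU u h⟩

theorem unitK_inv (u : (↥O)ˣ) : unitK O u⁻¹ = (unitK O u)⁻¹ := map_inv _ u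

theorem twistU_mem_gaussRing_iff (u : (↥O)ˣ) (f : LaurentSeries K) :
    twistU (unitK O u) f ∈ gaussRing O ↔ f ∈ gaussRing O := by
  refine ⟨fun h => ?_, twistU_mem_gaussRing O u⟩
  have := twistU_mem_gaussRing O u⁻¹ h
  rwa [unitK_inv, twistU_inv_twistU] at this

/-- **The twist commutes with reduction.** -/
theorem gaussRed_twistU (u : (↥O)ˣ) (f : gaussRing O) :
    gaussRed O ⟨twistU (unitK O u) (f : LaurentSeries K), twistU_mem_gaussRing O u f.2⟩ =
      twistU (unitRes O u) (gaussRed O f) := by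
  obtain ⟨a, s, h⟩ := f.2
  rw [gaussRed_eq O (f := ⟨twistU (unitK O u) (f : LaurentSeries K), _⟩) (isRep_twistU u h),
    gaussRed_eq O h, redL_twistU, redL_twistU, map_div₀]

/-- The twist preserves `Frac O((Q))`. -/
theorem twistU_mem_fracField (u : (↥O)ˣ) {f : LaurentSeries K} (hf : f ∈ fracField O) :
    twistU (unitK O u) f ∈ fracField O := by
  obtain ⟨a, b, hb, h⟩ := hf
  refine ⟨twistU u a, twistU u b, twistU_ne_zero u hb, ?_⟩
  rw [embK_twistU, embK_twistU, ← map_mul, h]

theorem twistU_mem_fracField_iff (u : (↥O)ˣ) (f : LaurentSeries K) :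
    twistU (unitK O u) f ∈ fracField O ↔ f ∈ fracField O := by
  refine ⟨fun h => ?_, twistU_mem_fracField O u⟩
  have := twistU_mem_fracField O u⁻¹ h
  rwa [unitK_inv, twistU_inv_twistU] at this

section Restrict

variable {K : Type*} [Field K]

/-- iterating the twist. -/
theorem twistU_pow (u : Kˣ) (n : ℕ) (x : LaurentSeries K) :
    twistU (u ^ n) x = (twistU u)^[n] x := by
  induction n with
  | zero => rw [pow_zero, twistU_one, Function.iterate_zero, id_eq]
  | succ n ih => rw [pow_succ', twistU_mul, ih, Function.iterate_succ_apply']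

/-- stability of a subfield under a twist of finite order implies stability under the inverse
twist. -/
theorem twistU_inv_mem_of_pow_eq_one (u : Kˣ) (M : ℕ) (hM : 0 < M) (hu : u ^ M = 1)
    (E : IntermediateField K (LaurentSeries K)) (h : ∀ x ∈ E, twistU u x ∈ E) :
    ∀ x ∈ E, twistU u⁻¹ x ∈ E := by
  intro x hx
  have hinv : u⁻¹ = u ^ (M - 1) := by
    rw [inv_eq_iff_eq_inv, eq_inv_iff_mul_eq_one, ← pow_succ', Nat.sub_add_cancel hM, hu]
  rw [hinv, twistU_pow]
  have hit : ∀ n : ℕ, ∀ y ∈ E, (twistU u)^[n] y ∈ E := by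
    intro n
    induction n with
    | zero => intro y hy; simpa using hy
    | succ n ih => intro y hy; rw [Function.iterate_succ_apply']; exact h _ (ih y hy)
  exact hit _ x hx

/-- The restriction of a twist to a stable intermediate field, as a ring automorphism. -/
def twistRingEquiv (u : Kˣ) (E : IntermediateField K (LaurentSeries K))
    (h : ∀ x ∈ E, twistU u x ∈ E) (h' : ∀ x ∈ E, twistU u⁻¹ x ∈ E) : ↥E ≃+* ↥E where
  toFun x := ⟨twistU u x, h x x.2⟩
  invFun x := ⟨twistU u⁻¹ x, h' x x.2⟩
  left_inv x := Subtype.ext (twistU_inv_twistU u x)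
  right_inv x := Subtype.ext (twistU_twistU_inv u x)
  map_mul' _ _ := Subtype.ext (map_mul (twistU u) _ _)
  map_add' _ _ := Subtype.ext (map_add (twistU u) _ _)

@[simp] theorem coe_twistRingEquiv (u : Kˣ) (E : IntermediateField K (LaurentSeries K))
    (h : ∀ x ∈ E, twistU u x ∈ E) (h' : ∀ x ∈ E, twistU u⁻¹ x ∈ E) (x : ↥E) :
    ((twistRingEquiv u E h h' x : ↥E) : LaurentSeries K) = twistU u (x : LaurentSeries K) := rfl

/-- The restriction of a twist as an algebra automorphism over any base `k` whose image is fixed. -/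
def twistAlgEquiv {k : Type*} [Field k] (u : Kˣ) (E : IntermediateField K (LaurentSeries K))
    [Algebra k ↥E] (h : ∀ x ∈ E, twistU u x ∈ E) (h' : ∀ x ∈ E, twistU u⁻¹ x ∈ E)
    (hfix : ∀ c : k, twistU u ((algebraMap k ↥E c : ↥E) : LaurentSeries K) =
      ((algebraMap k ↥E c : ↥E) : LaurentSeries K)) : ↥E ≃ₐ[k] ↥E :=
  { twistRingEquiv u E h h' with
    commutes' := fun c => Subtype.ext (hfix c) }

@[simp] theorem coe_twistAlgEquiv {k : Type*} [Field k] (u : Kˣ)
    (E : IntermediateField K (LaurentSeries K)) [Algebra k ↥E] (h : ∀ x ∈ E, twistU u x ∈ E)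
    (h' : ∀ x ∈ E, twistU u⁻¹ x ∈ E)
    (hfix : ∀ c : k, twistU u ((algebraMap k ↥E c : ↥E) : LaurentSeries K) =
      ((algebraMap k ↥E c : ↥E) : LaurentSeries K)) (x : ↥E) :
    ((twistAlgEquiv u E h h' hfix x : ↥E) : LaurentSeries K) = twistU u (x : LaurentSeries K) :=
  rfl

end Restrict

section Stab

open Fermat.Agent.DS.Igu77.DecompTop

variable {O}
variable {k : Type*} [Field k] {π : ↥O} (hπ : IsUnif O π)
  (E : IntermediateField K (LaurentSeries K)) (hE : E ≤ fracField O) [Algebra k ↥E]

/-- **Step (1) of IGU**: an automorphism of `E` which is the restriction of a twist `Q ↦ u Q` by a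
unit `u` of `O` stabilises the Gauss valuation ring of `E`. -/
theorem mem_stab_of_twistU (u : (↥O)ˣ) (σ : ↥E ≃ₐ[k] ↥E)
    (hσ : ∀ x : ↥E, ((σ x : ↥E) : LaurentSeries K) = twistU (unitK O u) (x : LaurentSeries K)) :
    σ ∈ stab (k := k) (gaussVS hπ E hE) := by
  rw [mem_stab]
  intro x
  rw [mem_gaussVS_iff, mem_gaussVS_iff, hσ, twistU_mem_gaussRing_iff]

/-- The restricted twist itself lies in the stabiliser. -/
theorem twistAlgEquiv_mem_stab (u : (↥O)ˣ) (h : ∀ x ∈ E, twistU (unitK O u) x ∈ E)
    (h' : ∀ x ∈ E, twistU (unitK O u)⁻¹ x ∈ E)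
    (hfix : ∀ c : k, twistU (unitK O u) ((algebraMap k ↥E c : ↥E) : LaurentSeries K) =
      ((algebraMap k ↥E c : ↥E) : LaurentSeries K)) :
    twistAlgEquiv (unitK O u) E h h' hfix ∈ stab (k := k) (gaussVS hπ E hE) :=
  mem_stab_of_twistU hπ E hE u _ (fun _ => rfl)

end Stab

end Fermat.Agent.DS.G.RED.Igusa.TwistGauss
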