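/-
DS / chapter G-RED, brick IGU (helper31): **constructors of `Igu77.Input.IgusaInput` from an
`SL(2,ℤ)`-action**, i.e. the glue between the concrete Galois-closure brick IGU-D (a surjective
(anti-)homomorphism `s : SL(2,ℤ) → Gal(L/k)` killing `Γ(M)` with `s T =` the twist `Q ↦ ζ Q`) and
helper77's interface.

The three fields `τ_gauss`, `norm`, `gen` of `IgusaInput` are discharged by
`TwistGauss.twistU_mem_gaussRing_iff`, `SL2Group.exists_map_conj_T_eq_pow` and
`SL2Group.normalClosure_map_T`; what remains to be supplied is exactly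

* `hT`   : `ι (s T x) = twistU ζ (ι x)`,
* `hfix` : every `β` fixing (the preimage of) `j(Q^{M²})` is `s γ` with `γ ∈ Γ₀(M)`.

`ofSL2` is the homomorphism version, `ofSL2Anti` the version for `s (γ δ) = s δ * s γ`.
-/
import Mathlib
import Fermat.Agent.DS.Igu77.Input
import Fermat.Agent.DS.G.RED.Igusa.SL2Group
import Fermat.Agent.DS.G.RED.Igusa.TwistGauss
import Fermat.Agent.DS.G.RED.Igusa.Assemble31

set_option autoImplicit false

noncomputable section

namespace Fermat.Agent.DS.G.RED.Igusa.InputOfSL2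

open HahnSeries ModularCurve IntermediateField
open Matrix Matrix.SpecialLinearGroup ModularGroup CongruenceSubgroup
open Fermat.Agent.RED.PUR.GaussGen8 Fermat.Agent.ES.KRON.KronCong24
open Fermat.Agent.DS.Igu77.Input
open Fermat.Agent.DS.G.RED.Igusa.SL2Group Fermat.Agent.DS.G.RED.Igusa.TwistGauss
open Fermat.Agent.DS.G.RED.Igusa.Assemble31

local notation "SL(" n ", " R ")" => SpecialLinearGroup (Fin n) R

variable {K : Type} [Field K] (O : ValuationSubring K) (M : ℕ) [NeZero M]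
variable {k L : Type} [Field k] [Field L] [Algebra k L] [FiniteDimensional k L] [IsGalois k L]

/-- **`IgusaInput` from a surjective homomorphism `s : SL(2,ℤ) →* Gal(L/k)`** killing `Γ(M)`, with
`s T` the restriction of the twist `Q ↦ u Q` (`u` a unit of `O`). -/
def ofSL2 (ι : L →+* LaurentSeries K) (ι_mem : ∀ x : L, ι x ∈ fracField O)
    (base_mem : ∀ c : k, ι (algebraMap k L c) ∈ K⟮qExpand K M (jqModC K)⟯)
    (base_surj : ∀ y ∈ K⟮qExpand K M (jqModC K)⟯, ∃ c : k, ι (algebraMap k L c) = y)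
    (full : ∀ y ∈ E0V K M, ∃ x : L, ι x = y)
    (s : SL(2,ℤ) →* (L ≃ₐ[k] L)) (hsurj : Function.Surjective s) (hker : Gamma M ≤ s.ker)
    (u : (↥O)ˣ) (hT : ∀ x : L, ι (s T x) = twistU (unitK O u) (ι x))
    (hfix : ∀ β : L ≃ₐ[k] L, (∀ x : L, ι x = qExpand K (M * M) (jqModC K) → β x = x) →
      ∃ γ ∈ Gamma0 M, s γ = β) : IgusaInput K O M where
  k := k
  L := L
  ι := ι
  ι_mem := ι_mem
  base_mem := base_mem
  base_surj := base_surj
  full := full
  τ := s T
  τ_gauss := fun x => by rw [hT, twistU_mem_gaussRing_iff]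
  norm := fun β hβ => by
    obtain ⟨γ, hγ, rfl⟩ := hfix β hβ
    exact exists_map_conj_T_eq_pow s M hker γ hγ
  gen := normalClosure_map_T s hsurj

/-- **`IgusaInput` from a surjective anti-homomorphism** `s (γ δ) = s δ * s γ`. -/
def ofSL2Anti (ι : L →+* LaurentSeries K) (ι_mem : ∀ x : L, ι x ∈ fracField O)
    (base_mem : ∀ c : k, ι (algebraMap k L c) ∈ K⟮qExpand K M (jqModC K)⟯)
    (base_surj : ∀ y ∈ K⟮qExpand K M (jqModC K)⟯, ∃ c : k, ι (algebraMap k L c) = y)
    (full : ∀ y ∈ E0V K M, ∃ x : L, ι x = y)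
    (s : SL(2,ℤ) → (L ≃ₐ[k] L)) (h1 : s 1 = 1)
    (hmul : ∀ γ δ : SL(2,ℤ), s (γ * δ) = s δ * s γ)
    (hsurj : Function.Surjective s) (hker : ∀ γ ∈ Gamma M, s γ = 1)
    (u : (↥O)ˣ) (hT : ∀ x : L, ι (s T x) = twistU (unitK O u) (ι x))
    (hfix : ∀ β : L ≃ₐ[k] L, (∀ x : L, ι x = qExpand K (M * M) (jqModC K) → β x = x) →
      ∃ γ ∈ Gamma0 M, s γ = β) : IgusaInput K O M where
  k := k
  L := L
  ι := ι
  ι_mem := ι_mem
  base_mem := base_mem
  base_surj := base_surj
  full := full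
  τ := s T
  τ_gauss := fun x => by rw [hT, twistU_mem_gaussRing_iff]
  norm := fun β hβ => by
    obtain ⟨γ, hγ, rfl⟩ := hfix β hβ
    have hker' : Gamma M ≤ (homOfAnti s h1 hmul).ker := by
      intro δ hδ
      rw [MonoidHom.mem_ker, homOfAnti_apply]
      exact hker _ (inv_mem hδ)
    have h := map_conj_T_eq_pow' (homOfAnti s h1 hmul) M hker' γ hγ
    rw [homOfAnti_apply, homOfAnti_apply, anti_inv s h1 hmul, anti_inv s h1 hmul, inv_inv] at h
    refine ⟨(γ 1 1).natAbs ^ 2, ?_⟩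
    have h2 := congrArg (fun g => g⁻¹) h
    simp only [_root_.mul_inv_rev, inv_inv, inv_pow] at h2
    rw [← h2, mul_assoc]
  gen := by
    have h := normalClosure_map_T_inv (homOfAnti s h1 hmul) (by
      intro β
      obtain ⟨γ, rfl⟩ := hsurj β
      exact ⟨γ⁻¹, by rw [homOfAnti_apply, inv_inv]⟩)
    rwa [homOfAnti_apply, inv_inv] at h

end Fermat.Agent.DS.G.RED.Igusa.InputOfSL2
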