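/-
Programme DS (S48), chapter G-RED / Igusa, brick IGU-INST (bricks row 390), helper90.

**The `IgusaInput` of the level `±Γ₁(M)`** (`DS/X1/Level1`, `DS/X1/Inst13`): the adapter from
helper30's Galois closure (`GaloisClosure30A–D`: `Ltop / kJ` finite Galois with group the image of
`s : SL(2,ℤ) →* Gal`) to helper77's interface `Igu77.Input.IgusaInput` through helper31's
constructor `InputOfSL2.ofSL2`, with

* `ι_mem`  from helper27's `GabCuspFrac27.cuspData1_T_mem_fracField` (bounded denominators at all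
  cusps) + `GaloisClosure30D.Ltop_le_of_T_mem`;
* `full`   from `GaloisClosure30C.T_one` (`C.T 1 = (q ↦ Q^M)`) and
  `Level1.modularFunctionFieldFullC_le`;
* `hT`     from `GaloisClosure30C.s_T_coe` (`s T` = the twist `Q ↦ ζ⁻¹ Q`);
* `hfix`   from `GaloisClosure30C.exists_s_eq` and `AnalyticGens13.mem_Gamma0_of_compSL_jdFun_eq`.

Main results: `igusaInput1 M O ι hι ζ hζ : IgusaInput K O M` for every field `K ⊇ ℚ` with an
injective `ι : K →+* ℂ`, `ι ζ = exp(2πi/M)`, and every valuation subring `O` of `K`;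
`igusaInput1_hE1L` (`V(K·F₁(M)) ⊆ ι(L)`).
-/
import Mathlib
import Fermat.Agent.DS.G.RED.Igusa.GaloisClosure30D
import Fermat.Agent.DS.G.RED.Igusa.InputOfSL2
import Fermat.Agent.DS.X1.GabCuspFrac27
import Fermat.Agent.DS.X1.Inst13

set_option autoImplicit false
set_option linter.unusedSectionVars false

open HahnSeries ModularCurve UpperHalfPlane IntermediateField
open scoped MatrixGroups

noncomputable section

namespace Fermat.Agent.DS.G.RED.Igusa.Inst90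

open Fermat.Agent.X0 Fermat.Agent.X0.Analytic
open Fermat.Agent.DS.G.Level
open Fermat.Agent.DS.X1.Level1 Fermat.Agent.DS.X1.AnalyticGens13 Fermat.Agent.DS.X1.Inst13
open Fermat.Agent.DS.X1.GabCuspFrac27
open Fermat.Agent.RED.PUR.GaussGen8 Fermat.Agent.ES.KRON.KronCong24
open Fermat.Agent.DS.Igu77.Input
open Fermat.Agent.DS.G.RED.Igusa.GaloisClosure30A Fermat.Agent.DS.G.RED.Igusa.GaloisClosure30B
  Fermat.Agent.DS.G.RED.Igusa.GaloisClosure30C Fermat.Agent.DS.G.RED.Igusa.GaloisClosure30D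
open Fermat.Agent.DS.G.RED.Igusa.TwistGauss Fermat.Agent.DS.G.RED.Igusa.InputOfSL2

variable (M : ℕ) [NeZero M] {K : Type} [Field K] [Algebra ℚ K] (O : ValuationSubring K)
  (ι : K →+* ℂ) (hι : Function.Injective ι) (ζ : K)
  (hζ : ι ζ = Fermat.Agent.X0.QExpAffine.zetaC M)

/-! ### The root of unity as a unit of `O` -/

include hζ in
theorem zeta_ne_zero : ζ ≠ 0 := by
  rintro rfl
  have h := zeta_pow_eq_one ι M hζ
  rw [zero_pow (NeZero.ne M)] at h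
  exact zero_ne_one h

include hζ in
theorem zeta_mem : ζ ∈ O :=
  mem_of_pow_eq_one O (Nat.pos_of_ne_zero (NeZero.ne M)) (zeta_pow_eq_one ι M hζ)

include hζ in
theorem zeta_inv_mem : ζ⁻¹ ∈ O := by
  apply mem_of_pow_eq_one O (Nat.pos_of_ne_zero (NeZero.ne M))
  rw [inv_pow, zeta_pow_eq_one ι M hζ, inv_one]

/-- `ζ⁻¹` as a unit of `O`. -/
def zetaInvUnit : (↥O)ˣ where
  val := ⟨ζ⁻¹, zeta_inv_mem M O ι ζ hζ⟩
  inv := ⟨ζ, zeta_mem M O ι ζ hζ⟩
  val_inv := Subtype.ext (inv_mul_cancel₀ (zeta_ne_zero M ι ζ hζ))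
  inv_val := Subtype.ext (mul_inv_cancel₀ (zeta_ne_zero M ι ζ hζ))

theorem coe_unitK_zetaInvUnit : ((unitK O (zetaInvUnit M O ι ζ hζ) : Kˣ) : K) = ζ⁻¹ := rfl

omit [Algebra ℚ K] in
theorem twistU_eq_twist (u : Kˣ) (x : LaurentSeries K) :
    twistU u x = Fermat.Agent.X0.CuspEquiv.twist (u : K) u.ne_zero x := by
  ext n
  rw [Fermat.Agent.X0.CuspEquiv.twist_coeff]
  show ((u ^ n : Kˣ) : K) * x.coeff n = _
  rw [Units.val_zpow_eq_zpow_val]

/-! ### The data of `L1 M` -/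

/-- The realisation of `L1 M`. -/
abbrev D1 : RealizeDataL (L1 M) K ι := realizeData1 M K ι hι ζ hζ

/-- The cusp expansions of `L1 M`. -/
abbrev C1 : CuspDataL (L1 M) K ι (D1 M ι hι ζ hζ) := cuspData1 M K ι hι ζ hζ

/-- The generator `j(q^M)` of `L1 M`, as an element of `R`. -/
def jMR : Rsubc (L1 M) K := genR (L1 M) K (jGenD M (dvd_refl M))

theorem coe_jMR : (((jMR M : Rsubc (L1 M) K) : FFc (L1 M) K) : LaurentSeries K) =
    qExpand K M (jqModC K) := by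
  show coeffEmb K (jDC ℚ M) = _
  rw [coeffEmb_jDC]
  rfl

theorem T_one_jMR :
    (C1 M ι hι ζ hζ).T 1 ((jMR M : Rsubc (L1 M) K) : FFc (L1 M) K) =
      qExpand K (M * M) (jqModC K) := by
  rw [T_one_R (D1 M ι hι ζ hζ) (C1 M ι hι ζ hζ) (jMR M), coe_jMR M]
  show qExpand K M (qExpand K M (jqModC K)) = qExpand K (M * M) (jqModC K)
  rw [qExpand_qExpand]

theorem Θ_jMR : (D1 M ι hι ζ hζ).Θ (jMR M) = jdFun M := by
  show (realizeData1 M K ι hι ζ hζ).Θ (genR (L1 M) K (jGenD M (dvd_refl M))) = _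
  rw [realizeData1_genR, gFun_jGenD]

/-! ### The `IgusaInput` -/

/-- **The `IgusaInput` of the level `±Γ₁(M)`** over any field `K ∋ ζ_M` of characteristic zero
embedded in `ℂ`, for any valuation subring `O` of `K`. -/
def igusaInput1 : IgusaInput K O M :=
  ofSL2 O M (k := ↥(kJ K (L1 M).w))
    (L := ↥(Ltop (D1 M ι hι ζ hζ) (C1 M ι hι ζ hζ)))
    (algebraMap ↥(Ltop (D1 M ι hι ζ hζ) (C1 M ι hι ζ hζ)) (LaurentSeries K))
    (fun x => Ltop_le_of_T_mem (D1 M ι hι ζ hζ) (C1 M ι hι ζ hζ) (fracField O).toSubfield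
      (fun γ u => cuspData1_T_mem_fracField M O ι hι ζ hζ γ (u : FFc (L1 M) K)) x.2)
    (fun c => c.2)
    (fun y hy => ⟨⟨y, hy⟩, rfl⟩)
    (by
      rintro y ⟨x, hx, rfl⟩
      have hx' : x ∈ laurentBaseChange K (L1 M).F₀ := by
        rw [laurentBaseChange_L1]
        exact modularFunctionFieldFullC_le M K hx
      refine ⟨⟨(C1 M ι hι ζ hζ).T 1 ⟨x, hx'⟩,
        T_mem_Ltop (D1 M ι hι ζ hζ) (C1 M ι hι ζ hζ) 1 ⟨x, hx'⟩⟩, ?_⟩
      show (C1 M ι hι ζ hζ).T 1 ⟨x, hx'⟩ = qExpand K M x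
      rw [T_one]
      rfl)
    (s (D1 M ι hι ζ hζ) (C1 M ι hι ζ hζ))
    (s_surjective (D1 M ι hι ζ hζ) (C1 M ι hι ζ hζ))
    (Gamma_le_ker (D1 M ι hι ζ hζ) (C1 M ι hι ζ hζ))
    (zetaInvUnit M O ι ζ hζ)
    (fun x => by
      show ((s (D1 M ι hι ζ hζ) (C1 M ι hι ζ hζ) ModularGroup.T x :
        Ltop (D1 M ι hι ζ hζ) (C1 M ι hι ζ hζ)) : LaurentSeries K) = _
      rw [s_T_coe (D1 M ι hι ζ hζ) (C1 M ι hι ζ hζ) hζ (zeta_ne_zero M ι ζ hζ), twistU_eq_twist]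
      rfl)
    (fun β hβ => by
      obtain ⟨δ, rfl, hδ⟩ := exists_s_eq (D1 M ι hι ζ hζ) (C1 M ι hι ζ hζ) β
      refine ⟨δ, ?_, rfl⟩
      have h1 := hδ (jMR M) (hβ _ (T_one_jMR M ι hι ζ hζ))
      rw [Θ_jMR] at h1
      have h2 := mem_Gamma0_of_compSL_jdFun_eq M 1 δ (by
        rw [h1]
        funext z
        simp only [compSL, one_smul])
      rwa [inv_one, mul_one] at h2)

/-- **`V(K · F₁(M)) ⊆ ι(L)`**: the hypothesis `hE1L` of `Igu77.Final` / `GaussInputsOfIgusa`. -/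
theorem igusaInput1_hE1L (y : LaurentSeries K) (hy : y ∈ laurentBaseChange K (L1 M).F₀) :
    ∃ b : (igusaInput1 M O ι hι ζ hζ).L, (igusaInput1 M O ι hι ζ hζ).ι b = qExpand K M y := by
  refine ⟨⟨(C1 M ι hι ζ hζ).T 1 ⟨y, hy⟩,
    T_mem_Ltop (D1 M ι hι ζ hζ) (C1 M ι hι ζ hζ) 1 ⟨y, hy⟩⟩, ?_⟩
  show (C1 M ι hι ζ hζ).T 1 ⟨y, hy⟩ = qExpand K M y
  rw [T_one]
  rfl

end Fermat.Agent.DS.G.RED.Igusa.Inst90
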