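/-
Programme DS (S48), chapter G-RED / Igusa, brick IGU-INST (bricks row 390), helper90.

**`GaussInputs (L1 M).F₀ A`**: the arithmetic inputs (DEG)+(IRR) of the MODEL assembly
(`DS/G/RED/ModelMain4`) for the level `±Γ₁(M)` at a place `A` of `ℚ̄` over `ℓ ∤ M`, from the Igusa
chapter: `Inst90.igusaInput1` over every number field `K ∋ ζ_M` plugged into helper77's
`GaussInputsOfIgusa.gaussInputs_of_igusaInput`.
-/
import Mathlib
import Fermat.Agent.DS.G.RED.Igusa.Inst90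
import Fermat.Agent.DS.G.RED.GaussInputsOfIgusa
import Fermat.Agent.DS.G.ES.RED.GaussUnit25
import Fermat.Agent.DS.G.X0.DegreeLc

set_option autoImplicit false
set_option linter.unusedSectionVars false

open HahnSeries ModularCurve UpperHalfPlane IntermediateField
open scoped MatrixGroups

noncomputable section

namespace Fermat.Agent.DS.G.RED.Igusa.InstGauss90

open Fermat.Agent.X0
open Fermat.Agent.RED.Interface4 (Qbar AK)
open Fermat.Agent.RED.PUR.GaussGen8
open Fermat.Agent.DS.G.Level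
open Fermat.Agent.DS.X1.Level1 Fermat.Agent.DS.X1.Inst13
open Fermat.Agent.DS.G.RED.ModelTargets4 Fermat.Agent.DS.G.RED.ModelMain4
open Fermat.Agent.DS.G.RED.GaussInputsOfIgusa
open Fermat.Agent.DS.Igu77.Input
open Fermat.Agent.DS.G.RED.Igusa.Inst90

variable (M : ℕ) [NeZero M]

/-- The number field `ℚ(ζ_M) ⊂ ℚ̄`. -/
def K0 : IntermediateField ℚ Qbar := ℚ⟮zetaK1 M⟯

instance finiteDimensional_K0 : FiniteDimensional ℚ (K0 M) := by
  have : Algebra.IsAlgebraic ℚ Qbar := AlgebraicClosure.isAlgebraic ℚ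
  exact IntermediateField.adjoin.finiteDimensional
    (Algebra.IsIntegral.isIntegral (R := ℚ) (zetaK1 M))

section Field

variable (K : IntermediateField ℚ Qbar) (hle : K0 M ≤ K)

/-- The embedding `K → ℂ`. -/
def iotaOf : ↥K →+* ℂ := iotaK.comp (algebraMap ↥K Qbar)

theorem iotaOf_injective : Function.Injective (iotaOf K) := (iotaOf K).injective

/-- `ζ_M ∈ K`. -/
def zetaOf : ↥K := ⟨zetaK1 M, hle (IntermediateField.mem_adjoin_simple_self ℚ (zetaK1 M))⟩

theorem iotaOf_zetaOf : iotaOf K (zetaOf M K hle) = Fermat.Agent.X0.QExpAffine.zetaC M :=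
  iotaK_zetaK1 M

/-- `K · F₁(M) ⊂ Frac A_K((q))`. -/
theorem FK_le_fracField (A : ValuationSubring Qbar) :
    FK (L1 M).F₀ K ≤ fracField (AK A K) := by
  show laurentBaseChange ↥K (L1 M).F₀ ≤ _
  rw [laurentBaseChange_L1]
  exact Fermat.Agent.DS.G.ES.RED.GaussUnit25.FC_le_fracField (X1gens M) (AK A K)

/-- `j ∈ K · F₁(M)`. -/
theorem jq_mem_FK : jqModC ↥K ∈ FK (L1 M).F₀ K := by
  have h : ((jFc (L1 M) ↥K : FFc (L1 M) ↥K) : LaurentSeries ↥K) = jqModC ↥K := by
    rw [Fermat.Agent.DS.G.X0.DegreeLc.coe_jFc', Fermat.Agent.DS.G.X0.DegreeLc.jqc_eq_jqModC]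
  rw [← h]
  exact (jFc (L1 M) ↥K).2

end Field

/-- **The arithmetic inputs of MODEL for `±Γ₁(M)`** at a place over `ℓ ∤ M`. -/
theorem gaussInputs_L1 {ℓ : ℕ} [Fact ℓ.Prime] {A : ValuationSubring Qbar}
    (hA : A.LiesOverPrime ℓ) (hℓM : ¬ ℓ ∣ M) : GaussInputs (L1 M).F₀ A := by
  refine gaussInputs_of_igusaInput hA M hℓM ⟨K0 M, inferInstance, fun K _ hle => ?_⟩
  refine ⟨FK_le_fracField M K A, jq_mem_FK M K,
    igusaInput1 M (AK A K) (iotaOf K) (iotaOf_injective K) (zetaOf M K hle)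
      (iotaOf_zetaOf M K hle), fun y hy => ?_⟩
  exact igusaInput1_hE1L M (AK A K) (iotaOf K) (iotaOf_injective K) (zetaOf M K hle)
    (iotaOf_zetaOf M K hle) y hy

end Fermat.Agent.DS.G.RED.Igusa.InstGauss90
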