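/-
Programme DS (S48), chapter G-RED, sub-programme IGUSA, brick IGU-B (abstract half), helper29.

**Residue degree = degree, abstractly.**  `F / F₀` finite separable of degree `n`, `S` a valuation
subring of `F`, `A₀ = S ∩ F₀`, `ϖ ∈ F₀` a uniformiser of `S` (every non-unit of `S` is a multiple of
`ϖ`, `⋂ ϖ^m S = 0`), every element of `S` integral over `A₀` (this is the "unique extension"
hypothesis), `ρ : S → Λ` a ring hom into a field killing exactly the non-units.  Then there are `n`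
elements of `S` whose residues are linearly independent over the residues of `A₀`
(`exists_residually_independent`): `e = 1` and no defect, so `f = n`.
-/
import Mathlib

set_option autoImplicit false
set_option linter.style.haveILetI false

open Module Polynomial

namespace Fermat.Agent.DS.G.RED.Igusa.IrrAbstract

variable {F₀ F : Type*} [Field F₀] [Field F] [Algebra F₀ F]

/-- the trace of a valuation subring on the base field. -/
abbrev cut (S : ValuationSubring F) : ValuationSubring F₀ := S.comap (algebraMap F₀ F)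

theorem mem_cut_iff (S : ValuationSubring F) (x : F₀) :
    x ∈ cut (F₀ := F₀) S ↔ algebraMap F₀ F x ∈ S := ValuationSubring.mem_comap

section DVR

variable (S : ValuationSubring F) (ϖ : F₀)
  (hϖ0 : ϖ ≠ 0) (hϖS : algebraMap F₀ F ϖ ∈ S) (hϖn : (algebraMap F₀ F ϖ)⁻¹ ∉ S)
  (hunif : ∀ x ∈ S, x⁻¹ ∉ S → ∃ c ∈ S, x = algebraMap F₀ F ϖ * c)
  (harch : ∀ x ∈ S, x ≠ 0 → ∃ m : ℕ, ((algebraMap F₀ F ϖ) ^ m)⁻¹ * x ∉ S)

include hϖ0 hunif harch in
/-- every nonzero element of `S` is `ϖ ^ m` times a unit of `S`. -/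
theorem exists_pow_mul_unit {x : F} (hx : x ∈ S) (hx0 : x ≠ 0) :
    ∃ (m : ℕ) (u : F), u ∈ S ∧ u⁻¹ ∈ S ∧ x = (algebraMap F₀ F ϖ) ^ m * u := by
  classical
  have hp0 : algebraMap F₀ F ϖ ≠ 0 := by
    rwa [Ne, map_eq_zero]
  obtain ⟨m, hm⟩ := harch x hx hx0
  -- least `m` with `ϖ^{-m} x ∉ S`
  let P : ℕ → Prop := fun m => ((algebraMap F₀ F ϖ) ^ m)⁻¹ * x ∉ S
  have hP : ∃ m, P m := ⟨m, hm⟩
  have hmin : ∀ {m : ℕ}, m < Nat.find hP → ¬ P m := fun h => Nat.find_min hP h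
  have hspec : P (Nat.find hP) := Nat.find_spec hP
  have hpos : Nat.find hP ≠ 0 := by
    intro h0
    have := hspec
    rw [h0] at this
    apply this
    simpa using hx
  obtain ⟨r, hr⟩ := Nat.exists_eq_succ_of_ne_zero hpos
  have hrP : ¬ P r := hmin (by omega)
  have hy : ((algebraMap F₀ F ϖ) ^ r)⁻¹ * x ∈ S := not_not.mp hrP
  set y := ((algebraMap F₀ F ϖ) ^ r)⁻¹ * x with hydef
  have hy0 : y ≠ 0 := mul_ne_zero (inv_ne_zero (pow_ne_zero _ hp0)) hx0
  refine ⟨r, y, hy, ?_, ?_⟩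
  · by_contra hyinv
    obtain ⟨c, hc, hyc⟩ := hunif y hy hyinv
    apply hspec
    show ((algebraMap F₀ F ϖ) ^ (Nat.find hP))⁻¹ * x ∈ S
    have : ((algebraMap F₀ F ϖ) ^ (Nat.find hP))⁻¹ * x = c := by
      rw [hr, pow_succ, mul_inv, mul_comm ((algebraMap F₀ F ϖ) ^ r)⁻¹, mul_assoc, ← hydef, hyc,
        ← mul_assoc, inv_mul_cancel₀ hp0, one_mul]
    rw [this]
    exact hc
  · rw [hydef, ← mul_assoc, mul_inv_cancel₀ (pow_ne_zero _ hp0), one_mul]

include hϖ0 hϖS hϖn hunif harch in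
/-- `A₀ = S ∩ F₀` is a discrete valuation ring. -/
theorem isDiscreteValuationRing_cut : IsDiscreteValuationRing ↥(cut (F₀ := F₀) S) := by
  have hp0 : algebraMap F₀ F ϖ ≠ 0 := by
    rwa [Ne, map_eq_zero]
  let p : ↥(cut (F₀ := F₀) S) := ⟨ϖ, (mem_cut_iff S ϖ).mpr hϖS⟩
  have hpnu : ¬ IsUnit p := by
    intro hu
    obtain ⟨v, hv⟩ := hu.exists_right_inv
    have h1 : ϖ * (v : F₀) = 1 := congrArg Subtype.val hv
    have h2 : (algebraMap F₀ F ϖ)⁻¹ = algebraMap F₀ F (v : F₀) := by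
      rw [inv_eq_iff_eq_inv, ← map_inv₀]
      congr 1
      exact eq_inv_of_mul_eq_one_left h1
    apply hϖn
    rw [h2]
    exact (mem_cut_iff S _).mp v.2
  -- every nonzero element is `p ^ m * unit`
  have hfact : ∀ x : ↥(cut (F₀ := F₀) S), x ≠ 0 → ∃ m : ℕ, Associated (p ^ m) x := by
    intro x hx0
    have hxS : algebraMap F₀ F (x : F₀) ∈ S := (mem_cut_iff S _).mp x.2
    have hx0' : algebraMap F₀ F (x : F₀) ≠ 0 := by
      rw [Ne, map_eq_zero]
      exact fun h => hx0 (Subtype.ext h)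
    obtain ⟨m, u, hu, hui, hxu⟩ := exists_pow_mul_unit S ϖ hϖ0 hunif harch hxS hx0'
    -- `u ∈ F₀`
    have hu' : u = algebraMap F₀ F ((x : F₀) * (ϖ ^ m)⁻¹) := by
      rw [map_mul, map_inv₀, map_pow, hxu]
      field_simp
    set u₀ : F₀ := (x : F₀) * (ϖ ^ m)⁻¹ with hu₀
    have hu₀S : u₀ ∈ cut (F₀ := F₀) S := (mem_cut_iff S _).mpr (hu' ▸ hu)
    have hu₀iS : u₀⁻¹ ∈ cut (F₀ := F₀) S := by
      rw [mem_cut_iff, map_inv₀, ← hu']
      exact hui
    have hu₀0 : u₀ ≠ 0 := by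
      intro h
      rw [h, map_zero] at hu'
      rw [hu', mul_zero] at hxu
      exact hx0' hxu
    refine ⟨m, ?_⟩
    refine ⟨⟨⟨u₀, hu₀S⟩, ⟨u₀⁻¹, hu₀iS⟩, Subtype.ext (mul_inv_cancel₀ hu₀0),
      Subtype.ext (inv_mul_cancel₀ hu₀0)⟩, ?_⟩
    apply Subtype.ext
    show ϖ ^ m * u₀ = (x : F₀)
    rw [hu₀]
    field_simp
  have hirr : Irreducible p := by
    refine ⟨hpnu, fun a b hab => ?_⟩
    by_contra hcon
    push Not at hcon
    obtain ⟨ha, hb⟩ := hcon
    have ha0 : a ≠ 0 := by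
      rintro rfl
      rw [zero_mul] at hab
      exact hϖ0 (congrArg Subtype.val hab)
    have hb0 : b ≠ 0 := by
      rintro rfl
      rw [mul_zero] at hab
      exact hϖ0 (congrArg Subtype.val hab)
    obtain ⟨m, hm⟩ := hfact a ha0
    obtain ⟨m', hm'⟩ := hfact b hb0
    have hm0 : m ≠ 0 := by
      rintro rfl
      rw [pow_zero] at hm
      exact ha (hm.isUnit_iff.mp isUnit_one)
    have hm'0 : m' ≠ 0 := by
      rintro rfl
      rw [pow_zero] at hm'
      exact hb (hm'.isUnit_iff.mp isUnit_one)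
    have h1 : Associated (p ^ (m + m')) p := by
      have h0 : Associated (p ^ (m + m')) (a * b) := by
        rw [pow_add]
        exact hm.mul_mul hm'
      rwa [← hab] at h0
    obtain ⟨v, hv⟩ := h1
    -- `p ^ (m + m' - 1) * v = 1`
    have hp0' : p ≠ 0 := fun h => hϖ0 (congrArg Subtype.val h)
    have h2 : p * (p ^ (m + m' - 1) * v) = p * 1 := by
      rw [← mul_assoc, ← pow_succ', mul_one]
      have : m + m' - 1 + 1 = m + m' := by omega
      rw [this]
      exact hv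
    have h3 := mul_left_cancel₀ hp0' h2
    have h4 : IsUnit (p ^ (m + m' - 1)) := IsUnit.of_mul_eq_one _ h3
    have h5 : m + m' - 1 ≠ 0 := by omega
    exact hpnu ((isUnit_pow_iff h5).mp h4)
  exact IsDiscreteValuationRing.ofHasUnitMulPowIrreducibleFactorization
    ⟨p, hirr, fun {x} hx => hfact x hx⟩

end DVR

section Main

variable [FiniteDimensional F₀ F] [Algebra.IsSeparable F₀ F]
  (S : ValuationSubring F) (ϖ : F₀)
  (hϖ0 : ϖ ≠ 0) (hϖS : algebraMap F₀ F ϖ ∈ S) (hϖn : (algebraMap F₀ F ϖ)⁻¹ ∉ S)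
  (hunif : ∀ x ∈ S, x⁻¹ ∉ S → ∃ c ∈ S, x = algebraMap F₀ F ϖ * c)
  (harch : ∀ x ∈ S, x ≠ 0 → ∃ m : ℕ, ((algebraMap F₀ F ϖ) ^ m)⁻¹ * x ∉ S)
  (hint : ∀ x ∈ S, ∃ p : F₀[X], p.Monic ∧ (∀ m, p.coeff m ∈ cut (F₀ := F₀) S) ∧
    Polynomial.aeval x p = 0)

include hϖ0 hϖS hϖn hunif harch hint in
/-- **`f = n`**: there are `n = [F : F₀]` elements of `S` which are linearly independent modulo `ϖ`
over `A₀ = S ∩ F₀`: a relation `∑ cᵢ eᵢ ∈ ϖ S` with `cᵢ ∈ A₀` forces all `cᵢ ∈ ϖ A₀`. -/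
theorem exists_independent_mod :
    ∃ e : Fin (finrank F₀ F) → F, (∀ i, e i ∈ S) ∧
      ∀ c : Fin (finrank F₀ F) → F₀, (∀ i, c i ∈ cut (F₀ := F₀) S) →
        (∃ z ∈ S, ∑ i, algebraMap F₀ F (c i) * e i = algebraMap F₀ F ϖ * z) →
        ∀ i, ∃ d ∈ cut (F₀ := F₀) S, c i = ϖ * d := by
  classical
  set A₀ := cut (F₀ := F₀) S with hA₀
  have hdvr : IsDiscreteValuationRing ↥A₀ :=
    isDiscreteValuationRing_cut S ϖ hϖ0 hϖS hϖn hunif harch
  -- algebra structures
  let φ : ↥A₀ →+* ↥S :=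
    { toFun := fun a => ⟨algebraMap F₀ F (a : F₀), (mem_cut_iff S _).mp a.2⟩
      map_one' := Subtype.ext (map_one _)
      map_mul' := fun a b => Subtype.ext (map_mul _ _ _)
      map_zero' := Subtype.ext (map_zero _)
      map_add' := fun a b => Subtype.ext (map_add _ _ _) }
  letI algAS : Algebra ↥A₀ ↥S := φ.toAlgebra
  letI algAF : Algebra ↥A₀ F := ((algebraMap F₀ F).comp A₀.subtype).toAlgebra
  haveI t1 : IsScalarTower ↥A₀ F₀ F := IsScalarTower.of_algebraMap_eq fun a => rfl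
  haveI t2 : IsScalarTower ↥A₀ ↥S F := IsScalarTower.of_algebraMap_eq fun a => rfl
  haveI hic : IsIntegralClosure ↥S ↥A₀ F :=
    { algebraMap_injective := Subtype.val_injective
      isIntegral_iff := by
        intro x
        constructor
        · intro hx
          have hxS : IsIntegral ↥S x := hx.tower_top
          obtain ⟨y, hy⟩ := (IsIntegrallyClosed.isIntegral_iff (R := ↥S) (K := F)).mp hxS
          exact ⟨y, hy⟩
        · rintro ⟨y, rfl⟩
          obtain ⟨p, hpm, hpc, hpe⟩ := hint (y : F) y.2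
          -- lift `p` to `A₀[X]`
          have hlift : p ∈ Polynomial.lifts (algebraMap ↥A₀ F₀) := by
            rw [Polynomial.lifts_iff_coeff_lifts]
            intro m
            exact ⟨⟨p.coeff m, hpc m⟩, rfl⟩
          obtain ⟨q, hq, -, hqm⟩ := Polynomial.lifts_and_degree_eq_and_monic hlift hpm
          refine ⟨q, hqm, ?_⟩
          have : Polynomial.eval₂ (algebraMap ↥A₀ F) (y : F) q =
              Polynomial.aeval (y : F) (q.map (algebraMap ↥A₀ F₀)) := by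
            rw [Polynomial.aeval_def, Polynomial.eval₂_map, ← IsScalarTower.algebraMap_eq]
          show Polynomial.eval₂ (algebraMap ↥A₀ F) (algebraMap ↥S F y) q = 0
          rw [show algebraMap ↥S F y = (y : F) from rfl, this, hq, hpe] }
  haveI htf : Module.IsTorsionFree ↥A₀ F := by
    have hinj : Function.Injective (algebraMap ↥A₀ F) :=
      (algebraMap F₀ F).injective.comp Subtype.val_injective
    exact Module.isTorsionFree_iff_algebraMap_injective.mpr hinj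
  haveI hfree : Module.Free ↥A₀ ↥S := IsIntegralClosure.module_free ↥A₀ F₀ F ↥S
  have hrank : finrank ↥A₀ ↥S = finrank F₀ F := IsIntegralClosure.rank ↥A₀ F₀ F ↥S
  haveI hfin : Module.Finite ↥A₀ ↥S := IsIntegralClosure.finite ↥A₀ F₀ F ↥S
  let b : Basis (Fin (finrank F₀ F)) ↥A₀ ↥S := by
    rw [← hrank]
    exact Module.finBasis ↥A₀ ↥S
  refine ⟨fun i => (b i : F), fun i => (b i).2, ?_⟩
  intro c hc ⟨z, hz, hrel⟩ i
  -- expand `z` in the basis
  have hz' : (⟨z, hz⟩ : ↥S) = ∑ j, b.repr ⟨z, hz⟩ j • b j := (b.sum_repr _).symm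
  let p : ↥A₀ := ⟨ϖ, (mem_cut_iff S ϖ).mpr hϖS⟩
  have h1 : ∑ j, (⟨c j, hc j⟩ : ↥A₀) • b j = ∑ j, (p * b.repr ⟨z, hz⟩ j) • b j := by
    apply Subtype.ext
    have e1 : ((∑ j, (⟨c j, hc j⟩ : ↥A₀) • b j : ↥S) : F) =
        ∑ j, algebraMap F₀ F (c j) * (b j : F) := by
      rw [AddSubmonoidClass.coe_finsetSum]
      rfl
    have e2 : ((∑ j, (p * b.repr ⟨z, hz⟩ j) • b j : ↥S) : F) =
        algebraMap F₀ F ϖ * z := by
      have : (∑ j, (p * b.repr ⟨z, hz⟩ j) • b j : ↥S) = p • ∑ j, b.repr ⟨z, hz⟩ j • b j := by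
        rw [Finset.smul_sum]
        exact Finset.sum_congr rfl fun j _ => mul_smul _ _ _
      rw [this, ← hz']
      rfl
    rw [e1, e2, hrel]
  have h2 := b.ext_elem_iff.mp h1 i
  simp only [map_sum, map_smul, Basis.repr_self, Finsupp.smul_single, smul_eq_mul, mul_one,
    Finsupp.coe_finsetSum, Finset.sum_apply, Finsupp.single_apply, Finset.sum_ite_eq',
    Finset.mem_univ, if_true] at h2
  refine ⟨(b.repr ⟨z, hz⟩ i : F₀), (b.repr ⟨z, hz⟩ i).2, ?_⟩
  have := congrArg Subtype.val h2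
  simpa using this

end Main

end Fermat.Agent.DS.G.RED.Igusa.IrrAbstract
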