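/-
Programme DS (S48), GEO / IGUSA plan, brick IG-Z (helper55): the two-chart Zariski idempotent lemma.

Setting: a Noetherian ring `O` with a prime element `π`, a field `E` which is an `O`-algebra,
`O`-subalgebras `B0, B1 ≤ B01` of `E` and `t ∈ B0` with `t⁻¹ ∈ B1` such that

* `B01 = B0[1/t] = B1[t]`,
* `B0` is module-finite over `O[t]`,
* `B0 ∩ B1 = O` and `π B0 ∩ O = π O`.

(Think of the two standard charts of a normal model of a curve over a discrete valuation ring `O`,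
finite over the projective `t`-line.)  Then the special fibre is connected:
every idempotent `(a, b)` of `{(a, b) ∈ B0/π × B1/π | a = b in B01/π}` is `(0, 0)` or `(1, 1)`
(`idempotent_trivial`, stated with representatives).

Proof.  `H¹ = B01 / (B0 + B1)` is a finitely generated `O`-module, so its `π`-power torsion is killed
by some `π^N`.  Lift the idempotent to idempotents modulo `π^(N+1)` of `B0` and `B1` (Newton iteration
`x ↦ 3x² - 2x³`); by uniqueness of idempotent lifts they agree in `B01` modulo `π^(N+1)`, i.e.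
`A - B = π^(N+1) x`, `x ∈ B01`.  The class of `x` in `H¹` is `π`-power torsion, hence `π^N x ∈ B0 + B1`:
`(A - B)/π = α + β`.  Then `h = A - π α = B + π β ∈ B0 ∩ B1 = O` is idempotent modulo `π`, so
`h ≡ 0` or `1`.
-/
import Mathlib

set_option autoImplicit false

namespace Fermat.Agent.DS.G.RED.Igusa.ZariskiIdem

variable {O E : Type*} [CommRing O] [Field E] [Algebra O E]

/-! ### Newton iteration for idempotents -/

section newton

variable (B : Subalgebra O E) {ϖ : E}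

/-- Lifting an idempotent modulo `ϖ` to an idempotent modulo `ϖ ^ n`, inside a subalgebra. -/
theorem exists_lift_idem (hϖB : ϖ ∈ B) (hϖ : ϖ ≠ 0) {a : E} (ha : a ∈ B)
    (hidem : (a ^ 2 - a) / ϖ ∈ B) (n : ℕ) (hn : 1 ≤ n) :
    ∃ A ∈ B, (A - a) / ϖ ∈ B ∧ (A ^ 2 - A) / ϖ ^ n ∈ B := by
  induction n, hn using Nat.le_induction with
  | base =>
    refine ⟨a, ha, ?_, ?_⟩
    · rw [sub_self, zero_div]; exact B.zero_mem
    · rw [pow_one]; exact hidem
  | succ n hn ih =>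
    obtain ⟨A, hA, hAa, hAn⟩ := ih
    set u : E := (A ^ 2 - A) / ϖ ^ n with hu
    have hϖn : ϖ ^ n ≠ 0 := pow_ne_zero n hϖ
    have hAA : A ^ 2 - A = ϖ ^ n * u := by rw [hu]; field_simp
    refine ⟨3 * A ^ 2 - 2 * A ^ 3, ?_, ?_, ?_⟩
    · exact B.sub_mem (B.mul_mem (by simp) (B.pow_mem hA 2))
        (B.mul_mem (by simp) (B.pow_mem hA 3))
    · -- `f(A) - a = (A - a) - (A² - A)(2A - 1)`
      have e : (3 * A ^ 2 - 2 * A ^ 3 - a) / ϖ =
          (A - a) / ϖ - ϖ ^ (n - 1) * u * (2 * A - 1) := by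
        have h1 : ϖ ^ n = ϖ * ϖ ^ (n - 1) := by
          rw [← pow_succ', Nat.sub_add_cancel hn]
        have h2 : 3 * A ^ 2 - 2 * A ^ 3 - a = (A - a) - (A ^ 2 - A) * (2 * A - 1) := by ring
        rw [h2, hAA, h1]
        field_simp
      rw [e]
      refine B.sub_mem hAa (B.mul_mem (B.mul_mem (B.pow_mem hϖB _) hAn) ?_)
      exact B.sub_mem (B.mul_mem (by simp) hA) B.one_mem
    · -- `f² - f = (A² - A)² (4A² - 4A - 3)`
      have e : ((3 * A ^ 2 - 2 * A ^ 3) ^ 2 - (3 * A ^ 2 - 2 * A ^ 3)) / ϖ ^ (n + 1) =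
          ϖ ^ (n - 1) * u ^ 2 * (4 * A ^ 2 - 4 * A - 3) := by
        have h1 : ϖ ^ n = ϖ * ϖ ^ (n - 1) := by
          rw [← pow_succ', Nat.sub_add_cancel hn]
        have h2 : (3 * A ^ 2 - 2 * A ^ 3) ^ 2 - (3 * A ^ 2 - 2 * A ^ 3) =
            (A ^ 2 - A) ^ 2 * (4 * A ^ 2 - 4 * A - 3) := by ring
        have h3 : ϖ ^ (n + 1) = ϖ ^ n * ϖ := pow_succ ϖ n
        rw [h2, hAA, h3]
        have h4 : (ϖ ^ n * u) ^ 2 = (ϖ ^ n * ϖ) * (ϖ ^ (n - 1) * u ^ 2) := by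
          rw [h1]; ring
        rw [h4, mul_assoc, mul_div_cancel_left₀ _ (mul_ne_zero hϖn hϖ)]
      rw [e]
      refine B.mul_mem (B.mul_mem (B.pow_mem hϖB _) (B.pow_mem hAn 2)) ?_
      refine B.sub_mem (B.sub_mem (B.mul_mem (by simp) (B.pow_mem hA 2))
        (B.mul_mem (by simp) hA)) (by simp)

/-- Uniqueness of idempotent lifts: two idempotents modulo `ϖ ^ n` which agree modulo `ϖ` agree modulo
`ϖ ^ n`. -/
theorem sub_div_pow_mem (hϖB : ϖ ∈ B) (hϖ : ϖ ≠ 0) {A A' : E} (hA : A ∈ B) (hA' : A' ∈ B) (n : ℕ)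
    (hAn : (A ^ 2 - A) / ϖ ^ n ∈ B) (hA'n : (A' ^ 2 - A') / ϖ ^ n ∈ B)
    (h1 : (A - A') / ϖ ∈ B) (j : ℕ) (hj1 : 1 ≤ j) (hjn : j ≤ n) : (A - A') / ϖ ^ j ∈ B := by
  induction j, hj1 using Nat.le_induction with
  | base => rw [pow_one]; exact h1
  | succ j hj ih =>
    have ihj := ih (Nat.le_of_succ_le hjn)
    set δ : E := A - A' with hδ
    set u : E := (A ^ 2 - A) / ϖ ^ n with hu
    set u' : E := (A' ^ 2 - A') / ϖ ^ n with hu'
    set d : E := δ / ϖ ^ j with hd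
    have hϖn : ϖ ^ n ≠ 0 := pow_ne_zero n hϖ
    have hϖj : ϖ ^ j ≠ 0 := pow_ne_zero j hϖ
    have hAA : A ^ 2 - A = ϖ ^ n * u := by rw [hu]; field_simp
    have hAA' : A' ^ 2 - A' = ϖ ^ n * u' := by rw [hu']; field_simp
    have hδd : δ = ϖ ^ j * d := by rw [hd]; field_simp
    have key : δ = δ ^ 3 - ((A ^ 2 - A) * (1 + A - 3 * A') - (A' ^ 2 - A') * (1 + A' - 3 * A)) := by
      rw [hδ]; ring
    have hn' : ϖ ^ n = ϖ ^ (j + 1) * ϖ ^ (n - (j + 1)) := by
      rw [← pow_add, Nat.add_sub_cancel' hjn]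
    have hj' : (ϖ ^ j) ^ 3 = ϖ ^ (j + 1) * ϖ ^ (2 * j - 1) := by
      rw [← pow_mul, ← pow_add]
      congr 1
      omega
    have e : δ / ϖ ^ (j + 1) = ϖ ^ (2 * j - 1) * d ^ 3 -
        ϖ ^ (n - (j + 1)) * (u * (1 + A - 3 * A') - u' * (1 + A' - 3 * A)) := by
      have hne : ϖ ^ (j + 1) ≠ 0 := pow_ne_zero _ hϖ
      rw [div_eq_iff hne]
      calc δ = δ ^ 3 - ((A ^ 2 - A) * (1 + A - 3 * A') - (A' ^ 2 - A') * (1 + A' - 3 * A)) := key
        _ = (ϖ ^ j) ^ 3 * d ^ 3 -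
            ϖ ^ n * (u * (1 + A - 3 * A') - u' * (1 + A' - 3 * A)) := by
            rw [hAA, hAA', hδd]; ring
        _ = _ := by rw [hn', hj']; ring
    rw [e]
    have h3 : (3 : E) ∈ B := by simp
    refine B.sub_mem (B.mul_mem (B.pow_mem hϖB _) (B.pow_mem ihj 3))
      (B.mul_mem (B.pow_mem hϖB _) (B.sub_mem (B.mul_mem hAn ?_) (B.mul_mem hA'n ?_)))
    · exact B.sub_mem (B.add_mem B.one_mem hA) (B.mul_mem h3 hA')
    · exact B.sub_mem (B.add_mem B.one_mem hA') (B.mul_mem h3 hA)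

end newton

/-! ### Bounded `π`-power torsion in `H¹ = B01 / (B0 + B1)` -/

section torsion

variable (π : O) (B0 B1 B01 : Subalgebra O E) (t : E)

/-- `B01 ⊆ B0 + B1 + (finitely generated)`. -/
theorem le_sup_span (ht : t ≠ 0) (ht0 : t ∈ B0) (ht1 : t⁻¹ ∈ B1) (h0 : B0 ≤ B01)
    (hloc0 : ∀ x ∈ B01, ∃ m : ℕ, t ^ m * x ∈ B0)
    (hloc1 : ∀ x ∈ B01, ∃ m : ℕ, t⁻¹ ^ m * x ∈ B1)
    (s : Finset E) (hs : ∀ e ∈ s, e ∈ B0)
    (hspan : Subalgebra.toSubmodule B0 ≤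
      Submodule.span O {y | ∃ j : ℕ, ∃ e ∈ s, y = t ^ j * e}) :
    ∃ F : Finset E, Subalgebra.toSubmodule B01 ≤
      (Subalgebra.toSubmodule B0 ⊔ Subalgebra.toSubmodule B1) ⊔ Submodule.span O (F : Set E) := by
  classical
  -- a uniform exponent `D` with `t⁻ᴰ e ∈ B1`
  have hm : ∀ e : E, ∃ m : ℕ, e ∈ s → t⁻¹ ^ m * e ∈ B1 := by
    intro e
    by_cases he : e ∈ s
    · obtain ⟨m, hm⟩ := hloc1 e (h0 (hs e he))
      exact ⟨m, fun _ => hm⟩
    · exact ⟨0, fun h => absurd h he⟩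
  choose mfun hmfun using hm
  set D : ℕ := s.sup mfun with hD
  have hDe : ∀ e ∈ s, ∀ r : ℕ, D ≤ r → t⁻¹ ^ r * e ∈ B1 := by
    intro e he r hr
    have h1 : mfun e ≤ r := le_trans (Finset.le_sup he) hr
    have h2 : t⁻¹ ^ r * e = t⁻¹ ^ (r - mfun e) * (t⁻¹ ^ mfun e * e) := by
      rw [← mul_assoc, ← pow_add, Nat.sub_add_cancel h1]
    rw [h2]
    exact B1.mul_mem (B1.pow_mem ht1 _) (hmfun e he)
  set F : Finset E := (Finset.range D ×ˢ s).image (fun p : ℕ × E => t⁻¹ ^ p.1 * p.2) with hF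
  refine ⟨F, ?_⟩
  intro x hx
  obtain ⟨m, hmx⟩ := hloc0 x hx
  have hmx' : t ^ m * x ∈ Submodule.span O {y | ∃ j : ℕ, ∃ e ∈ s, y = t ^ j * e} := hspan hmx
  set L : E →ₗ[O] E := LinearMap.mulLeft O (t⁻¹ ^ m) with hL
  have hxL : x = L (t ^ m * x) := by
    rw [hL, LinearMap.mulLeft_apply, ← mul_assoc, ← mul_pow, inv_mul_cancel₀ ht, one_pow, one_mul]
  have hmem : x ∈ Submodule.map L (Submodule.span O {y | ∃ j : ℕ, ∃ e ∈ s, y = t ^ j * e}) := by
    rw [hxL]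
    exact Submodule.mem_map_of_mem hmx'
  rw [Submodule.map_span] at hmem
  refine (Submodule.span_le.mpr ?_) hmem
  rintro _ ⟨y, ⟨j, e, he, rfl⟩, rfl⟩
  rw [hL, LinearMap.mulLeft_apply]
  by_cases hjm : m ≤ j
  · -- in `B0`
    have e1 : t⁻¹ ^ m * (t ^ j * e) = t ^ (j - m) * e := by
      have : t ^ j = t ^ m * t ^ (j - m) := by rw [← pow_add, Nat.add_sub_cancel' hjm]
      rw [this, ← mul_assoc, ← mul_assoc, ← mul_pow, inv_mul_cancel₀ ht, one_pow, one_mul]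
    rw [e1]
    apply Submodule.mem_sup_left
    apply Submodule.mem_sup_left
    exact B0.mul_mem (B0.pow_mem ht0 _) (hs e he)
  · have hjm' : j < m := Nat.lt_of_not_le hjm
    have e1 : t⁻¹ ^ m * (t ^ j * e) = t⁻¹ ^ (m - j) * e := by
      have : t⁻¹ ^ m = t⁻¹ ^ (m - j) * t⁻¹ ^ j := by rw [← pow_add, Nat.sub_add_cancel hjm'.le]
      rw [this, mul_assoc, ← mul_assoc (t⁻¹ ^ j), ← mul_pow, inv_mul_cancel₀ ht, one_pow, one_mul]
    rw [e1]
    by_cases hD' : D ≤ m - j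
    · apply Submodule.mem_sup_left
      apply Submodule.mem_sup_right
      exact hDe e he _ hD'
    · apply Submodule.mem_sup_right
      apply Submodule.subset_span
      rw [hF, Finset.coe_image]
      exact ⟨(m - j, e), Finset.mem_coe.mpr (Finset.mem_product.mpr
        ⟨Finset.mem_range.mpr (Nat.lt_of_not_le hD'), he⟩), rfl⟩

/-- The `π`-power torsion of `B01 / (B0 + B1)` is bounded. -/
theorem exists_torsion_bound [IsNoetherianRing O] (ht : t ≠ 0) (ht0 : t ∈ B0) (ht1 : t⁻¹ ∈ B1) (h0 : B0 ≤ B01)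
    (hloc0 : ∀ x ∈ B01, ∃ m : ℕ, t ^ m * x ∈ B0)
    (hloc1 : ∀ x ∈ B01, ∃ m : ℕ, t⁻¹ ^ m * x ∈ B1)
    (hfin : ∃ s : Finset E, (∀ e ∈ s, e ∈ B0) ∧ Subalgebra.toSubmodule B0 ≤
      Submodule.span O {y | ∃ j : ℕ, ∃ e ∈ s, y = t ^ j * e}) :
    ∃ N : ℕ, ∀ x ∈ B01, ∀ n : ℕ,
      (algebraMap O E π) ^ n * x ∈ Subalgebra.toSubmodule B0 ⊔ Subalgebra.toSubmodule B1 →
      (algebraMap O E π) ^ N * x ∈ Subalgebra.toSubmodule B0 ⊔ Subalgebra.toSubmodule B1 := by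
  obtain ⟨s, hs, hspan⟩ := hfin
  obtain ⟨F, hF⟩ := le_sup_span B0 B1 B01 t ht ht0 ht1 h0 hloc0 hloc1 s hs hspan
  set S : Submodule O E := Subalgebra.toSubmodule B0 ⊔ Subalgebra.toSubmodule B1 with hS
  set H : Submodule O (E ⧸ S) := (Submodule.span O (F : Set E)).map S.mkQ with hH
  have hHfg : H.FG := (Submodule.fg_span F.finite_toSet).map _
  have hHnoeth : IsNoetherian O H := isNoetherian_of_fg_of_noetherian H hHfg
  -- the chain of `π ^ n`-torsion submodules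
  let g : ℕ →o Submodule O H :=
    ⟨fun n => LinearMap.ker ((π ^ n) • (LinearMap.id : H →ₗ[O] H)),
      monotone_nat_of_le_succ (fun n c hc => by
        rw [LinearMap.mem_ker, LinearMap.smul_apply, LinearMap.id_apply] at hc ⊢
        rw [pow_succ', mul_smul, hc, smul_zero])⟩
  obtain ⟨N, hN⟩ := (monotone_stabilizes_iff_noetherian.mpr hHnoeth) g
  refine ⟨N, fun x hx n hn => ?_⟩
  have hmk0 : ∀ y : E, S.mkQ y = 0 ↔ y ∈ S := fun y => by
    rw [Submodule.mkQ_apply]; exact Submodule.Quotient.mk_eq_zero S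
  -- the class of `x`
  have hxH : S.mkQ x ∈ H := by
    have := hF hx
    obtain ⟨y, hy, z, hz, hyz⟩ := Submodule.mem_sup.mp this
    have : S.mkQ x = S.mkQ z := by
      rw [← hyz, map_add, (hmk0 y).mpr hy, zero_add]
    rw [this]
    exact Submodule.mem_map_of_mem hz
  have hsmul : ∀ r : ℕ, (π ^ r) • x = (algebraMap O E π) ^ r * x := by
    intro r
    rw [Algebra.smul_def, map_pow]
  have hcn : (⟨S.mkQ x, hxH⟩ : H) ∈ g n := by
    show (⟨S.mkQ x, hxH⟩ : H) ∈ LinearMap.ker ((π ^ n) • (LinearMap.id : H →ₗ[O] H))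
    rw [LinearMap.mem_ker, LinearMap.smul_apply, LinearMap.id_apply]
    apply Subtype.ext
    rw [Submodule.coe_smul, Submodule.coe_zero, ← map_smul, hsmul]
    exact (hmk0 _).mpr hn
  have hcN : (⟨S.mkQ x, hxH⟩ : H) ∈ g N := by
    rcases le_total n N with hnN | hNn
    · exact g.monotone hnN hcn
    · rw [hN n hNn]; exact hcn
  have hcN' : (⟨S.mkQ x, hxH⟩ : H) ∈ LinearMap.ker ((π ^ N) • (LinearMap.id : H →ₗ[O] H)) := hcN
  rw [LinearMap.mem_ker, LinearMap.smul_apply, LinearMap.id_apply] at hcN'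
  have := congrArg Subtype.val hcN'
  rw [Submodule.coe_smul, Submodule.coe_zero, ← map_smul, hsmul] at this
  exact (hmk0 _).mp this

end torsion

/-! ### The Zariski idempotent lemma -/

section main

variable [IsNoetherianRing O] (π : O) (B0 B1 B01 : Subalgebra O E) (t : E)

/-- **Two-chart Zariski idempotent lemma** (connectedness of the special fibre), stated with
representatives: if `a ∈ B0`, `b ∈ B1` are idempotent modulo `π` and agree modulo `π` in `B01`, then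
both are `≡ 0` or both are `≡ 1` modulo `π`. -/
theorem idempotent_trivial (hπ : Prime π) (hϖ : algebraMap O E π ≠ 0)
    (ht : t ≠ 0) (ht0 : t ∈ B0) (ht1 : t⁻¹ ∈ B1) (h0 : B0 ≤ B01) (h1 : B1 ≤ B01)
    (hloc0 : ∀ x ∈ B01, ∃ m : ℕ, t ^ m * x ∈ B0)
    (hloc1 : ∀ x ∈ B01, ∃ m : ℕ, t⁻¹ ^ m * x ∈ B1)
    (hfin : ∃ s : Finset E, (∀ e ∈ s, e ∈ B0) ∧ Subalgebra.toSubmodule B0 ≤
      Submodule.span O {y | ∃ j : ℕ, ∃ e ∈ s, y = t ^ j * e})
    (hcap : ∀ x, x ∈ B0 → x ∈ B1 → ∃ c : O, algebraMap O E c = x)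
    (hsat : ∀ c : O, algebraMap O E c / algebraMap O E π ∈ B0 → π ∣ c)
    {a b : E} (ha : a ∈ B0) (hb : b ∈ B1)
    (haa : (a ^ 2 - a) / algebraMap O E π ∈ B0) (hbb : (b ^ 2 - b) / algebraMap O E π ∈ B1)
    (hab : (a - b) / algebraMap O E π ∈ B01) :
    (a / algebraMap O E π ∈ B0 ∧ b / algebraMap O E π ∈ B1) ∨
      ((a - 1) / algebraMap O E π ∈ B0 ∧ (b - 1) / algebraMap O E π ∈ B1) := by
  set ϖ : E := algebraMap O E π with hϖdef
  have hϖ0 : ϖ ∈ B0 := B0.algebraMap_mem π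
  have hϖ1 : ϖ ∈ B1 := B1.algebraMap_mem π
  have hϖ01 : ϖ ∈ B01 := B01.algebraMap_mem π
  obtain ⟨N, hN⟩ := exists_torsion_bound π B0 B1 B01 t ht ht0 ht1 h0 hloc0 hloc1 hfin
  obtain ⟨A, hA, hAa, hAn⟩ := exists_lift_idem B0 hϖ0 hϖ ha haa (N + 1) (by omega)
  obtain ⟨Bb, hB, hBb, hBn⟩ := exists_lift_idem B1 hϖ1 hϖ hb hbb (N + 1) (by omega)
  -- the two lifts agree modulo `ϖ ^ (N + 1)` in `B01`
  have hABϖ : (A - Bb) / ϖ ∈ B01 := by
    have e : (A - Bb) / ϖ = (A - a) / ϖ + (a - b) / ϖ - (Bb - b) / ϖ := by ring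
    rw [e]
    exact B01.sub_mem (B01.add_mem (h0 hAa) hab) (h1 hBb)
  have hx : (A - Bb) / ϖ ^ (N + 1) ∈ B01 :=
    sub_div_pow_mem B01 hϖ01 hϖ (h0 hA) (h1 hB) (N + 1) (h0 hAn) (h1 hBn) hABϖ (N + 1)
      (by omega) le_rfl
  set x : E := (A - Bb) / ϖ ^ (N + 1) with hxdef
  have hϖN1 : ϖ ^ (N + 1) ≠ 0 := pow_ne_zero _ hϖ
  have hϖN : ϖ ^ N ≠ 0 := pow_ne_zero _ hϖ
  have hxmul : ϖ ^ (N + 1) * x = A - Bb := by rw [hxdef]; field_simp
  have hmemS : ϖ ^ (N + 1) * x ∈ Subalgebra.toSubmodule B0 ⊔ Subalgebra.toSubmodule B1 := by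
    rw [hxmul, sub_eq_add_neg]
    exact Submodule.add_mem_sup hA (B1.neg_mem hB)
  have hmemN := hN x hx (N + 1) hmemS
  obtain ⟨α, hα, β, hβ, hαβ⟩ := Submodule.mem_sup.mp hmemN
  have hα' : α ∈ B0 := hα
  have hβ' : β ∈ B1 := hβ
  -- `ϖ (α + β) = A - Bb`
  have hkey : ϖ * (α + β) = A - Bb := by
    rw [hαβ, ← mul_assoc, ← pow_succ', hxmul]
  set h : E := A - ϖ * α with hh
  have hh' : h = Bb + ϖ * β := by
    rw [hh]
    linear_combination (-1 : E) * hkey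
  have hh0 : h ∈ B0 := B0.sub_mem hA (B0.mul_mem hϖ0 hα')
  have hh1 : h ∈ B1 := by rw [hh']; exact B1.add_mem hB (B1.mul_mem hϖ1 hβ')
  obtain ⟨c, hc⟩ := hcap h hh0 hh1
  -- `h` is idempotent modulo `ϖ` in `B0`
  have hAϖ : (A ^ 2 - A) / ϖ ∈ B0 := by
    have e : (A ^ 2 - A) / ϖ = ϖ ^ N * ((A ^ 2 - A) / ϖ ^ (N + 1)) := by
      field_simp
      ring
    rw [e]
    exact B0.mul_mem (B0.pow_mem hϖ0 N) hAn
  have hhh : (h ^ 2 - h) / ϖ ∈ B0 := by
    have e : (h ^ 2 - h) / ϖ = (A ^ 2 - A) / ϖ - α * (A + h - 1) := by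
      rw [hh]
      field_simp
      ring
    rw [e]
    exact B0.sub_mem hAϖ (B0.mul_mem hα' (B0.sub_mem (B0.add_mem hA hh0) B0.one_mem))
  have hdvd : π ∣ c * (c - 1) := by
    apply hsat
    have e : algebraMap O E (c * (c - 1)) = h ^ 2 - h := by
      rw [map_mul, map_sub, map_one, hc]; ring
    rw [e]
    exact hhh
  rcases hπ.dvd_or_dvd hdvd with ⟨c₁, hc₁⟩ | ⟨c₁, hc₁⟩
  · -- `h ≡ 0`
    left
    have hhc : h = ϖ * algebraMap O E c₁ := by rw [← hc, hc₁, map_mul]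
    constructor
    · have e : a / ϖ = algebraMap O E c₁ + α - (A - a) / ϖ := by
        have hAeq : A = ϖ * algebraMap O E c₁ + ϖ * α := by rw [← hhc, hh]; ring
        rw [hAeq]
        field_simp
        ring
      rw [e]
      exact B0.sub_mem (B0.add_mem (B0.algebraMap_mem c₁) hα') hAa
    · have e : b / ϖ = algebraMap O E c₁ - β - (Bb - b) / ϖ := by
        have hBeq : Bb = ϖ * algebraMap O E c₁ - ϖ * β := by rw [← hhc, hh']; ring
        rw [hBeq]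
        field_simp
        ring
      rw [e]
      exact B1.sub_mem (B1.sub_mem (B1.algebraMap_mem c₁) hβ') hBb
  · -- `h ≡ 1`
    right
    have hhc : h - 1 = ϖ * algebraMap O E c₁ := by
      rw [← hc, ← map_one (algebraMap O E), ← map_sub, hc₁, map_mul]
    constructor
    · have e : (a - 1) / ϖ = algebraMap O E c₁ + α - (A - a) / ϖ := by
        have hAeq : A = 1 + ϖ * algebraMap O E c₁ + ϖ * α := by rw [← hhc, hh]; ring
        rw [hAeq]
        field_simp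
        ring
      rw [e]
      exact B0.sub_mem (B0.add_mem (B0.algebraMap_mem c₁) hα') hAa
    · have e : (b - 1) / ϖ = algebraMap O E c₁ - β - (Bb - b) / ϖ := by
        have hBeq : Bb = 1 + ϖ * algebraMap O E c₁ - ϖ * β := by rw [← hhc, hh']; ring
        rw [hBeq]
        field_simp
        ring
      rw [e]
      exact B1.sub_mem (B1.sub_mem (B1.algebraMap_mem c₁) hβ') hBb

end main

/-! ### Quotient-ring form -/

section quotient

variable (π : O)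

/-- Membership in the principal ideal `π B` of a subalgebra `B` of the field `E`. -/
theorem mem_span_iff (B : Subalgebra O E) (hϖ : algebraMap O E π ≠ 0) (x : B) :
    x ∈ Ideal.span {algebraMap O B π} ↔ (x : E) / algebraMap O E π ∈ B := by
  rw [Ideal.mem_span_singleton']
  constructor
  · rintro ⟨y, hy⟩
    have h1 : (x : E) = (y : E) * algebraMap O E π := by
      rw [← hy]; rfl
    rw [h1, mul_div_assoc, div_self hϖ, mul_one]
    exact y.2
  · intro h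
    refine ⟨⟨(x : E) / algebraMap O E π, h⟩, ?_⟩
    apply Subtype.ext
    show (x : E) / algebraMap O E π * algebraMap O E π = x
    rw [div_mul_cancel₀ _ hϖ]

variable [IsNoetherianRing O] (B0 B1 B01 : Subalgebra O E) (t : E)

/-- **Two-chart Zariski idempotent lemma**, quotient-ring form: an idempotent `(ā, b̄)` of
`B0/π × B1/π` whose components agree in `B01/π` is `(0, 0)` or `(1, 1)`. -/
theorem idempotent_trivial_quot (hπ : Prime π) (hϖ : algebraMap O E π ≠ 0)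
    (ht : t ≠ 0) (ht0 : t ∈ B0) (ht1 : t⁻¹ ∈ B1) (h0 : B0 ≤ B01) (h1 : B1 ≤ B01)
    (hloc0 : ∀ x ∈ B01, ∃ m : ℕ, t ^ m * x ∈ B0)
    (hloc1 : ∀ x ∈ B01, ∃ m : ℕ, t⁻¹ ^ m * x ∈ B1)
    (hfin : ∃ s : Finset E, (∀ e ∈ s, e ∈ B0) ∧ Subalgebra.toSubmodule B0 ≤
      Submodule.span O {y | ∃ j : ℕ, ∃ e ∈ s, y = t ^ j * e})
    (hcap : ∀ x, x ∈ B0 → x ∈ B1 → ∃ c : O, algebraMap O E c = x)
    (hsat : ∀ c : O, algebraMap O E c / algebraMap O E π ∈ B0 → π ∣ c)
    (a : B0) (b : B1)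
    (ha : IsIdempotentElem (Ideal.Quotient.mk (Ideal.span {algebraMap O B0 π}) a))
    (hb : IsIdempotentElem (Ideal.Quotient.mk (Ideal.span {algebraMap O B1 π}) b))
    (hab : Subalgebra.inclusion h0 a - Subalgebra.inclusion h1 b ∈
      Ideal.span {algebraMap O B01 π}) :
    (Ideal.Quotient.mk (Ideal.span {algebraMap O B0 π}) a = 0 ∧
        Ideal.Quotient.mk (Ideal.span {algebraMap O B1 π}) b = 0) ∨
      (Ideal.Quotient.mk (Ideal.span {algebraMap O B0 π}) a = 1 ∧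
        Ideal.Quotient.mk (Ideal.span {algebraMap O B1 π}) b = 1) := by
  have haa : ((a : E) ^ 2 - a) / algebraMap O E π ∈ B0 := by
    have h : a * a - a ∈ Ideal.span {algebraMap O B0 π} := by
      rw [← Ideal.Quotient.eq_zero_iff_mem, map_sub, map_mul, ha.eq, sub_self]
    have := (mem_span_iff π B0 hϖ _).mp h
    rw [pow_two]
    exact this
  have hbb : ((b : E) ^ 2 - b) / algebraMap O E π ∈ B1 := by
    have h : b * b - b ∈ Ideal.span {algebraMap O B1 π} := by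
      rw [← Ideal.Quotient.eq_zero_iff_mem, map_sub, map_mul, hb.eq, sub_self]
    have := (mem_span_iff π B1 hϖ _).mp h
    rw [pow_two]
    exact this
  have hab' : ((a : E) - b) / algebraMap O E π ∈ B01 := (mem_span_iff π B01 hϖ _).mp hab
  rcases idempotent_trivial π B0 B1 B01 t hπ hϖ ht ht0 ht1 h0 h1 hloc0 hloc1 hfin hcap hsat
    a.2 b.2 haa hbb hab' with ⟨h1', h2'⟩ | ⟨h1', h2'⟩
  · left
    exact ⟨Ideal.Quotient.eq_zero_iff_mem.mpr ((mem_span_iff π B0 hϖ a).mpr h1'),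
      Ideal.Quotient.eq_zero_iff_mem.mpr ((mem_span_iff π B1 hϖ b).mpr h2')⟩
  · right
    constructor
    · rw [← map_one (Ideal.Quotient.mk (Ideal.span {algebraMap O B0 π})), Ideal.Quotient.eq]
      exact (mem_span_iff π B0 hϖ (a - 1)).mpr h1'
    · rw [← map_one (Ideal.Quotient.mk (Ideal.span {algebraMap O B1 π})), Ideal.Quotient.eq]
      exact (mem_span_iff π B1 hϖ (b - 1)).mpr h2'

end quotient

/-! ### A converter for the finiteness hypothesis -/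

/-- The finiteness hypothesis `hfin` of `idempotent_trivial` follows from: every element of `B0` is a
combination of finitely many `e ∈ B0` with coefficients polynomials in `t` over `O`. -/
theorem hfin_of_polynomial (B0 : Subalgebra O E) (t : E) (s : Finset E) (hs : ∀ e ∈ s, e ∈ B0)
    (h : ∀ x ∈ B0, ∃ p : E → Polynomial O, x = ∑ e ∈ s, Polynomial.aeval t (p e) * e) :
    ∃ s : Finset E, (∀ e ∈ s, e ∈ B0) ∧ Subalgebra.toSubmodule B0 ≤
      Submodule.span O {y | ∃ j : ℕ, ∃ e ∈ s, y = t ^ j * e} := by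
  refine ⟨s, hs, fun x hx => ?_⟩
  obtain ⟨p, hp⟩ := h x hx
  rw [hp]
  refine Submodule.sum_mem _ (fun e he => ?_)
  rw [Polynomial.aeval_eq_sum_range, Finset.sum_mul]
  refine Submodule.sum_mem _ (fun j _ => ?_)
  rw [smul_mul_assoc]
  exact Submodule.smul_mem _ _ (Submodule.subset_span ⟨j, e, he, rfl⟩)

end Fermat.Agent.DS.G.RED.Igusa.ZariskiIdem
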